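import Fermat.Agent.S14.CrossingInterface
import Fermat.Agent.F4.Ray.Defs
import Fermat.Agent.MU.S17.W.Final

section MergeWrap_F4_Recip_Setup -- from F4/Recip/Setup.lean

/-!
# F4 / GLOB reciprocity: crossing with cyclotomic fields over a general base — set-up

Owner: helper14.  Generalises `S14/Crossing/Setup.lean` (base `ℚ(ζ_p)`, no modulus) to an
arbitrary Galois extension `M/F` of number fields.

* `Om M m = M(ζ_m)` (`CyclotomicField m M`), Galois over `F`;
* `Gam F M m = Gal(Ω/F)`, `resM : Gam → Gal(M/F)`, `cyc : Gam → (ℤ/m)ˣ`;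
* for a subgroup `H ≤ Gam`: `EH = Ω^H` (an intermediate field of `Ω/F`) and
  `MH = Ω^(H ∩ ker resM) = M · EH` (an intermediate field of `Ω/EH`), with its `M`-algebra
  structure;
* for a character `ψ` of `Gal(M/F)` and a Dirichlet character `χ` mod `d ∣ m`:
  `Theta = (ψ ∘ resM) * (χ ∘ cyc)⁻¹ : Gam → ℂˣ`.
-/

set_option autoImplicit false
set_option linter.unusedSectionVars false

open NumberField Polynomial
open scoped nonZeroDivisors IntermediateField

noncomputable section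

namespace Fermat.Agent.F4Rec

variable (F M : Type) [Field F] [NumberField F] [Field M] [NumberField M] [Algebra F M]
  [IsGalois F M]
variable (m : ℕ) [NeZero m]

/-- The big field `Ω = M(ζ_m)`. -/
abbrev Om : Type := CyclotomicField m M

instance isGalois_M_Om : IsGalois M (Om M m) := IsCyclotomicExtension.isGalois {m} M (Om M m)

theorem isGalois_F_Om : IsGalois F (Om M m) := by
  obtain ⟨f, hfsep, hf⟩ := IsGalois.is_separable_splitting_field F M
  have hf0 : f ≠ 0 := hfsep.ne_zero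
  have hg0 : (X ^ m - 1 : F[X]) ≠ 0 := by
    have := X_pow_sub_C_ne_zero (NeZero.pos m) (1 : F)
    simpa using this
  have h1 : IsSplittingField M (Om M m) ((X ^ m - 1 : F[X]).map (algebraMap F M)) := by
    have := IsCyclotomicExtension.isSplittingField_X_pow_sub_one m M (Om M m)
    simpa using this
  have h2 := IsSplittingField.mul (F := F) (K := M) (L := Om M m) f (X ^ m - 1) hf0 hg0
  have : Normal F (Om M m) := Normal.of_isSplittingField (f * (X ^ m - 1))
  exact ⟨⟩

instance isGalois_F_Om' : IsGalois F (Om M m) := isGalois_F_Om F M m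

/-- `Γ = Gal(Ω/F)`. -/
abbrev Gam : Type := Om M m ≃ₐ[F] Om M m

/-- Restriction `Gal(Ω/F) → Gal(M/F)`. -/
def resM : Gam F M m →* (M ≃ₐ[F] M) := AlgEquiv.restrictNormalHom M

theorem resM_commutes (g : Gam F M m) (x : M) :
    algebraMap M (Om M m) (resM F M m g x) = g (algebraMap M (Om M m) x) :=
  AlgEquiv.restrictNormal_commutes g M x

/-- The distinguished primitive `m`-th root of unity of `Ω`. -/
def zetaOm : Om M m := IsCyclotomicExtension.zeta m M (Om M m)

theorem zetaOm_spec : IsPrimitiveRoot (zetaOm M m) m :=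
  IsCyclotomicExtension.zeta_spec m M (Om M m)

/-- The cyclotomic character `Gal(Ω/F) → (ℤ/m)ˣ`: `g ζ_m = ζ_m ^ (cyc g)`. -/
def cyc : Gam F M m →* (ZMod m)ˣ := IsPrimitiveRoot.autToPow F (zetaOm_spec M m)

theorem cyc_spec (g : Gam F M m) :
    g (zetaOm M m) = zetaOm M m ^ ((cyc F M m g : ZMod m).val) := by
  have := IsPrimitiveRoot.autToPow_spec F (zetaOm_spec M m) g
  exact this.symm

/-- The twisting character `Θ = (ψ ∘ resM) * (χ ∘ cyc)⁻¹` attached to a character `ψ` of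
`Gal(M/F)` and a Dirichlet character `χ` modulo a divisor `d` of `m`. -/
def Theta (ψ : (M ≃ₐ[F] M) →* ℂˣ) {d : ℕ} (hd : d ∣ m) (χ : DirichletCharacter ℂ d) :
    Gam F M m →* ℂˣ :=
  (ψ.comp (resM F M m)) * ((χ.toUnitHom.comp ((ZMod.unitsMap hd).comp (cyc F M m))))⁻¹

section fields

variable (H : Subgroup (Gam F M m))

/-- `E_H = Ω^H`. -/
abbrev EH : IntermediateField F (Om M m) := IntermediateField.fixedField H

/-- The elements of `Gal(Ω/E_H)` acting trivially on `M`. -/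
def HL : Subgroup (Om M m ≃ₐ[EH F M m H] Om M m) :=
  ((resM F M m).comp (AlgEquiv.restrictScalarsHom F)).ker

instance : (HL F M m H).Normal := by
  unfold HL
  infer_instance

/-- `M_H = Ω^(H ∩ ker resM) = M · E_H`, as an intermediate field of `Ω/E_H`. -/
abbrev MH : IntermediateField (EH F M m H) (Om M m) := IntermediateField.fixedField (HL F M m H)

instance isGalois_EH_MH : IsGalois (EH F M m H) (MH F M m H) :=
  IsGalois.of_fixedField_normal_subgroup (HL F M m H)

theorem algebraMap_mem_MH (x : M) : algebraMap M (Om M m) x ∈ MH F M m H := by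
  rw [IntermediateField.mem_fixedField_iff]
  intro g hg
  have hg' : resM F M m (AlgEquiv.restrictScalarsHom F g) = 1 := hg
  have := resM_commutes F M m (AlgEquiv.restrictScalarsHom F g) x
  rw [hg'] at this
  exact this.symm

/-- The embedding `M → M_H`. -/
def algLM : M →+* MH F M m H :=
  (algebraMap M (Om M m)).codRestrict (MH F M m H).toSubfield.toSubring
    (fun x => algebraMap_mem_MH F M m H x)

instance algebra_M_MH : Algebra M (MH F M m H) := (algLM F M m H).toAlgebra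

theorem algebraMap_M_MH_coe (x : M) :
    ((algebraMap M (MH F M m H) x : MH F M m H) : Om M m) = algebraMap M (Om M m) x := rfl

instance isScalarTower_F_M_MH : IsScalarTower F M (MH F M m H) := by
  refine IsScalarTower.of_algebraMap_eq (fun x => ?_)
  apply Subtype.ext
  rw [algebraMap_M_MH_coe]
  rfl

instance isScalarTower_M_MH_Om : IsScalarTower M (MH F M m H) (Om M m) :=
  IsScalarTower.of_algebraMap_eq (fun _ => rfl)

end fields

/-- `g ∈ Gal(Ω/F)` is a Frobenius element at the prime `P` of `𝓞 Ω` for residue cardinality `q`: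
`g x ≡ x ^ q mod P`. -/
def IsFrobOm {F M : Type} [Field F] [NumberField F] [Field M] [NumberField M] [Algebra F M]
    [IsGalois F M] {m : ℕ} [NeZero m]
    (g : Gam F M m) (P : Ideal (𝓞 (Om M m))) (q : ℕ) : Prop :=
  ∀ x : 𝓞 (Om M m), ∃ y ∈ P, g (x : Om M m) - (x : Om M m) ^ q = (y : Om M m)

/-- `τ ∈ Gal(M/F)` is a Frobenius element at the prime `Q` of `𝓞 M` for residue cardinality `q`:
`τ x ≡ x ^ q mod Q`. -/
def IsFrobRel {F M : Type} [Field F] [Field M] [NumberField M] [Algebra F M]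
    (τ : M ≃ₐ[F] M) (Q : Ideal (𝓞 M)) (q : ℕ) : Prop :=
  ∀ x : 𝓞 M, ∃ y ∈ Q, τ (x : M) - (x : M) ^ q = (y : M)

/-- `M/F` is unramified at the prime `Q` of `M`: the inertia group of `Q` is trivial. -/
def UnramAt (F : Type) {M : Type} [Field F] [Field M] [NumberField M] [Algebra F M]
    (Q : Ideal (𝓞 M)) : Prop :=
  ∀ σ : M ≃ₐ[F] M, Fermat.Agent.S14.InInertia σ Q → σ = 1

end Fermat.Agent.F4Rec
end
end MergeWrap_F4_Recip_Setup

section MergeWrap_F4_Recip_Statements -- from F4/Recip/Statements.lean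

/-!
# F4 / GLOB reciprocity (Artin's crossing argument with a modulus): statements of the pieces

Owner: helper14.  Plan: `NOTES/F4-recip.md`.  Notation of `Setup.lean`: `M/F` Galois,
`Ω = Om M m = M(ζ_m)`, `Γ = Gam F M m = Gal(Ω/F)`, `resM : Γ → Gal(M/F)`, `cyc : Γ → (ℤ/m)ˣ`,
`EH = Ω^H`, `MH = M · EH`, `Theta ψ hd χ = (ψ ∘ resM) * (χ ∘ cyc)⁻¹`.

Each `Prop` is one work package; its owner proves `theorem xxx : Xxx` in his own file
`Fermat/Agent/F4/Recip/<Name>.lean` (never edit `Setup.lean`/`Statements.lean`).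

    ArtinRay   ⟸ CompareRay, FirstIneqRay (helper86), SplitNorm                     (ArtinRay.lean)
    CompareRay ⟸ AuxPrime, S14.AuxChar, GamSurj, FinrankEHMH, SplitPrimeEH, ExistsFrob, CycFrob,
                  InertRes, ChiNormMH, ERec, S14SI.inertPrimeExists                  (Compare*.lean)
    ERec       ⟸ F4Ray.SecondIneqRay (helper56), CoprimeNorm
-/

set_option autoImplicit false

open NumberField Polynomial IsDedekindDomain
open scoped nonZeroDivisors IntermediateField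

noncomputable section

namespace Fermat.Agent.F4Rec

open Fermat.Agent.S14 (InInertia)
open Fermat.Agent.F4Ray (RayClassMap SecondIneqRay)

/-! ### Galois theory of `Ω/F` -/

/-- **(G2)** an element of `Gal(Ω/F)` is determined by its restriction to `M` and its cyclotomic
character (`Ω = M(ζ_m)`). -/
def GamExt : Prop :=
  ∀ (F M : Type) [Field F] [NumberField F] [Field M] [NumberField M] [Algebra F M]
    [IsGalois F M] (m : ℕ) [NeZero m]
    (g : Gam F M m), resM F M m g = 1 → cyc F M m g = 1 → g = 1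

/-- **(G3)** surjectivity of `(resM, cyc) : Gal(Ω/F) → Gal(M/F) × (ℤ/m)ˣ` when `m` is prime to the
discriminant of `M` (then `ℚ(ζ_m)` and `M` are linearly disjoint over `ℚ`:
`NumberField.linearDisjoint_of_isGalois_isCoprime_discr`). -/
def GamSurj : Prop :=
  ∀ (F M : Type) [Field F] [NumberField F] [Field M] [NumberField M] [Algebra F M]
    [IsGalois F M] (m : ℕ) [NeZero m],
    IsCoprime (m : ℤ) (NumberField.discr M) →
    ∀ (σ : M ≃ₐ[F] M) (a : (ZMod m)ˣ), ∃ g : Gam F M m, resM F M m g = σ ∧ cyc F M m g = a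

/-- **(U1a)** if `resM` maps `H` onto `Gal(M/F)` then `[M_H : E_H] = [M : F]`. -/
def FinrankEHMH : Prop :=
  ∀ (F M : Type) [Field F] [NumberField F] [Field M] [NumberField M] [Algebra F M]
    [IsGalois F M] (m : ℕ) [NeZero m]
    (H : Subgroup (Gam F M m)),
    (∀ σ : M ≃ₐ[F] M, ∃ g ∈ H, resM F M m g = σ) →
    Module.finrank (EH F M m H) (MH F M m H) = Module.finrank F M

/-! ### Frobenius elements -/

/-- **(F1)** existence of Frobenius elements: for a nonzero prime `B` of an intermediate field `F'`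
of `Ω/F` there are a prime `P` of `Ω` above `B` and `g ∈ Gal(Ω/F')` with
`g x ≡ x ^ N(B) mod P`. -/
def ExistsFrob : Prop :=
  ∀ (F M : Type) [Field F] [NumberField F] [Field M] [NumberField M] [Algebra F M]
    [IsGalois F M] (m : ℕ) [NeZero m]
    (F' : IntermediateField F (Om M m)) (B : Ideal (𝓞 F')), B.IsPrime → B ≠ ⊥ →
    ∃ (g : Gam F M m) (P : Ideal (𝓞 (Om M m))), g ∈ F'.fixingSubgroup ∧ P.IsPrime ∧
      P.under (𝓞 F') = B ∧ IsFrobOm g P (Ideal.absNorm B)

/-- **(F1')** the cyclotomic character of a Frobenius element: if `g x ≡ x ^ q mod P` and `P` does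
not contain the divisor `d` of `m`, then `cyc g ≡ q mod d`. -/
def CycFrob : Prop :=
  ∀ (F M : Type) [Field F] [NumberField F] [Field M] [NumberField M] [Algebra F M]
    [IsGalois F M] (m : ℕ) [NeZero m]
    (g : Gam F M m) (P : Ideal (𝓞 (Om M m))) (q d : ℕ) (hd : d ∣ m), P.IsPrime →
    IsFrobOm g P q → (d : 𝓞 (Om M m)) ∉ P →
    ((ZMod.unitsMap hd (cyc F M m g) : (ZMod d)ˣ) : ZMod d) = (q : ZMod d)

/-- **(F1'')** the restriction to `M` of a Frobenius element relative to `F` at a prime `P` of `Ω`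
is the Frobenius of `M/F` at `P ∩ M`, if `M/F` is unramified at `P ∩ M`. -/
def ResFrob : Prop :=
  ∀ (F M : Type) [Field F] [NumberField F] [Field M] [NumberField M] [Algebra F M]
    [IsGalois F M] (m : ℕ) [NeZero m]
    (g : Gam F M m) (P : Ideal (𝓞 (Om M m))) (q : ℕ) (τ : M ≃ₐ[F] M),
    UnramAt F (P.under (𝓞 M)) → P.IsPrime → P ≠ ⊥ → IsFrobOm g P q →
    IsFrobRel τ (P.under (𝓞 M)) q →
    resM F M m g = τ

/-- **(hc)** the prime `Q ∩ F` (`Q` a prime of `M` at which `M/F` is unramified, with Frobenius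
`τ`) has a prime of relative degree one above it in `E_H` as soon as `H` contains the elements
`g` with `resM g = τ`, `cyc g = N(Q ∩ F)`. -/
def SplitPrimeEH : Prop :=
  ∀ (F M : Type) [Field F] [NumberField F] [Field M] [NumberField M] [Algebra F M]
    [IsGalois F M] (m : ℕ) [NeZero m]
    (H : Subgroup (Gam F M m)) (Q : Ideal (𝓞 M)) (τ : M ≃ₐ[F] M),
    Q.IsPrime → Q ≠ ⊥ → UnramAt F Q → (Ideal.absNorm (Q.under (𝓞 F))).Coprime m →
    IsFrobRel τ Q (Ideal.absNorm (Q.under (𝓞 F))) →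
    (∀ g : Gam F M m, resM F M m g = τ →
      ((cyc F M m g : (ZMod m)ˣ) : ZMod m) = ((Ideal.absNorm (Q.under (𝓞 F)) : ℕ) : ZMod m) →
      g ∈ H) →
    ∃ B : Ideal (𝓞 (EH F M m H)), B.IsPrime ∧ B ≠ ⊥ ∧
      Ideal.absNorm B = Ideal.absNorm (Q.under (𝓞 F)) ∧
      Ideal.relNorm (𝓞 F) B = Q.under (𝓞 F)

/-- **(F2')** a Frobenius element of `Ω/E_H` at a prime above a prime `B` of `E_H` which is inert
in `M_H` (residue degree `[M_H : E_H] > 1`) is not trivial on `M`. -/
def InertRes : Prop :=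
  ∀ (F M : Type) [Field F] [NumberField F] [Field M] [NumberField M] [Algebra F M]
    [IsGalois F M] (m : ℕ) [NeZero m]
    (H : Subgroup (Gam F M m)) (B : Ideal (𝓞 (EH F M m H))) (g : Gam F M m)
    (P : Ideal (𝓞 (Om M m))),
    B.IsPrime → B ≠ ⊥ → g ∈ H → P.IsPrime → P.under (𝓞 (EH F M m H)) = B →
    IsFrobOm g P (Ideal.absNorm B) → 1 < B.inertiaDegIn (𝓞 (MH F M m H)) →
    resM F M m g ≠ 1

/-- **(hb)** if `H ≤ ker Θ` then `χ` kills the norms of the ideals of `M_H` prime to `d`. -/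
def ChiNormMH : Prop :=
  ∀ (F M : Type) [Field F] [NumberField F] [Field M] [NumberField M] [Algebra F M]
    [IsGalois F M] (m : ℕ) [NeZero m]
    (H : Subgroup (Gam F M m)) (ψ : (M ≃ₐ[F] M) →* ℂˣ) (d : ℕ) (hd : d ∣ m)
    (χ : DirichletCharacter ℂ d), H ≤ (Theta F M m ψ hd χ).ker →
    ∀ I : Ideal (𝓞 (MH F M m H)), (Ideal.absNorm I).Coprime d →
      χ ((Ideal.absNorm I : ℕ) : ZMod d) = 1

/-! ### Elementary inputs -/

/-- **(X1) auxiliary primes**: for a prime `p` and `n ≥ 2` there is a prime `r` outside any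
given finite set modulo which the order of `n` is divisible by `p`.
(Take `r ∣ Φ_{p^k}(n)`, `r ≠ p`: then the order of `n` mod `r` is `p ^ k`; distinct `k` give
distinct `r`.) -/
def AuxPrime : Prop :=
  ∀ (p n : ℕ) (B : Finset ℕ), p.Prime → 2 ≤ n →
    ∃ r : ℕ, r.Prime ∧ r ∉ B ∧ (n : ZMod r) ≠ 0 ∧ p ∣ orderOf (n : ZMod r)

/-- **(CN) coprimality and norms**: an ideal of `E` prime to the extension of the ideal `𝔪` of `F`
has relative norm prime to `𝔪`. -/
def CoprimeNorm : Prop :=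
  ∀ (F E : Type) [Field F] [NumberField F] [Field E] [NumberField E] [Algebra F E]
    (𝔪 : Ideal (𝓞 F)) (I : Ideal (𝓞 E)),
    I ⊔ 𝔪.map (algebraMap (𝓞 F) (𝓞 E)) = ⊤ → Ideal.relNorm (𝓞 F) I ⊔ 𝔪 = ⊤

/-- **(CN') coprimality and absolute norms**: an ideal of `E` prime to `(r)` has absolute norm
prime to `r`. -/
def CoprimeAbsNorm : Prop :=
  ∀ (E : Type) [Field E] [NumberField E] (r : ℕ) (I : Ideal (𝓞 E)),
    I ⊔ Ideal.span {(r : 𝓞 E)} = ⊤ → (Ideal.absNorm I).Coprime r

/-- **(SN) split primes are norms**: a prime `Q` of `M` such that `x ^ N(Q ∩ F) ≡ x mod Q` for all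
integers `x` of `M` has relative norm `Q ∩ F`. -/
def SplitNorm : Prop :=
  ∀ (F M : Type) [Field F] [NumberField F] [Field M] [NumberField M] [Algebra F M]
    (Q : Ideal (𝓞 M)), Q.IsPrime → Q ≠ ⊥ →
    IsFrobRel (1 : M ≃ₐ[F] M) Q (Ideal.absNorm (Q.under (𝓞 F))) →
    Ideal.relNorm (𝓞 F) Q = Q.under (𝓞 F)

/-! ### Reciprocity for the "cyclotomic" extension `M₁/E₁` -/

/-- **(X2) reciprocity for a "cyclotomic" extension, with modulus**.
`E/F` number fields, `M'/E` Galois of degree `p`; `cls` a generalised ideal class map of `F` of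
modulus `𝔪`; `χ` a Dirichlet character mod `r` of `p`-power order such that
(hb) `cls ∘ N_{E/F}` and `χ ∘ N` kill the norms of the ideals of `M'` prime to `𝔪 r`,
(hc) `χ (N I₀) ≠ 1` for some ideal `I₀` of `E` prime to `𝔪 r`.
Then `cls (N_{E/F} I) = 1` for every ideal `I` of `E` prime to `𝔪 r` with `χ (N I) = 1`.
(`F4Ray.SecondIneqRay` for the map `I ↦ (cls (N_{E/F} I), χ (N I))` of modulus `𝔪 r 𝓞_E`:
it has at most `p` values, and `χ ∘ N` alone has `p` values.) -/
def ERec : Prop :=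
  ∀ (p r : ℕ) (F E M' : Type) [Field F] [NumberField F] [Field E] [NumberField E]
    [Field M'] [NumberField M'] [Algebra F E] [Algebra E M'] [IsGalois E M']
    (𝔪 : Ideal (𝓞 F)) (G : Type) [CommGroup G] [Fintype G] (cls : Ideal (𝓞 F) → G)
    (χ : DirichletCharacter ℂ r),
    p.Prime → p ≠ 2 → r.Prime → Module.finrank E M' = p → RayClassMap F 𝔪 G cls →
    (∃ k : ℕ, χ ^ (p ^ k) = 1) →
    (∀ A : Ideal (𝓞 M'), A ≠ ⊥ →
      Ideal.relNorm (𝓞 E) A ⊔ (𝔪.map (algebraMap (𝓞 F) (𝓞 E)) * Ideal.span {(r : 𝓞 E)}) = ⊤ →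
      cls (Ideal.relNorm (𝓞 F) (Ideal.relNorm (𝓞 E) A)) = 1 ∧
        χ ((Ideal.absNorm A : ℕ) : ZMod r) = 1) →
    (∃ I₀ : Ideal (𝓞 E), I₀ ≠ ⊥ ∧
      I₀ ⊔ (𝔪.map (algebraMap (𝓞 F) (𝓞 E)) * Ideal.span {(r : 𝓞 E)}) = ⊤ ∧
      χ ((Ideal.absNorm I₀ : ℕ) : ZMod r) ≠ 1) →
    ∀ I : Ideal (𝓞 E), I ≠ ⊥ →
      I ⊔ (𝔪.map (algebraMap (𝓞 F) (𝓞 E)) * Ideal.span {(r : 𝓞 E)}) = ⊤ →
      χ ((Ideal.absNorm I : ℕ) : ZMod r) = 1 → cls (Ideal.relNorm (𝓞 F) I) = 1

/-- Statement of (X2): to be proved as `SecondIneqRay → CoprimeNorm → CoprimeAbsNorm → ERec`. -/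
def ERecImp : Prop := SecondIneqRay → CoprimeNorm → CoprimeAbsNorm → ERec

/-! ### The deliverables -/

/-- `cls` kills the norms of the ideals of `M` prime to `𝔪`. -/
def KillsNorms (F M : Type) [Field F] [NumberField F] [Field M] [NumberField M] [Algebra F M]
    (𝔪 : Ideal (𝓞 F)) {G : Type} [CommGroup G] (cls : Ideal (𝓞 F) → G) : Prop :=
  ∀ A : Ideal (𝓞 M), A ≠ ⊥ → Ideal.relNorm (𝓞 F) A ⊔ 𝔪 = ⊤ → cls (Ideal.relNorm (𝓞 F) A) = 1

/-- **Compare** (Artin reciprocity on two primes): `M/F` Galois of odd prime degree `p`, `cls` a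
generalised ideal class map of `F` of modulus `𝔪` killing the norms from `M`.  If the Frobenius
elements at the primes `Q`, `Q'` of `M` (prime to `𝔪`, unramified over `F`) are `τ ≠ 1` and
`τ ^ u`, `p ∤ u`, then `cls (Q' ∩ F) = cls (Q ∩ F) ^ u`. -/
def CompareRay : Prop :=
  ∀ (p : ℕ) (F M : Type) [Field F] [NumberField F] [Field M] [NumberField M] [Algebra F M]
    [IsGalois F M] (𝔪 : Ideal (𝓞 F)) (G : Type) [CommGroup G] [Fintype G]
    (cls : Ideal (𝓞 F) → G) (u : ℕ) (Q Q' : Ideal (𝓞 M)) (τ : M ≃ₐ[F] M),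
    p.Prime → p ≠ 2 → Module.finrank F M = p → RayClassMap F 𝔪 G cls → KillsNorms F M 𝔪 cls →
    ¬ p ∣ u → Q.IsPrime → Q'.IsPrime → Q ≠ ⊥ → Q' ≠ ⊥ →
    Q.under (𝓞 F) ⊔ 𝔪 = ⊤ → Q'.under (𝓞 F) ⊔ 𝔪 = ⊤ → UnramAt F Q → UnramAt F Q' → τ ≠ 1 →
    IsFrobRel τ Q (Ideal.absNorm (Q.under (𝓞 F))) →
    IsFrobRel (τ ^ u) Q' (Ideal.absNorm (Q'.under (𝓞 F))) →
    cls (Q'.under (𝓞 F)) = cls (Q.under (𝓞 F)) ^ u

/-- `M/F` is unramified outside the finite set `T` of primes of `F`. -/
def UnramOutside (F M : Type) [Field F] [NumberField F] [Field M] [NumberField M] [Algebra F M]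
    (T : Finset (HeightOneSpectrum (𝓞 F))) : Prop :=
  ∀ Q : Ideal (𝓞 M), Q.IsPrime → Q ≠ ⊥ → (∀ v ∈ T, Q.under (𝓞 F) ≠ v.asIdeal) → UnramAt F Q

/-- The modulus `∏_{v ∈ T} v ^ k`. -/
def modT {F : Type} [Field F] [NumberField F] (T : Finset (HeightOneSpectrum (𝓞 F))) (k : ℕ) :
    Ideal (𝓞 F) :=
  ∏ v ∈ T, v.asIdeal ^ k

/-- **First inequality, ray form with modulus supported on `T`** (input from helper86's layer):
for `M/F` Galois of odd prime degree `p`, unramified outside `T`, there are `k ≥ 1` and a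
nontrivial generalised ideal class map of modulus `∏_{v ∈ T} v ^ k` killing the norms from `M`
(`[I^T : P_𝔪 · N(I_M^T)] > 1`).  `T` is nonempty: for the modulus `⊤` a `RayClassMap` is trivial
(`I = ⊥` is allowed in `mul`). -/
def FirstIneqRay : Prop :=
  ∀ (p : ℕ) (F M : Type) [Field F] [NumberField F] [Field M] [NumberField M] [Algebra F M]
    [IsGalois F M] (T : Finset (HeightOneSpectrum (𝓞 F))),
    p.Prime → p ≠ 2 → Module.finrank F M = p → T.Nonempty → UnramOutside F M T →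
    ∃ (k : ℕ) (G : Type) (_ : CommGroup G) (_ : Fintype G) (cls : Ideal (𝓞 F) → G),
      1 ≤ k ∧ RayClassMap F (modT T k) G cls ∧ KillsNorms F M (modT T k) cls ∧
        1 < Fintype.card G

/-- **Artin reciprocity (ray form) for Galois extensions of odd prime degree**: if `M/F` is
unramified outside `T`, there is `k ≥ 1` such that every "Artin map" `A` (multiplicative on the
ideals prime to `T`, with value a Frobenius element on the primes outside `T`) is trivial on the
principal ideals `(a)`, `a ≡ 1 mod ∏_{v ∈ T} v ^ k`. -/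
def ArtinRay : Prop :=
  ∀ (p : ℕ) (F M : Type) [Field F] [NumberField F] [Field M] [NumberField M] [Algebra F M]
    [IsGalois F M] (T : Finset (HeightOneSpectrum (𝓞 F))),
    p.Prime → p ≠ 2 → Module.finrank F M = p → T.Nonempty → UnramOutside F M T →
    ∃ k : ℕ, 1 ≤ k ∧ ∀ A : Ideal (𝓞 F) → (M ≃ₐ[F] M),
      (∀ I J : Ideal (𝓞 F), I ⊔ modT T k = ⊤ → J ⊔ modT T k = ⊤ → A (I * J) = A I * A J) →
      (∀ Q : Ideal (𝓞 M), Q.IsPrime → Q ≠ ⊥ → Q.under (𝓞 F) ⊔ modT T k = ⊤ →
        IsFrobRel (A (Q.under (𝓞 F))) Q (Ideal.absNorm (Q.under (𝓞 F)))) →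
      ∀ a : 𝓞 F, a ≠ 0 → a - 1 ∈ modT T k → A (Ideal.span {a}) = 1

/-- Statement of the assembly of `CompareRay`. -/
def CompareRayImp : Prop := SecondIneqRay → CompareRay

/-- Statement of the final step. -/
def ArtinRayImp : Prop := FirstIneqRay → CompareRay → ArtinRay

end Fermat.Agent.F4Rec
end
end MergeWrap_F4_Recip_Statements
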