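import Fermat.Agent.MU.F4.Recip.Statements

section MergeWrap_F4_Recip_ArtinRay -- from F4/Recip/ArtinRay.lean

/-!
# F4/Recip, piece RG: `ArtinRay` from `FirstIneqRay`, `CompareRay` and `SplitNorm`
-/

set_option autoImplicit false
set_option linter.unusedSectionVars false

open NumberField Polynomial IsDedekindDomain
open scoped nonZeroDivisors IntermediateField

namespace Fermat.Agent.F4Rec

open Fermat.Agent.S14 (InInertia)
open Fermat.Agent.F4Ray (RayClassMap)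

section rg

variable {F : Type} [Field F] [NumberField F]

/-- `∏_{w ∈ T} w ^ k ≤ v` for `v ∈ T`, `k ≥ 1`. -/
theorem rg_modT_le {T : Finset (HeightOneSpectrum (𝓞 F))} {k : ℕ} (hk : 1 ≤ k)
    {v : HeightOneSpectrum (𝓞 F)} (hv : v ∈ T) : modT T k ≤ v.asIdeal := by
  unfold modT
  calc ∏ w ∈ T, w.asIdeal ^ k ≤ T.inf (fun w => w.asIdeal ^ k) := Ideal.prod_le_inf
    _ ≤ v.asIdeal ^ k := Finset.inf_le hv
    _ ≤ v.asIdeal := Ideal.pow_le_self (by omega)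

theorem rg_modT_ne_top {T : Finset (HeightOneSpectrum (𝓞 F))} {k : ℕ} (hk : 1 ≤ k)
    (hT : T.Nonempty) : modT T k ≠ ⊤ := by
  obtain ⟨v, hv⟩ := hT
  intro h
  have := rg_modT_le hk hv
  rw [h, top_le_iff] at this
  exact v.isPrime.ne_top this

/-- An ideal `≠ ⊤` prime to `∏_{w ∈ T} w ^ k` is none of the `v ∈ T`. -/
theorem rg_ne_of_sup_eq_top {T : Finset (HeightOneSpectrum (𝓞 F))} {k : ℕ} (hk : 1 ≤ k)
    {P : Ideal (𝓞 F)} (hP : P ≠ ⊤) (h : P ⊔ modT T k = ⊤) :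
    ∀ v ∈ T, P ≠ v.asIdeal := by
  intro v hv hPv
  apply hP
  have h1 : P ⊔ modT T k = P := sup_eq_left.mpr (hPv ▸ rg_modT_le hk hv)
  rw [h1] at h
  exact h

/-- Two maps on ideals, multiplicative on the ideals prime to `𝔪`, whose values on the primes
are "the same powers" of `τ` and `c`, have this property on all ideals prime to `𝔪`. -/
theorem rg_induction {G H : Type} [CommGroup G] [Group H] (𝔪 : Ideal (𝓞 F)) (h𝔪 : 𝔪 ≠ ⊤)
    (A : Ideal (𝓞 F) → H) (cls : Ideal (𝓞 F) → G)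
    (hA : ∀ I J : Ideal (𝓞 F), I ⊔ 𝔪 = ⊤ → J ⊔ 𝔪 = ⊤ → A (I * J) = A I * A J)
    (hcls : ∀ I J : Ideal (𝓞 F), I ⊔ 𝔪 = ⊤ → J ⊔ 𝔪 = ⊤ → cls (I * J) = cls I * cls J)
    (τ : H) (c : G)
    (hprime : ∀ P : Ideal (𝓞 F), P.IsPrime → P ≠ ⊥ → P ⊔ 𝔪 = ⊤ →
      ∃ u : ℕ, A P = τ ^ u ∧ cls P = c ^ u)
    (I : Ideal (𝓞 F)) (hI : I ⊔ 𝔪 = ⊤) : ∃ u : ℕ, A I = τ ^ u ∧ cls I = c ^ u := by
  induction I using UniqueFactorizationMonoid.induction_on_prime with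
  | h₁ =>
    exfalso
    apply h𝔪
    rw [Ideal.zero_eq_bot, bot_sup_eq] at hI
    exact hI
  | h₂ J hJu =>
    have hJ : J = ⊤ := by
      rw [← Ideal.one_eq_top]
      exact isUnit_iff_eq_one.mp hJu
    subst hJ
    refine ⟨0, ?_, ?_⟩
    · have h := hA ⊤ ⊤ (by simp) (by simp)
      rw [Ideal.top_mul] at h
      rw [pow_zero]
      exact left_eq_mul.mp h
    · have h := hcls ⊤ ⊤ (by simp) (by simp)
      rw [Ideal.top_mul] at h
      rw [pow_zero]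
      exact left_eq_mul.mp h
  | h₃ J P hJ0 hP ih =>
    have hPJ : P * J ≤ P := Ideal.mul_le_left
    have hPJ' : P * J ≤ J := Ideal.mul_le_right
    have hP1 : P ⊔ 𝔪 = ⊤ := top_le_iff.mp (hI ▸ sup_le_sup_right hPJ 𝔪)
    have hJ1 : J ⊔ 𝔪 = ⊤ := top_le_iff.mp (hI ▸ sup_le_sup_right hPJ' 𝔪)
    obtain ⟨u₁, h1, h2⟩ := hprime P (Ideal.isPrime_of_prime hP) hP.ne_zero hP1
    obtain ⟨u₂, h3, h4⟩ := ih hJ1
    refine ⟨u₁ + u₂, ?_, ?_⟩
    · rw [hA P J hP1 hJ1, h1, h3, pow_add]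
    · rw [hcls P J hP1 hJ1, h2, h4, pow_add]

/-- Powers of an ideal prime to `𝔪`. -/
theorem rg_cls_pow {G : Type} [CommGroup G] (𝔪 : Ideal (𝓞 F)) (cls : Ideal (𝓞 F) → G)
    (hcls : ∀ I J : Ideal (𝓞 F), I ⊔ 𝔪 = ⊤ → J ⊔ 𝔪 = ⊤ → cls (I * J) = cls I * cls J)
    (P : Ideal (𝓞 F)) (hP : P ⊔ 𝔪 = ⊤) (n : ℕ) :
    P ^ (n + 1) ⊔ 𝔪 = ⊤ ∧ cls (P ^ (n + 1)) = cls P ^ (n + 1) := by
  induction n with
  | zero => simp [hP]
  | succ n ih =>
    obtain ⟨h1, h2⟩ := ih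
    have h3 : P ^ (n + 1 + 1) ⊔ 𝔪 = ⊤ := by
      rw [pow_succ, sup_comm, Ideal.sup_mul_eq_of_coprime_right (by rw [sup_comm]; exact hP),
        sup_comm]
      exact h1
    refine ⟨h3, ?_⟩
    rw [pow_succ (P), hcls _ _ h1 hP, h2, ← pow_succ]

end rg

/-- **(RG)** `ArtinRay` from the first inequality and `CompareRay`. -/
theorem artinRay_of (hFI : FirstIneqRay) (hC : CompareRay) (hSN : SplitNorm) : ArtinRay := by
  intro p F M _ _ _ _ _ _ T hp hp2 hdeg hT hunr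
  obtain ⟨k, G, _, _, cls, hk, hray, hkill, hcard⟩ := hFI p F M T hp hp2 hdeg hT hunr
  refine ⟨k, hk, fun A hmul hfrob a ha0 ha1 => ?_⟩
  have : Fact p.Prime := ⟨hp⟩
  have h𝔪 : modT T k ≠ ⊤ := rg_modT_ne_top hk hT
  have hGal : Nat.card (M ≃ₐ[F] M) = p := by
    rw [IsGalois.card_aut_eq_finrank, hdeg]
  have : Finite (M ≃ₐ[F] M) := Nat.finite_of_card_ne_zero (hGal ▸ hp.ne_zero)
  have hpowp : ∀ σ : M ≃ₐ[F] M, σ ^ p = 1 := fun σ => by
    rw [← hGal]; exact pow_card_eq_one'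
  -- a prime of `M` above a prime of `F` prime to the modulus
  have hQ : ∀ P : Ideal (𝓞 F), P.IsPrime → P ≠ ⊥ → P ⊔ modT T k = ⊤ →
      ∃ Q : Ideal (𝓞 M), Q.IsPrime ∧ Q ≠ ⊥ ∧ Q.under (𝓞 F) = P ∧ UnramAt F Q := by
    intro P hP hP0 hPm
    have hPmax : P.IsMaximal := hP.isMaximal hP0
    obtain ⟨Q, hQmax, hQover⟩ :=
      Ideal.exists_maximal_ideal_liesOver_of_isIntegral (S := 𝓞 M) P
    have hQP : Q.under (𝓞 F) = P := hQover.over.symm
    have hQ0 : Q ≠ ⊥ := Ideal.ne_bot_of_liesOver_of_ne_bot hP0 Q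
    refine ⟨Q, hQmax.isPrime, hQ0, hQP, hunr Q hQmax.isPrime hQ0 ?_⟩
    rw [hQP]
    exact rg_ne_of_sup_eq_top hk hP.ne_top hPm
  -- the class of a prime with trivial Frobenius is trivial
  have hsplit : ∀ P : Ideal (𝓞 F), P.IsPrime → P ≠ ⊥ → P ⊔ modT T k = ⊤ → A P = 1 →
      cls P = 1 := by
    intro P hP hP0 hPm hAP
    obtain ⟨Q, hQp, hQ0, hQP, -⟩ := hQ P hP hP0 hPm
    have h1 := hfrob Q hQp hQ0 (by rw [hQP]; exact hPm)
    rw [hQP, hAP] at h1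
    have h2 := hSN F M Q hQp hQ0 (by rw [hQP]; exact h1)
    rw [hQP] at h2
    have h3 := hkill Q hQ0 (by rw [h2]; exact hPm)
    rwa [h2] at h3
  -- `p`-th powers of classes of ideals prime to the modulus are trivial
  have hclsp : ∀ P : Ideal (𝓞 F), P ≠ ⊥ → P ⊔ modT T k = ⊤ → cls P ^ p = 1 := by
    intro P hP0 hPm
    obtain ⟨n, hn⟩ : ∃ n, p = n + 1 := ⟨p - 1, by have := hp.pos; omega⟩
    obtain ⟨h1, h2⟩ := rg_cls_pow (modT T k) cls hray.mul P hPm n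
    rw [hn, ← h2]
    have h3 : Ideal.relNorm (𝓞 F) (P.map (algebraMap (𝓞 F) (𝓞 M))) = P ^ (n + 1) := by
      have hfr : Module.finrank (𝓞 F) (𝓞 M) = Module.finrank F M :=
        (IsFractionRing.finrank_eq (𝓞 F) F (𝓞 M) M).symm
      rw [Ideal.relNorm_algebraMap, hfr, hdeg, hn]
    have h4 : P.map (algebraMap (𝓞 F) (𝓞 M)) ≠ ⊥ := by
      intro h
      rw [h, Ideal.relNorm_bot] at h3
      exact pow_ne_zero _ hP0 h3.symm
    have h5 := hkill _ h4 (by rw [h3]; exact h1)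
    rwa [h3] at h5
  -- it is enough to find `τ`, `c` with `c ≠ 1 → ...`
  suffices hmain : ∃ (τ : M ≃ₐ[F] M) (c : G), (c = 1 → ∀ I, I ⊔ modT T k = ⊤ → cls I = 1) ∧
      c ^ p = 1 ∧
      ∀ P : Ideal (𝓞 F), P.IsPrime → P ≠ ⊥ → P ⊔ modT T k = ⊤ →
        ∃ u : ℕ, A P = τ ^ u ∧ cls P = c ^ u by
    obtain ⟨τ, c, hc1, hcp, hprime⟩ := hmain
    have hIa : Ideal.span {a} ⊔ modT T k = ⊤ := by
      rw [Ideal.eq_top_iff_one]
      have h1 : (1 : 𝓞 F) = a + (-(a - 1)) := by ring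
      rw [h1]
      exact Submodule.add_mem_sup (Ideal.subset_span rfl) ((modT T k).neg_mem ha1)
    have hall := rg_induction (modT T k) h𝔪 A cls hmul hray.mul τ c hprime
    obtain ⟨u, hu1, hu2⟩ := hall _ hIa
    rw [hray.ray a ha0 ha1] at hu2
    -- `c ≠ 1`
    have hc : c ≠ 1 := by
      intro hc
      have htriv : ∀ g : G, g = 1 := by
        intro g
        obtain ⟨I, -, hI, rfl⟩ := hray.surj g
        exact hc1 hc I hI
      have : Fintype.card G ≤ 1 := Fintype.card_le_one_iff.mpr fun a b => by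
        rw [htriv a, htriv b]
      omega
    have hord : orderOf c = p := orderOf_eq_prime hcp hc
    have hdvd : p ∣ u := by
      rw [← hord]
      exact orderOf_dvd_of_pow_eq_one hu2.symm
    obtain ⟨t, rfl⟩ := hdvd
    rw [hu1, pow_mul, hpowp, one_pow]
  by_cases h1 : ∀ Q : Ideal (𝓞 M), Q.IsPrime → Q ≠ ⊥ → Q.under (𝓞 F) ⊔ modT T k = ⊤ →
      A (Q.under (𝓞 F)) = 1
  · -- all Frobenius elements are trivial
    have hprime : ∀ P : Ideal (𝓞 F), P.IsPrime → P ≠ ⊥ → P ⊔ modT T k = ⊤ →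
        ∃ u : ℕ, A P = (1 : M ≃ₐ[F] M) ^ u ∧ cls P = (1 : G) ^ u := by
      intro P hP hP0 hPm
      obtain ⟨Q, hQp, hQ0, hQP, -⟩ := hQ P hP hP0 hPm
      have hAP : A P = 1 := by
        have := h1 Q hQp hQ0 (by rw [hQP]; exact hPm)
        rwa [hQP] at this
      exact ⟨0, by simpa using hAP, by simpa using hsplit P hP hP0 hPm hAP⟩
    refine ⟨1, 1, fun _ I hI => ?_, one_pow p, hprime⟩
    obtain ⟨u, -, hu⟩ := rg_induction (modT T k) h𝔪 A cls hmul hray.mul 1 1 hprime I hI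
    simpa using hu
  · push Not at h1
    obtain ⟨Q₀, hQ₀, hQ₀0, hQ₀m, hτ⟩ := h1
    set P₀ := Q₀.under (𝓞 F) with hP₀
    have hP₀0 : P₀ ≠ ⊥ := Ideal.under_ne_bot (𝓞 F) hQ₀0
    have hP₀p : P₀.IsPrime := inferInstance
    have hU₀ : UnramAt F Q₀ :=
      hunr Q₀ hQ₀ hQ₀0 (rg_ne_of_sup_eq_top hk hP₀p.ne_top hQ₀m)
    have hprime : ∀ P : Ideal (𝓞 F), P.IsPrime → P ≠ ⊥ → P ⊔ modT T k = ⊤ →
        ∃ u : ℕ, A P = (A P₀) ^ u ∧ cls P = (cls P₀) ^ u := by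
      intro P hP hP0 hPm
      obtain ⟨Q, hQp, hQ0, hQP, hQU⟩ := hQ P hP hP0 hPm
      have hmem : A P ∈ Submonoid.powers (A P₀) := by
        rw [mem_powers_iff_mem_zpowers]
        exact mem_zpowers_of_prime_card hGal hτ
      obtain ⟨u, hu'⟩ := hmem
      have hu : A P₀ ^ u = A P := hu'
      refine ⟨u, hu.symm, ?_⟩
      by_cases hpu : p ∣ u
      · obtain ⟨t, rfl⟩ := hpu
        have hAP : A P = 1 := by rw [← hu, pow_mul, hpowp, one_pow]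
        rw [hsplit P hP hP0 hPm hAP, pow_mul, hclsp P₀ hP₀0 hQ₀m, one_pow]
      · have h2 := hC p F M (modT T k) G cls u Q₀ Q (A P₀) hp hp2 hdeg hray hkill hpu hQ₀ hQp
          hQ₀0 hQ0 hQ₀m (by rw [hQP]; exact hPm) hU₀ hQU hτ
          (hfrob Q₀ hQ₀ hQ₀0 hQ₀m)
          (by
            have := hfrob Q hQp hQ0 (by rw [hQP]; exact hPm)
            rw [hQP, ← hu] at this
            rw [hQP]
            exact this)
        rw [hQP] at h2
        exact h2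
    refine ⟨A P₀, cls P₀, fun hc I hI => ?_, hclsp P₀ hP₀0 hQ₀m, hprime⟩
    obtain ⟨u, -, hu⟩ := rg_induction (modT T k) h𝔪 A cls hmul hray.mul _ _ hprime I hI
    rw [hu, hc, one_pow]

end Fermat.Agent.F4Rec
end MergeWrap_F4_Recip_ArtinRay
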