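import Fermat.Agent.MU.F4.Recip.Statements

section MergeWrap_F4_Recip_Basic -- from F4/Recip/Basic.lean

/-!
# F4/Recip: small lemmas for the assembly of `CompareRay`
-/

set_option autoImplicit false
set_option linter.unusedSectionVars false

open NumberField Polynomial IsDedekindDomain
open scoped nonZeroDivisors IntermediateField

noncomputable section

namespace Fermat.Agent.F4Rec

open Fermat.Agent.F4Ray (RayClassMap)

section towers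

variable (F M : Type) [Field F] [NumberField F] [Field M] [NumberField M] [Algebra F M]
  [IsGalois F M] (m : ℕ) [NeZero m]

instance isScalarTower_F_EH_MH (H : Subgroup (Gam F M m)) :
    IsScalarTower F (EH F M m H) (MH F M m H) :=
  IsScalarTower.of_algebraMap_eq (fun _ => rfl)

variable {F M m}

/-- Value of `Θ`. -/
theorem theta_apply (ψ : (M ≃ₐ[F] M) →* ℂˣ) {d : ℕ} (hd : d ∣ m) (χ : DirichletCharacter ℂ d)
    (g : Gam F M m) :
    Theta F M m ψ hd χ g = ψ (resM F M m g) * (χ.toUnitHom (ZMod.unitsMap hd (cyc F M m g)))⁻¹ :=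
  rfl

theorem mem_ker_theta_iff (ψ : (M ≃ₐ[F] M) →* ℂˣ) {d : ℕ} (hd : d ∣ m)
    (χ : DirichletCharacter ℂ d) (g : Gam F M m) :
    g ∈ (Theta F M m ψ hd χ).ker ↔
      χ ((ZMod.unitsMap hd (cyc F M m g) : (ZMod d)ˣ) : ZMod d) = ((ψ (resM F M m g) : ℂˣ) : ℂ) := by
  rw [MonoidHom.mem_ker, theta_apply, mul_inv_eq_one, ← MulChar.coe_toUnitHom, eq_comm,
    Units.ext_iff]

end towers

section coprime

variable {F E : Type} [Field F] [NumberField F] [Field E] [NumberField E] [Algebra F E]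

/-- An ideal of `E` whose contraction to `F` is prime to `𝔪` is prime to the extension of `𝔪`. -/
theorem sup_map_eq_top_of_under {𝔪 : Ideal (𝓞 F)} {I : Ideal (𝓞 E)}
    (h : I.under (𝓞 F) ⊔ 𝔪 = ⊤) : I ⊔ 𝔪.map (algebraMap (𝓞 F) (𝓞 E)) = ⊤ := by
  rw [Ideal.eq_top_iff_one] at h ⊢
  obtain ⟨x, hx, y, hy, hxy⟩ := Submodule.mem_sup.mp h
  have h1 : algebraMap (𝓞 F) (𝓞 E) x + algebraMap (𝓞 F) (𝓞 E) y = 1 := by
    rw [← map_add, hxy, map_one]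
  rw [← h1]
  exact Submodule.add_mem_sup (Ideal.mem_comap.mp hx) (Ideal.mem_map_of_mem _ hy)

/-- An ideal of `E` whose relative norm is prime to `𝔪` is prime to the extension of `𝔪`. -/
theorem sup_map_eq_top_of_relNorm {𝔪 : Ideal (𝓞 F)} {I : Ideal (𝓞 E)}
    (h : Ideal.relNorm (𝓞 F) I ⊔ 𝔪 = ⊤) : I ⊔ 𝔪.map (algebraMap (𝓞 F) (𝓞 E)) = ⊤ := by
  apply sup_map_eq_top_of_under
  exact top_le_iff.mp (h ▸ sup_le_sup_right (Ideal.relNorm_le_comap (𝓞 F) I) 𝔪)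

/-- Two ideals with coprime absolute norms are coprime. -/
theorem sup_eq_top_of_absNorm_coprime {I J : Ideal (𝓞 E)}
    (h : (Ideal.absNorm I).Coprime (Ideal.absNorm J)) : I ⊔ J = ⊤ := by
  rw [Ideal.eq_top_iff_one]
  have h1 : ((Ideal.absNorm I : ℕ) : 𝓞 E) ∈ I := by
    have := Ideal.absNorm_mem I
    exact_mod_cast this
  have h1' : ((Ideal.absNorm J : ℕ) : 𝓞 E) ∈ J := by
    have := Ideal.absNorm_mem J
    exact_mod_cast this
  have h2 : ((Ideal.absNorm I : ℤ) * Nat.gcdA (Ideal.absNorm I) (Ideal.absNorm J) +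
      (Ideal.absNorm J : ℤ) * Nat.gcdB (Ideal.absNorm I) (Ideal.absNorm J) : ℤ) = 1 := by
    rw [← Nat.gcd_eq_gcd_ab, h.gcd_eq_one, Nat.cast_one]
  have h3 : ((((Ideal.absNorm I : ℤ) * Nat.gcdA (Ideal.absNorm I) (Ideal.absNorm J) +
      (Ideal.absNorm J : ℤ) * Nat.gcdB (Ideal.absNorm I) (Ideal.absNorm J) : ℤ)) : 𝓞 E) ∈
      I ⊔ J := by
    push_cast
    exact Submodule.add_mem_sup (I.mul_mem_right _ h1) (J.mul_mem_right _ h1')
  rw [h2] at h3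
  simpa using h3

/-- An ideal whose absolute norm is prime to `r` is prime to `(r)`. -/
theorem sup_span_eq_top_of_coprime {I : Ideal (𝓞 E)} {r : ℕ}
    (h : (Ideal.absNorm I).Coprime r) : I ⊔ Ideal.span {(r : 𝓞 E)} = ⊤ := by
  rw [Ideal.eq_top_iff_one]
  have h1 : ((Ideal.absNorm I : ℕ) : 𝓞 E) ∈ I := by
    have := Ideal.absNorm_mem I
    exact_mod_cast this
  have h1' : (r : 𝓞 E) ∈ Ideal.span {(r : 𝓞 E)} := Ideal.subset_span rfl
  have h2 : ((Ideal.absNorm I : ℤ) * Nat.gcdA (Ideal.absNorm I) r +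
      (r : ℤ) * Nat.gcdB (Ideal.absNorm I) r : ℤ) = 1 := by
    rw [← Nat.gcd_eq_gcd_ab, h.gcd_eq_one, Nat.cast_one]
  have h3 : ((((Ideal.absNorm I : ℤ) * Nat.gcdA (Ideal.absNorm I) r +
      (r : ℤ) * Nat.gcdB (Ideal.absNorm I) r : ℤ)) : 𝓞 E) ∈ I ⊔ Ideal.span {(r : 𝓞 E)} := by
    push_cast
    exact Submodule.add_mem_sup (I.mul_mem_right _ h1) (Ideal.mul_mem_right _ _ h1')
  rw [h2] at h3
  simpa using h3

/-- An ideal of `E` whose absolute norm is prime to the absolute norm of `𝔪` is prime to the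
extension of `𝔪`. -/
theorem sup_map_eq_top_of_absNorm_coprime {𝔪 : Ideal (𝓞 F)} {I : Ideal (𝓞 E)}
    (h : (Ideal.absNorm I).Coprime (Ideal.absNorm 𝔪)) :
    I ⊔ 𝔪.map (algebraMap (𝓞 F) (𝓞 E)) = ⊤ := by
  have h0 := sup_span_eq_top_of_coprime h
  refine top_le_iff.mp (h0 ▸ sup_le_sup_left ?_ I)
  rw [Ideal.span_singleton_le_iff_mem]
  have h1 : ((Ideal.absNorm 𝔪 : ℕ) : 𝓞 F) ∈ 𝔪 := by
    have := Ideal.absNorm_mem 𝔪
    exact_mod_cast this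
  have h2 := Ideal.mem_map_of_mem (algebraMap (𝓞 F) (𝓞 E)) h1
  rwa [map_natCast] at h2

end coprime

section ideals

variable {R : Type*} [CommRing R]

theorem sup_mul_eq_top {I A B : Ideal R} (hA : I ⊔ A = ⊤) (hB : I ⊔ B = ⊤) :
    I ⊔ A * B = ⊤ := by
  rw [← Ideal.isCoprime_iff_sup_eq] at *
  exact hA.mul_right hB

theorem sup_eq_top_of_sup_mul_left {I A B : Ideal R} (h : I ⊔ A * B = ⊤) : I ⊔ A = ⊤ :=
  top_le_iff.mp (h ▸ sup_le_sup_left Ideal.mul_le_left I)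

theorem sup_eq_top_of_sup_mul_right {I A B : Ideal R} (h : I ⊔ A * B = ⊤) : I ⊔ B = ⊤ :=
  top_le_iff.mp (h ▸ sup_le_sup_left Ideal.mul_le_right I)

theorem pow_mul_pow_sup_eq_top {I J 𝔫 : Ideal R} (hI : I ⊔ 𝔫 = ⊤) (hJ : J ⊔ 𝔫 = ⊤) (a b : ℕ) :
    I ^ a * J ^ b ⊔ 𝔫 = ⊤ := by
  rw [← Ideal.isCoprime_iff_sup_eq] at *
  exact (hI.pow_left).mul_left (hJ.pow_left)

end ideals

section cls

variable {F : Type} [Field F] [NumberField F] {G : Type} [CommGroup G] {𝔪 : Ideal (𝓞 F)}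
  {cls : Ideal (𝓞 F) → G}

theorem cls_top (hmul : ∀ I J : Ideal (𝓞 F), I ⊔ 𝔪 = ⊤ → J ⊔ 𝔪 = ⊤ → cls (I * J) = cls I * cls J) :
    cls ⊤ = 1 := by
  have h := hmul ⊤ ⊤ (by simp) (by simp)
  rw [Ideal.top_mul] at h
  exact left_eq_mul.mp h

theorem cls_pow (hmul : ∀ I J : Ideal (𝓞 F), I ⊔ 𝔪 = ⊤ → J ⊔ 𝔪 = ⊤ → cls (I * J) = cls I * cls J)
    {I : Ideal (𝓞 F)} (hI : I ⊔ 𝔪 = ⊤) (n : ℕ) : cls (I ^ n) = cls I ^ n := by
  induction n with
  | zero => rw [pow_zero, pow_zero, Ideal.one_eq_top, cls_top hmul]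
  | succ n ih =>
    have h1 : I ^ n ⊔ 𝔪 = ⊤ := by
      rw [← Ideal.isCoprime_iff_sup_eq] at *
      exact hI.pow_left
    rw [pow_succ, hmul _ _ h1 hI, ih, pow_succ]

theorem cls_pow_mul_pow
    (hmul : ∀ I J : Ideal (𝓞 F), I ⊔ 𝔪 = ⊤ → J ⊔ 𝔪 = ⊤ → cls (I * J) = cls I * cls J)
    {I J : Ideal (𝓞 F)} (hI : I ⊔ 𝔪 = ⊤) (hJ : J ⊔ 𝔪 = ⊤) (a b : ℕ) :
    cls (I ^ a * J ^ b) = cls I ^ a * cls J ^ b := by
  have h1 : I ^ a ⊔ 𝔪 = ⊤ := by
    rw [← Ideal.isCoprime_iff_sup_eq] at *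
    exact hI.pow_left
  have h2 : J ^ b ⊔ 𝔪 = ⊤ := by
    rw [← Ideal.isCoprime_iff_sup_eq] at *
    exact hJ.pow_left
  rw [hmul _ _ h1 h2, cls_pow hmul hI, cls_pow hmul hJ]

end cls

end Fermat.Agent.F4Rec
end
end MergeWrap_F4_Recip_Basic
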