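import Fermat.Agent.MU.F4.Recip.Statements
import Fermat.Agent.MU.F4.Recip.Basic
import Fermat.Agent.F4.Recip.RayNorm
import Fermat.Agent.MU.S14.Crossing.Compare
import Fermat.Agent.MU.E.S12.Main
import Fermat.Agent.MU.F4.Recip.CoprimeNorm
import Fermat.Agent.MU.S14.SI.InertPrime
import Fermat.Agent.S14.AuxChar
import Fermat.Agent.MU.F4.Recip.ArtinRay
import Fermat.Agent.MU.F4.Glob.FirstIneqRayMain

section MergeWrap_F4_Recip_ERecCore -- from F4/Recip/ERecCore.lean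

/-!
# F4 / GLOB reciprocity, piece RE (part 1): the counting argument

`ERec` is deduced from the second inequality with modulus `𝔪𝓞_E · (r)` applied to the group of
values of `I ↦ (cls (N_{E/F} I), χ (N I))`; the two congruence inputs on norms of elements
`≡ 1` modulo the modulus are in `RayNorm.lean` (helper48).  This file: the group-theoretic
counting lemma and the unit of `ZMod r` attached to a natural number.
-/

set_option autoImplicit false
set_option linter.style.haveILetI false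

open NumberField

noncomputable section

namespace Fermat.Agent.F4Rec

open Fermat.Agent.F4Ray (RayClassMap SecondIneqRay)

/-! ### group theory -/

/-- A finite group of order `≤ p` admitting a homomorphism with a non-trivial value of `p`-power
order: the homomorphism is injective. -/
theorem re_ker_trivial {V A : Type*} [Group V] [Finite V] [Group A] {p : ℕ} (hp : p.Prime)
    (hcard : Nat.card V ≤ p) (π : V →* A) (z₀ : V) (k : ℕ) (h1 : π z₀ ≠ 1)
    (hk : π z₀ ^ (p ^ k) = 1) (w : V) (hw : π w = 1) : w = 1 := by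
  haveI : Fact p.Prime := ⟨hp⟩
  -- the order of `π z₀` is a non-trivial power of `p`
  obtain ⟨i, hi, hord⟩ := (Nat.dvd_prime_pow hp).mp (orderOf_dvd_of_pow_eq_one hk)
  have hi0 : i ≠ 0 := by
    rintro rfl
    rw [pow_zero, orderOf_eq_one_iff] at hord
    exact h1 hord
  have hpdvd : p ∣ orderOf (π z₀) := by
    rw [hord]; exact dvd_pow_self p hi0
  have hdvd1 : orderOf (π z₀) ∣ orderOf z₀ := orderOf_map_dvd π z₀
  have hdvd2 : orderOf z₀ ∣ Nat.card V := orderOf_dvd_natCard z₀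
  have hpos : 0 < Nat.card V := Nat.card_pos
  have hcardeq : Nat.card V = p :=
    le_antisymm hcard (Nat.le_of_dvd hpos (hpdvd.trans (hdvd1.trans hdvd2)))
  have hordp : orderOf (π z₀) = p := by
    have h2 : orderOf (π z₀) ∣ p := hcardeq ▸ hdvd1.trans hdvd2
    exact Nat.dvd_antisymm h2 hpdvd
  have hz0 : z₀ ≠ 1 := by
    rintro rfl
    exact h1 (map_one π)
  have htop : Subgroup.zpowers z₀ = ⊤ := zpowers_eq_top_of_prime_card hcardeq hz0
  have hwmem : w ∈ Subgroup.zpowers z₀ := htop ▸ Subgroup.mem_top w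
  obtain ⟨j, rfl⟩ := Subgroup.mem_zpowers_iff.mp hwmem
  rw [map_zpow] at hw
  have hj : (p : ℤ) ∣ j := by
    have := orderOf_dvd_iff_zpow_eq_one.mpr hw
    rwa [hordp] at this
  obtain ⟨c, rfl⟩ := hj
  have hzp : z₀ ^ p = 1 := by
    rw [← hcardeq]; exact pow_card_eq_one'
  rw [zpow_mul, zpow_natCast, hzp, one_zpow]

/-! ### the unit of `ZMod r` attached to a natural number -/

/-- the unit `n mod r` (`1` if `n` is not prime to `r`). -/
def reUnit (r n : ℕ) : (ZMod r)ˣ :=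
  if h : n.Coprime r then ZMod.unitOfCoprime n h else 1

theorem reUnit_coe {r n : ℕ} (h : n.Coprime r) : ((reUnit r n : (ZMod r)ˣ) : ZMod r) = n := by
  rw [reUnit, dif_pos h, ZMod.coe_unitOfCoprime]

theorem reUnit_mul {r a b : ℕ} (ha : a.Coprime r) (hb : b.Coprime r) :
    reUnit r (a * b) = reUnit r a * reUnit r b := by
  apply Units.ext
  rw [Units.val_mul, reUnit_coe ha, reUnit_coe hb, reUnit_coe (Nat.Coprime.mul_left ha hb),
    Nat.cast_mul]

theorem reUnit_one (r : ℕ) : reUnit r 1 = 1 := by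
  apply Units.ext
  rw [reUnit_coe (Nat.coprime_one_left r), Nat.cast_one, Units.val_one]

end Fermat.Agent.F4Rec
end
end MergeWrap_F4_Recip_ERecCore

section MergeWrap_F4_Recip_ERec -- from F4/Recip/ERec.lean

/-!
# F4 / GLOB reciprocity, piece RE: `ERecImp`

`ERec` from the second inequality with modulus `𝔪𝓞_E · (r)`, applied to the (finite) group of
values of `I ↦ (cls (N_{E/F} I), χ (N I))` on the ideals prime to the modulus.
-/

set_option autoImplicit false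
set_option linter.unusedSectionVars false
set_option linter.style.haveILetI false

open NumberField

noncomputable section

namespace Fermat.Agent.F4Rec

open Fermat.Agent.F4Ray (RayClassMap SecondIneqRay)

section

variable {F : Type} (E : Type) [Field F] [NumberField F] [Field E] [NumberField E] [Algebra F E]
  {G : Type} [CommGroup G] {r : ℕ}

/-- the modulus `𝔪𝓞_E · (r)` -/
def reMod (𝔪 : Ideal (𝓞 F)) (r : ℕ) : Ideal (𝓞 E) :=
  𝔪.map (algebraMap (𝓞 F) (𝓞 E)) * Ideal.span {(r : 𝓞 E)}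

variable {E}

/-- the value `(cls (N_{E/F} I), χ (N I))` -/
def reVal (cls : Ideal (𝓞 F) → G) (χ : DirichletCharacter ℂ r) (I : Ideal (𝓞 E)) :
    G × χ.toUnitHom.range :=
  (cls (Ideal.relNorm (𝓞 F) I), χ.toUnitHom.rangeRestrict (reUnit r (Ideal.absNorm I)))

theorem re_snd_eq_one_iff (cls : Ideal (𝓞 F) → G) (χ : DirichletCharacter ℂ r)
    {I : Ideal (𝓞 E)} (hcop : (Ideal.absNorm I).Coprime r) :
    (reVal cls χ I).2 = 1 ↔ χ ((Ideal.absNorm I : ℕ) : ZMod r) = 1 := by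
  rw [reVal, Subtype.ext_iff, MonoidHom.coe_rangeRestrict, Units.ext_iff, MulChar.coe_toUnitHom,
    reUnit_coe hcop]
  rfl

theorem re_mod_ne_bot {𝔪 : Ideal (𝓞 F)} (h𝔪 : 𝔪 ≠ ⊥) (hr : r ≠ 0) : reMod E 𝔪 r ≠ ⊥ := by
  rw [reMod]
  apply mul_ne_zero
  · rw [Ideal.zero_eq_bot, Ne, Ideal.map_eq_bot_iff_of_injective
      (FaithfulSMul.algebraMap_injective (𝓞 F) (𝓞 E))]
    exact h𝔪
  · rw [Ideal.zero_eq_bot, Ne, Ideal.span_singleton_eq_bot]
    exact_mod_cast hr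

theorem re_mod_le_left (𝔪 : Ideal (𝓞 F)) (r : ℕ) :
    reMod E 𝔪 r ≤ 𝔪.map (algebraMap (𝓞 F) (𝓞 E)) := by
  unfold reMod
  exact Ideal.mul_le_left

theorem re_mod_le_right (𝔪 : Ideal (𝓞 F)) (r : ℕ) :
    reMod E 𝔪 r ≤ Ideal.span {(r : 𝓞 E)} := by
  unfold reMod
  exact Ideal.mul_le_right

theorem re_coprime_left {𝔪 : Ideal (𝓞 F)} {I : Ideal (𝓞 E)} (hCN : CoprimeNorm)
    (h : I ⊔ reMod E 𝔪 r = ⊤) : Ideal.relNorm (𝓞 F) I ⊔ 𝔪 = ⊤ :=
  hCN F E 𝔪 I (sup_eq_top_of_sup_mul_left h)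

theorem re_coprime_right {𝔪 : Ideal (𝓞 F)} {I : Ideal (𝓞 E)} (hCA : CoprimeAbsNorm)
    (h : I ⊔ reMod E 𝔪 r = ⊤) : (Ideal.absNorm I).Coprime r :=
  hCA E r I (sup_eq_top_of_sup_mul_right h)

theorem re_ne_bot {𝔪 : Ideal (𝓞 F)} {I : Ideal (𝓞 E)} (hCA : CoprimeAbsNorm) (hr : r.Prime)
    (h : I ⊔ reMod E 𝔪 r = ⊤) : I ≠ ⊥ := by
  rintro rfl
  have := re_coprime_right hCA h
  rw [Ideal.absNorm_bot, Nat.coprime_zero_left] at this
  exact hr.one_lt.ne' this

theorem re_mul_coprime {𝔪 : Ideal (𝓞 F)} {I J : Ideal (𝓞 E)}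
    (hI : I ⊔ reMod E 𝔪 r = ⊤) (hJ : J ⊔ reMod E 𝔪 r = ⊤) : I * J ⊔ reMod E 𝔪 r = ⊤ := by
  rw [sup_comm] at hI hJ ⊢
  exact sup_mul_eq_top hI hJ

theorem re_val_mul {𝔪 : Ideal (𝓞 F)} {cls : Ideal (𝓞 F) → G} (χ : DirichletCharacter ℂ r)
    (hCN : CoprimeNorm) (hCA : CoprimeAbsNorm) (hcls : RayClassMap F 𝔪 G cls)
    {I J : Ideal (𝓞 E)} (hI : I ⊔ reMod E 𝔪 r = ⊤) (hJ : J ⊔ reMod E 𝔪 r = ⊤) :
    reVal cls χ (I * J) = reVal cls χ I * reVal cls χ J := by
  rw [reVal, reVal, reVal, Prod.mk_mul_mk, map_mul, map_mul,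
    hcls.mul _ _ (re_coprime_left hCN hI) (re_coprime_left hCN hJ),
    reUnit_mul (re_coprime_right hCA hI) (re_coprime_right hCA hJ), map_mul]

theorem re_val_top {cls : Ideal (𝓞 F) → G} {𝔪 : Ideal (𝓞 F)} (χ : DirichletCharacter ℂ r)
    (hcls : RayClassMap F 𝔪 G cls) : reVal cls χ (⊤ : Ideal (𝓞 E)) = 1 := by
  rw [reVal, Ideal.relNorm_top, cls_top hcls.mul, Ideal.absNorm_top, reUnit_one, map_one]
  rfl

/-- the group of values of `reVal` on the ideals prime to the modulus -/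
def reV {𝔪 : Ideal (𝓞 F)} {cls : Ideal (𝓞 F) → G} (χ : DirichletCharacter ℂ r)
    (hCN : CoprimeNorm) (hCA : CoprimeAbsNorm) (hcls : RayClassMap F 𝔪 G cls)
    [Finite G] : Subgroup (G × χ.toUnitHom.range) where
  carrier := {h | ∃ I : Ideal (𝓞 E), I ⊔ reMod E 𝔪 r = ⊤ ∧ reVal cls χ I = h}
  mul_mem' := by
    rintro _ _ ⟨I, hI, rfl⟩ ⟨J, hJ, rfl⟩
    exact ⟨I * J, re_mul_coprime hI hJ, re_val_mul χ hCN hCA hcls hI hJ⟩
  one_mem' := ⟨⊤, by simp, re_val_top χ hcls⟩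
  inv_mem' := by
    rintro _ ⟨I, hI, rfl⟩
    haveI : Finite χ.toUnitHom.range :=
      Finite.of_surjective χ.toUnitHom.rangeRestrict χ.toUnitHom.rangeRestrict_surjective
    have hpow : ∀ n : ℕ, I ^ n ⊔ reMod E 𝔪 r = ⊤ ∧ reVal cls χ (I ^ n) = reVal cls χ I ^ n := by
      intro n
      induction n with
      | zero =>
        rw [pow_zero, pow_zero, Ideal.one_eq_top]
        exact ⟨by simp, re_val_top χ hcls⟩
      | succ n ih =>
        rw [pow_succ, pow_succ]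
        exact ⟨re_mul_coprime ih.1 hI, by rw [re_val_mul χ hCN hCA hcls ih.1 hI, ih.2]⟩
    refine ⟨I ^ (Nat.card (G × χ.toUnitHom.range) - 1), (hpow _).1, ?_⟩
    rw [(hpow _).2]
    apply eq_inv_of_mul_eq_one_left
    rw [← pow_succ, Nat.sub_add_cancel Nat.card_pos]
    exact pow_card_eq_one'

end

/-- **(X2)** `ERec` from the second inequality with modulus. -/
theorem eRecImp : ERecImp := by
  intro hSI hCN hCA p r F E M' _ _ _ _ _ _ _ _ _ 𝔪 G _ _ cls χ hp hp2 hr hdeg hcls hχ hb hc I hI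
    hIcop hχI
  classical
  haveI : Finite χ.toUnitHom.range :=
    Finite.of_surjective χ.toUnitHom.rangeRestrict χ.toUnitHom.rangeRestrict_surjective
  let V : Subgroup (G × χ.toUnitHom.range) := reV (E := E) χ hCN hCA hcls
  letI : Fintype V := Fintype.ofFinite V
  -- the class map with values in `V`
  let Cls : Ideal (𝓞 E) → V := fun J =>
    if h : J ⊔ reMod E 𝔪 r = ⊤ then ⟨reVal cls χ J, J, h, rfl⟩ else 1
  have hCls : ∀ J (h : J ⊔ reMod E 𝔪 r = ⊤), Cls J = ⟨reVal cls χ J, J, h, rfl⟩ :=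
    fun J h => dif_pos h
  have hRay : RayClassMap E (reMod E 𝔪 r) V Cls :=
    { m_ne_bot := re_mod_ne_bot hcls.m_ne_bot hr.ne_zero
      mul := by
        intro I J hI hJ
        rw [hCls _ (re_mul_coprime hI hJ), hCls _ hI, hCls _ hJ]
        apply Subtype.ext
        exact re_val_mul χ hCN hCA hcls hI hJ
      ray := by
        intro a ha ha1
        have hcop : Ideal.span {a} ⊔ reMod E 𝔪 r = ⊤ := by
          rw [Ideal.eq_top_iff_one]
          have h1 : (1 : 𝓞 E) = a + (-(a - 1)) := by ring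
          rw [h1]
          exact Submodule.add_mem_sup (Ideal.subset_span rfl) (neg_mem ha1)
        rw [hCls _ hcop]
        apply Subtype.ext
        show reVal cls χ (Ideal.span {a}) = 1
        apply Prod.ext
        · show cls (Ideal.relNorm (𝓞 F) (Ideal.span {a})) = 1
          rw [Ideal.relNorm_singleton]
          apply hcls.ray
          · exact Algebra.intNorm_ne_zero.mpr ha
          · exact rn_intNorm_sub_one_mem 𝔪 a (re_mod_le_left 𝔪 r ha1)
        · show (reVal cls χ (Ideal.span {a})).2 = 1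
          rw [re_snd_eq_one_iff cls χ (re_coprime_right hCA hcop)]
          exact rn_chi_absNorm_span hp hp2 hr χ hχ a (re_mod_le_right 𝔪 r ha1)
      surj := by
        rintro ⟨_, J, hJ, rfl⟩
        exact ⟨J, re_ne_bot hCA hr hJ, hJ, hCls J hJ⟩ }
  have hnorm : ∀ A : Ideal (𝓞 M'), A ≠ ⊥ → Ideal.relNorm (𝓞 E) A ⊔ reMod E 𝔪 r = ⊤ →
      Cls (Ideal.relNorm (𝓞 E) A) = 1 := by
    intro A hA hAcop
    rw [hCls _ hAcop]
    apply Subtype.ext
    obtain ⟨h1, h2⟩ := hb A hA hAcop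
    apply Prod.ext
    · exact h1
    · show (reVal cls χ (Ideal.relNorm (𝓞 E) A)).2 = 1
      rw [re_snd_eq_one_iff cls χ (re_coprime_right hCA hAcop), Ideal.absNorm_relNorm]
      exact h2
  have hcard := hSI E M' (reMod E 𝔪 r) V Cls hRay hnorm
  rw [hdeg, ← Nat.card_eq_fintype_card] at hcard
  -- counting
  obtain ⟨I₀, hI₀, hI₀cop, hI₀χ⟩ := hc
  obtain ⟨k, hk⟩ := hχ
  let π : V →* χ.toUnitHom.range := (MonoidHom.snd _ _).comp V.subtype
  have hπ : ∀ J (h : J ⊔ reMod E 𝔪 r = ⊤), π (Cls J) = (reVal cls χ J).2 := by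
    intro J h
    rw [hCls J h]
    rfl
  have h1 : π (Cls I₀) ≠ 1 := by
    rw [hπ _ hI₀cop, Ne, re_snd_eq_one_iff cls χ (re_coprime_right hCA hI₀cop)]
    exact hI₀χ
  have hk' : π (Cls I₀) ^ (p ^ k) = 1 := by
    obtain ⟨u, hu⟩ := χ.toUnitHom.rangeRestrict_surjective (π (Cls I₀))
    have hu_pow : χ.toUnitHom u ^ (p ^ k) = 1 := by
      apply Units.ext
      rw [Units.val_pow_eq_pow_val, MulChar.coe_toUnitHom, ← MulChar.pow_apply_coe, hk,
        MulChar.one_apply_coe]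
      rfl
    rw [← hu, ← map_pow]
    apply Subtype.ext
    rw [MonoidHom.coe_rangeRestrict, map_pow, hu_pow]
    rfl
  have hw : π (Cls I) = 1 := by
    rw [hπ _ hIcop, re_snd_eq_one_iff cls χ (re_coprime_right hCA hIcop)]
    exact hχI
  have hfin := re_ker_trivial hp hcard π (Cls I₀) k h1 hk' (Cls I) hw
  rw [hCls _ hIcop] at hfin
  have := congrArg (fun v : V => (v : G × χ.toUnitHom.range).1) hfin
  exact this

end Fermat.Agent.F4Rec
end
end MergeWrap_F4_Recip_ERec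

section MergeWrap_F4_Recip_CompareAbstract -- from F4/Recip/CompareAbstract.lean

/-!
# F4/Recip: the class computation of the crossing argument (abstract form, with modulus)

`cls` a map on the ideals of `F`, multiplicative on the ideals prime to `𝔪`, with values in a group
of exponent `p`; two auxiliary fields `E₁`, `E₂` over `F` in which the ideals (prime to `𝔪 r_i`)
killed by `χ_i ∘ N` have norms killed by `cls`; a common overfield `E₃` carrying an ideal `P₃`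
with `χ₁(N P₃) = χ₂(N P₃) = ω ^ k`, `p ∤ k`.  Then for ideals `B_i` of `E_i` with
`χ₁(N B₁) = ω`, `χ₂(N B₂) = ω ^ u`: `cls (N_{E₂/F} B₂) = cls (N_{E₁/F} B₁) ^ u`.
-/

set_option autoImplicit false
set_option linter.unusedSectionVars false

open NumberField
open scoped nonZeroDivisors

namespace Fermat.Agent.F4Rec

section abstract

variable (F E₃ : Type) [Field F] [NumberField F] [Field E₃] [NumberField E₃] [Algebra F E₃]

/-- One half of the crossing: `cls (N_{E/F} B) ^ k * cls (N_{E₃/F} P₃) ^ e = 1` as soon as `χ`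
kills the norm of `B ^ k * N_{E₃/E}(P₃) ^ e`. -/
theorem cr_half {r n k e : ℕ}
    (E : Type) [Field E] [NumberField E] [Algebra F E] [Algebra E E₃] [IsScalarTower F E E₃]
    (𝔪 : Ideal (𝓞 F)) {G : Type} [CommGroup G] (cls : Ideal (𝓞 F) → G)
    (hmul : ∀ I J : Ideal (𝓞 F), I ⊔ 𝔪 = ⊤ → J ⊔ 𝔪 = ⊤ → cls (I * J) = cls I * cls J)
    (χ : DirichletCharacter ℂ r)
    (hE : ∀ I : Ideal (𝓞 E), I ≠ ⊥ →
      I ⊔ (𝔪.map (algebraMap (𝓞 F) (𝓞 E)) * Ideal.span {(r : 𝓞 E)}) = ⊤ →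
      χ ((Ideal.absNorm I : ℕ) : ZMod r) = 1 → cls (Ideal.relNorm (𝓞 F) I) = 1)
    (B : Ideal (𝓞 E)) (P₃ : Ideal (𝓞 E₃)) (hP₃ : P₃ ≠ ⊥) (hB0 : B ≠ ⊥)
    (hB : Ideal.absNorm B = n) (hBm : Ideal.relNorm (𝓞 F) B ⊔ 𝔪 = ⊤)
    (hn : n.Coprime r) (hP : (Ideal.absNorm P₃).Coprime r)
    (hP𝔪 : (Ideal.absNorm P₃).Coprime (Ideal.absNorm 𝔪))
    (hχ : χ (n : ZMod r) ^ k * χ ((Ideal.absNorm P₃ : ℕ) : ZMod r) ^ e = 1) :
    cls (Ideal.relNorm (𝓞 F) B) ^ k * cls (Ideal.relNorm (𝓞 F) P₃) ^ e = 1 := by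
  have hA₁0 : Ideal.relNorm (𝓞 E) P₃ ≠ ⊥ := by
    rw [Ne, Ideal.relNorm_eq_bot_iff]; exact hP₃
  have hI0 : B ^ k * Ideal.relNorm (𝓞 E) P₃ ^ e ≠ ⊥ :=
    mul_ne_zero (pow_ne_zero _ hB0) (pow_ne_zero _ hA₁0)
  have hnorm : Ideal.absNorm (B ^ k * Ideal.relNorm (𝓞 E) P₃ ^ e) =
      n ^ k * Ideal.absNorm P₃ ^ e := by
    rw [map_mul, map_pow, map_pow, hB, Ideal.absNorm_relNorm]
  -- coprimality to the modulus
  have hB1 : B ⊔ (𝔪.map (algebraMap (𝓞 F) (𝓞 E)) * Ideal.span {(r : 𝓞 E)}) = ⊤ :=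
    sup_mul_eq_top (sup_map_eq_top_of_relNorm hBm) (sup_span_eq_top_of_coprime (hB ▸ hn))
  have hA1 : Ideal.relNorm (𝓞 E) P₃ ⊔
      (𝔪.map (algebraMap (𝓞 F) (𝓞 E)) * Ideal.span {(r : 𝓞 E)}) = ⊤ := by
    refine sup_mul_eq_top (sup_map_eq_top_of_absNorm_coprime ?_) (sup_span_eq_top_of_coprime ?_)
    · rw [Ideal.absNorm_relNorm]; exact hP𝔪
    · rw [Ideal.absNorm_relNorm]; exact hP
  have hI1 := pow_mul_pow_sup_eq_top hB1 hA1 k e
  have h1 := hE _ hI0 hI1 (by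
    rw [hnorm, Nat.cast_mul, Nat.cast_pow, Nat.cast_pow, map_mul, map_pow, map_pow, hχ])
  have hA3 : Ideal.relNorm (𝓞 F) P₃ ⊔ 𝔪 = ⊤ := by
    apply sup_eq_top_of_absNorm_coprime
    rw [Ideal.absNorm_relNorm]; exact hP𝔪
  rw [map_mul, map_pow, map_pow, Ideal.relNorm_relNorm, cls_pow_mul_pow hmul hBm hA3] at h1
  exact h1

variable (E₁ E₂ : Type) [Field E₁] [NumberField E₁] [Field E₂] [NumberField E₂]
  [Algebra F E₁] [Algebra F E₂] [Algebra E₁ E₃] [Algebra E₂ E₃]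
  [IsScalarTower F E₁ E₃] [IsScalarTower F E₂ E₃]

/-- **Abstract crossing lemma with modulus.** -/
theorem crossAbstractRay {p r₁ r₂ n₁ n₂ u k : ℕ} (hp : p.Prime) (hk : ¬ p ∣ k) (hu : ¬ p ∣ u)
    (𝔪 : Ideal (𝓞 F)) {G : Type} [CommGroup G] (cls : Ideal (𝓞 F) → G)
    (hmul : ∀ I J : Ideal (𝓞 F), I ⊔ 𝔪 = ⊤ → J ⊔ 𝔪 = ⊤ → cls (I * J) = cls I * cls J)
    (hexp : ∀ g : G, g ^ p = 1)
    (χ₁ : DirichletCharacter ℂ r₁) (χ₂ : DirichletCharacter ℂ r₂) (ω : ℂ) (hω : ω ^ p = 1)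
    (hχ₁ : χ₁ (n₁ : ZMod r₁) = ω) (hχ₂ : χ₂ (n₂ : ZMod r₂) = ω ^ u)
    (hE₁ : ∀ I : Ideal (𝓞 E₁), I ≠ ⊥ →
      I ⊔ (𝔪.map (algebraMap (𝓞 F) (𝓞 E₁)) * Ideal.span {(r₁ : 𝓞 E₁)}) = ⊤ →
      χ₁ ((Ideal.absNorm I : ℕ) : ZMod r₁) = 1 → cls (Ideal.relNorm (𝓞 F) I) = 1)
    (hE₂ : ∀ I : Ideal (𝓞 E₂), I ≠ ⊥ →
      I ⊔ (𝔪.map (algebraMap (𝓞 F) (𝓞 E₂)) * Ideal.span {(r₂ : 𝓞 E₂)}) = ⊤ →
      χ₂ ((Ideal.absNorm I : ℕ) : ZMod r₂) = 1 → cls (Ideal.relNorm (𝓞 F) I) = 1)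
    (B₁ : Ideal (𝓞 E₁)) (B₂ : Ideal (𝓞 E₂)) (P₃ : Ideal (𝓞 E₃)) (hP₃ : P₃ ≠ ⊥)
    (hB₁0 : B₁ ≠ ⊥) (hB₂0 : B₂ ≠ ⊥)
    (hB₁ : Ideal.absNorm B₁ = n₁) (hB₂ : Ideal.absNorm B₂ = n₂)
    (hB₁m : Ideal.relNorm (𝓞 F) B₁ ⊔ 𝔪 = ⊤) (hB₂m : Ideal.relNorm (𝓞 F) B₂ ⊔ 𝔪 = ⊤)
    (hn₁ : n₁.Coprime r₁) (hn₂ : n₂.Coprime r₂)
    (hP₁ : (Ideal.absNorm P₃).Coprime r₁) (hP₂ : (Ideal.absNorm P₃).Coprime r₂)
    (hP𝔪 : (Ideal.absNorm P₃).Coprime (Ideal.absNorm 𝔪))
    (hχP₁ : χ₁ ((Ideal.absNorm P₃ : ℕ) : ZMod r₁) = ω ^ k)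
    (hχP₂ : χ₂ ((Ideal.absNorm P₃ : ℕ) : ZMod r₂) = ω ^ k) :
    cls (Ideal.relNorm (𝓞 F) B₂) = cls (Ideal.relNorm (𝓞 F) B₁) ^ u := by
  have : Fact p.Prime := ⟨hp⟩
  -- the exponent `j` with `u * j ≡ k mod p`
  have hu0 : (u : ZMod p) ≠ 0 := by
    rwa [Ne, ZMod.natCast_eq_zero_iff]
  obtain ⟨j, hj⟩ : ∃ j : ℕ, u * j ≡ k [MOD p] := by
    refine ⟨((u : ZMod p)⁻¹ * (k : ZMod p)).val, ?_⟩
    rw [← ZMod.natCast_eq_natCast_iff, Nat.cast_mul, ZMod.natCast_val, ZMod.cast_id', id,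
      ← mul_assoc, mul_inv_cancel₀ hu0, one_mul]
  obtain ⟨t, ht⟩ : ∃ t : ℕ, u * j + k * (p - 1) = p * t := by
    have h1 : u * j + k * (p - 1) ≡ 0 [MOD p] := by
      have h2 : u * j + k * (p - 1) ≡ k + k * (p - 1) [MOD p] := Nat.ModEq.add_right _ hj
      have h3 : k + k * (p - 1) = p * k := by
        have := hp.one_le
        conv_lhs => rw [← mul_one k, mul_assoc, one_mul, ← mul_add, Nat.add_sub_cancel' this]
        exact mul_comm _ _
      rw [h3] at h2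
      exact h2.trans ((Nat.modEq_zero_iff_dvd).mpr (dvd_mul_right p k))
    exact (Nat.modEq_zero_iff_dvd).mp h1
  have h1 := cr_half F E₃ E₁ 𝔪 cls hmul χ₁ hE₁ B₁ P₃ hP₃ hB₁0 hB₁ hB₁m hn₁ hP₁ hP𝔪
    (k := k) (e := p - 1) (by
      rw [hχ₁, hχP₁, ← pow_mul, ← pow_add]
      have : k + k * (p - 1) = p * k := by
        have := hp.one_le
        conv_lhs => rw [← mul_one k, mul_assoc, one_mul, ← mul_add, Nat.add_sub_cancel' this]
        exact mul_comm _ _
      rw [this, pow_mul, hω, one_pow])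
  have h2 := cr_half F E₃ E₂ 𝔪 cls hmul χ₂ hE₂ B₂ P₃ hP₃ hB₂0 hB₂ hB₂m hn₂ hP₂ hP𝔪
    (k := j) (e := p - 1) (by
      rw [hχ₂, hχP₂, ← pow_mul, ← pow_mul, ← pow_add, ht, pow_mul, hω, one_pow])
  obtain ⟨c, hc, hcq⟩ := Fermat.Agent.S14.Cross.ca_group (⊥ : Subgroup G) hp
    (fun x => by rw [hexp x]; exact Subgroup.one_mem _) hk hj
    (by rw [h1]; exact Subgroup.one_mem _) (by rw [h2]; exact Subgroup.one_mem _)
  rw [Subgroup.mem_bot] at hc
  rw [hcq, hc, mul_one]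

end abstract

end Fermat.Agent.F4Rec
end MergeWrap_F4_Recip_CompareAbstract

section MergeWrap_F4_Recip_FinrankEHMH -- from F4/Recip/FinrankEHMH.lean

/-!
# F4/Recip (port of S14 crossing), piece R4 (U1a): `[M_H : E_H] = [M : K]` when `resM` maps `H` onto `Gal(M/K)`
-/

set_option autoImplicit false
set_option linter.unusedSectionVars false

open NumberField Polynomial
open scoped nonZeroDivisors IntermediateField

noncomputable section

namespace Fermat.Agent.F4Rec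

open Fermat.Agent.S14 (InInertia)

variable (F M : Type) [Field F] [NumberField F] [Field M] [NumberField M] [Algebra F M]
  [IsGalois F M]
variable (m : ℕ) [NeZero m] (H : Subgroup (Gam F M m))

/-- the homomorphism `Gal(Ω/E_H) → Gal(M/K)` whose kernel is `HL`. -/
def r4_hom : (Om M m ≃ₐ[EH F M m H] Om M m) →* (M ≃ₐ[F] M) :=
  (resM F M m).comp (AlgEquiv.restrictScalarsHom F)

theorem r4_hom_ker : (r4_hom F M m H).ker = HL F M m H := rfl

theorem r4_hom_surjective (hH : ∀ σ : M ≃ₐ[F] M, ∃ g ∈ H, resM F M m g = σ) :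
    Function.Surjective (r4_hom F M m H) := by
  intro σ
  obtain ⟨g, hg, hgσ⟩ := hH σ
  have hgfix : g ∈ (EH F M m H).fixingSubgroup := by
    rw [IntermediateField.mem_fixingSubgroup_iff]
    intro x hx
    exact (IntermediateField.mem_fixedField_iff H x).mp hx g hg
  refine ⟨IntermediateField.fixingSubgroupEquiv (EH F M m H) ⟨g, hgfix⟩, ?_⟩
  have : AlgEquiv.restrictScalarsHom F
      (IntermediateField.fixingSubgroupEquiv (EH F M m H) ⟨g, hgfix⟩) = g := by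
    ext x
    rfl
  show resM F M m (AlgEquiv.restrictScalarsHom F _) = σ
  rw [this, hgσ]

/-- **(C4)** if `resM` maps `H` onto `Gal(M/K)` then `[M_H : E_H] = [M : K]`. -/
theorem finrankEHMH : FinrankEHMH := by
  intro F M _ _ _ _ _ _ m _ H hH
  have h1 : Nat.card (MH F M m H ≃ₐ[EH F M m H] MH F M m H) =
      Module.finrank (EH F M m H) (MH F M m H) :=
    IsGalois.card_aut_eq_finrank (EH F M m H) (MH F M m H)
  have h2 : Nat.card (M ≃ₐ[F] M) = Module.finrank F M :=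
    IsGalois.card_aut_eq_finrank F M
  rw [← h1, ← h2]
  have e1 : ((Om M m ≃ₐ[EH F M m H] Om M m) ⧸ HL F M m H) ≃*
      (MH F M m H ≃ₐ[EH F M m H] MH F M m H) :=
    IsGalois.normalAutEquivQuotient (HL F M m H)
  have e2 : ((Om M m ≃ₐ[EH F M m H] Om M m) ⧸ (r4_hom F M m H).ker) ≃* (M ≃ₐ[F] M) :=
    QuotientGroup.quotientKerEquivOfSurjective _ (r4_hom_surjective F M m H hH)
  have c1 := Nat.card_congr e1.toEquiv
  have c2 := Nat.card_congr e2.toEquiv
  exact c1.symm.trans c2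

end Fermat.Agent.F4Rec
end
end MergeWrap_F4_Recip_FinrankEHMH

section MergeWrap_F4_Recip_CycFrob -- from F4/Recip/CycFrob.lean

/-!
# F4/Recip (port of S14 crossing), piece R7: `CycFrob` (helper13)
-/

set_option autoImplicit false

open NumberField Polynomial
open scoped nonZeroDivisors IntermediateField

namespace Fermat.Agent.F4Rec

open Fermat.Agent.S14 (InInertia)

section c7

/-- For a primitive `d`-th root of unity `η` of a domain and a prime ideal `Q` not containing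
`d`, the element `1 - η ^ j` is not in `Q` unless `d ∣ j`. -/
theorem r7_dvd_of_one_sub_pow_mem {S : Type*} [CommRing S] [IsDomain S] {Q : Ideal S}
    {η : S} {d : ℕ} (hd0 : d ≠ 0) (hη : IsPrimitiveRoot η d)
    (hdQ : (d : S) ∉ Q) {j : ℕ} (hj : 1 - η ^ j ∈ Q) : d ∣ j := by
  by_contra hdj
  obtain ⟨n, rfl⟩ : ∃ n, d = n + 1 := ⟨d - 1, by omega⟩
  apply hdQ
  have hprod := hη.prod_one_sub_pow_eq_order
  have hmod : η ^ j = η ^ (j % (n + 1)) := by
    conv_lhs => rw [← Nat.mod_add_div j (n + 1), pow_add, pow_mul, hη.pow_eq_one, one_pow,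
      mul_one]
  have hpos : 0 < j % (n + 1) := Nat.pos_of_ne_zero (fun h => hdj (Nat.dvd_of_mod_eq_zero h))
  have hlt : j % (n + 1) < n + 1 := Nat.mod_lt _ (Nat.succ_pos _)
  have hmem : j % (n + 1) - 1 ∈ Finset.range n := by
    rw [Finset.mem_range]; omega
  have hdvd : (1 - η ^ (j % (n + 1) - 1 + 1)) ∣ ∏ k ∈ Finset.range n, (1 - η ^ (k + 1)) :=
    Finset.dvd_prod_of_mem _ hmem
  rw [Nat.sub_add_cancel hpos, ← hmod, hprod] at hdvd
  have := Q.mem_of_dvd hdvd hj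
  simpa using this

/-- Powers of a primitive `d`-th root of unity which are congruent modulo a prime not
containing `d` have congruent exponents. -/
theorem r7_modEq_of_pow_sub_pow_mem {S : Type*} [CommRing S] [IsDomain S] {Q : Ideal S}
    (hQ : Q.IsPrime) {η : S} {d : ℕ} (hd0 : d ≠ 0) (hη : IsPrimitiveRoot η d)
    (hdQ : (d : S) ∉ Q) {a b : ℕ} (hab : η ^ a - η ^ b ∈ Q) : a ≡ b [MOD d] := by
  have hunit : IsUnit η := hη.isUnit hd0
  wlog hle : a ≤ b generalizing a b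
  · have h' : η ^ b - η ^ a ∈ Q := by
      have := Q.neg_mem hab
      rwa [neg_sub] at this
    exact (this h' (by omega)).symm
  have h1 : η ^ a * (1 - η ^ (b - a)) ∈ Q := by
    rw [mul_sub, mul_one, ← pow_add, Nat.add_sub_cancel' hle]
    exact hab
  have h2 : 1 - η ^ (b - a) ∈ Q := by
    rcases hQ.mem_or_mem h1 with h | h
    · exact absurd (Q.eq_top_of_isUnit_mem h (hunit.pow a)) hQ.ne_top
    · exact h
  have h3 := r7_dvd_of_one_sub_pow_mem hd0 hη hdQ h2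
  exact (Nat.modEq_of_dvd (by
    have : ((b - a : ℕ) : ℤ) = (b : ℤ) - a := by omega
    rw [← this]
    exact_mod_cast h3))

end c7

/-- **(C7)** `CycFrob`. -/
theorem cycFrob : CycFrob := by
  intro F M _ _ _ _ _ _ m _ g P q d hd hP hg hdP
  have hm0 : m ≠ 0 := NeZero.ne m
  have hd0 : d ≠ 0 := fun h => hm0 (by rw [h] at hd; exact Nat.eq_zero_of_zero_dvd hd)
  have hζ := zetaOm_spec M m
  have hζi : IsPrimitiveRoot hζ.toInteger m := hζ.toInteger_isPrimitiveRoot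
  have hη : IsPrimitiveRoot (hζ.toInteger ^ (m / d)) d :=
    hζi.pow (Nat.pos_of_ne_zero hm0) (Nat.div_mul_cancel hd).symm
  obtain ⟨y, hy, hxy⟩ := hg (hζ.toInteger ^ (m / d))
  have h1 : g (zetaOm M m ^ (m / d)) = (zetaOm M m ^ (m / d)) ^ ((cyc F M m g : ZMod m).val) := by
    rw [map_pow, cyc_spec, ← pow_mul, ← pow_mul, mul_comm]
  have hxy' : (zetaOm M m ^ (m / d)) ^ ((cyc F M m g : ZMod m).val) -
      (zetaOm M m ^ (m / d)) ^ q = (y : Om M m) := by
    rw [← h1]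
    exact hxy
  have hmem : (hζ.toInteger ^ (m / d)) ^ ((cyc F M m g : ZMod m).val) -
      (hζ.toInteger ^ (m / d)) ^ q ∈ P := by
    have : (hζ.toInteger ^ (m / d)) ^ ((cyc F M m g : ZMod m).val) -
        (hζ.toInteger ^ (m / d)) ^ q = y := by
      apply RingOfIntegers.ext
      rw [← hxy']
      rfl
    rw [this]
    exact hy
  have hmod := r7_modEq_of_pow_sub_pow_mem hP hd0 hη hdP hmem
  rw [ZMod.unitsMap_def, Units.coe_map, MonoidHom.coe_coe, ZMod.castHom_apply,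
    ← ZMod.natCast_val, ZMod.natCast_eq_natCast_iff]
  exact hmod

end Fermat.Agent.F4Rec
end MergeWrap_F4_Recip_CycFrob

section MergeWrap_F4_Recip_ChiNormMH -- from F4/Recip/ChiNormMH.lean


/-!
# F4/Recip (port of S14 crossing), piece R10: `ChiNormMH` (helper13)
-/

set_option autoImplicit false
set_option linter.unusedSectionVars false

open NumberField Polynomial
open scoped nonZeroDivisors IntermediateField

namespace Fermat.Agent.F4Rec

open Fermat.Agent.S14 (InInertia)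

section c10

variable {F M : Type} [Field F] [NumberField F] [Field M] [NumberField M] [Algebra F M]
  [IsGalois F M] {m : ℕ} [NeZero m]

/-- Frobenius elements of `Ω/M_H`: an element of `H`, trivial on `M`, which is a Frobenius at
a prime `P` above a given nonzero prime of `M_H`. -/
theorem r10_exists_frob (H : Subgroup (Gam F M m)) (𝔓 : Ideal (𝓞 (MH F M m H)))
    (h𝔓 : 𝔓.IsPrime) (h𝔓0 : 𝔓 ≠ ⊥) :
    ∃ (g : Gam F M m) (P : Ideal (𝓞 (Om M m))), g ∈ H ∧ resM F M m g = 1 ∧ P.IsPrime ∧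
      P.under (𝓞 (MH F M m H)) = 𝔓 ∧ IsFrobOm g P (Ideal.absNorm 𝔓) := by
  have h𝔓max : 𝔓.IsMaximal := h𝔓.isMaximal h𝔓0
  obtain ⟨P, hPmax, hPover⟩ :=
    Ideal.exists_maximal_ideal_liesOver_of_isIntegral (S := 𝓞 (Om M m)) 𝔓
  have hP : P.IsPrime := hPmax.isPrime
  have hP𝔓 : P.under (𝓞 (MH F M m H)) = 𝔓 := hPover.over.symm
  have hP0 : P ≠ ⊥ := Ideal.ne_bot_of_liesOver_of_ne_bot h𝔓0 P
  have : Finite (𝓞 (Om M m) ⧸ P) := Ideal.finiteQuotientOfFreeOfNeBot P hP0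
  obtain ⟨σ, hσ⟩ := IsArithFrobAt.exists_of_isInvariant (𝓞 (MH F M m H))
    (Om M m ≃ₐ[MH F M m H] Om M m) P
  -- `σ` as an element of `Gal(Ω/E_H)` and of `Gal(Ω/K)`
  set σE : Om M m ≃ₐ[EH F M m H] Om M m := σ.restrictScalars (EH F M m H) with hσE
  set g : Gam F M m := σE.restrictScalars F with hg
  have hgx : ∀ x : Om M m, g x = σ x := fun x => rfl
  have hgH : g ∈ H := by
    have h1 : g ∈ (EH F M m H).fixingSubgroup := by
      intro x
      exact σE.commutes x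
    rwa [IntermediateField.fixingSubgroup_fixedField] at h1
  have hres : resM F M m g = 1 := by
    ext x
    apply (algebraMap M (Om M m)).injective
    rw [resM_commutes, AlgEquiv.one_apply, hgx]
    exact σ.commutes (algebraMap M (MH F M m H) x)
  refine ⟨g, P, hgH, hres, hP, hP𝔓, fun x => ?_⟩
  have h := hσ x
  rw [hP𝔓] at h
  have hcard : Nat.card (𝓞 (MH F M m H) ⧸ 𝔓) = Ideal.absNorm 𝔓 := by
    rw [Ideal.absNorm_apply, Submodule.cardQuot_apply]
  rw [hcard] at h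
  exact ⟨_, h, rfl⟩

/-- `χ` kills the norm of a nonzero prime of `M_H` prime to `d`. -/
theorem r10_prime (H : Subgroup (Gam F M m)) (ψ : (M ≃ₐ[F] M) →* ℂˣ) (d : ℕ) (hd : d ∣ m)
    (χ : DirichletCharacter ℂ d) (hH : H ≤ (Theta F M m ψ hd χ).ker)
    (𝔓 : Ideal (𝓞 (MH F M m H))) (h𝔓 : 𝔓.IsPrime) (h𝔓0 : 𝔓 ≠ ⊥)
    (hcop : (Ideal.absNorm 𝔓).Coprime d) : χ ((Ideal.absNorm 𝔓 : ℕ) : ZMod d) = 1 := by
  obtain ⟨g, P, hgH, hres, hP, hP𝔓, hg⟩ := r10_exists_frob H 𝔓 h𝔓 h𝔓0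
  -- `d ∉ P`
  have hNP : ((Ideal.absNorm 𝔓 : ℕ) : 𝓞 (Om M m)) ∈ P := by
    have h1 : ((Ideal.absNorm 𝔓 : ℕ) : 𝓞 (MH F M m H)) ∈ P.under (𝓞 (MH F M m H)) := by
      rw [hP𝔓]
      exact Ideal.absNorm_mem 𝔓
    rw [Ideal.under_def, Ideal.mem_comap, map_natCast] at h1
    exact h1
  have hdP : (d : 𝓞 (Om M m)) ∉ P := by
    intro hdP
    have h1 : ((Nat.gcd (Ideal.absNorm 𝔓) d : ℤ) : 𝓞 (Om M m)) ∈ P := by
      rw [Nat.gcd_eq_gcd_ab]
      push_cast
      exact P.add_mem (P.mul_mem_right _ hNP) (P.mul_mem_right _ hdP)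
    rw [hcop] at h1
    apply hP.ne_top
    rw [Ideal.eq_top_iff_one]
    simpa using h1
  have hc := cycFrob F M m g P (Ideal.absNorm 𝔓) d hd hP hg hdP
  -- `Θ g = 1`
  have hΘ : Theta F M m ψ hd χ g = 1 := hH hgH
  have hχ : χ.toUnitHom (ZMod.unitsMap hd (cyc F M m g)) = 1 := by
    have h1 : Theta F M m ψ hd χ g =
        ψ (resM F M m g) * (χ.toUnitHom (ZMod.unitsMap hd (cyc F M m g)))⁻¹ := rfl
    rw [h1, hres, map_one, one_mul, inv_eq_one] at hΘ
    exact hΘ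
  rw [← hc, ← MulChar.coe_toUnitHom, hχ, Units.val_one]

end c10

/-- **(C10)** `ChiNormMH`. -/
theorem chiNormMH : ChiNormMH := by
  intro F M _ _ _ _ _ _ m _ H ψ d hd χ hH I
  induction I using UniqueFactorizationMonoid.induction_on_prime with
  | h₁ =>
    intro hcop
    have h0 : Ideal.absNorm (0 : Ideal (𝓞 (MH F M m H))) = 0 := by
      rw [Ideal.zero_eq_bot, Ideal.absNorm_bot]
    rw [h0] at hcop ⊢
    have hd1 : d = 1 := by simpa using hcop
    subst hd1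
    have : ((0 : ℕ) : ZMod 1) = 1 := Subsingleton.elim _ _
    rw [this, map_one]
  | h₂ J hJu =>
    intro _
    have hJ : J = ⊤ := by
      rw [← Ideal.one_eq_top]
      exact isUnit_iff_eq_one.mp hJu
    rw [hJ, Ideal.absNorm_top, Nat.cast_one, map_one]
  | h₃ J 𝔓 hJ0 h𝔓 ih =>
    intro hcop
    have hnorm : Ideal.absNorm (𝔓 * J) = Ideal.absNorm 𝔓 * Ideal.absNorm J := map_mul _ _ _
    rw [hnorm] at hcop ⊢
    have hcop𝔓 : (Ideal.absNorm 𝔓).Coprime d := Nat.Coprime.coprime_mul_right hcop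
    have hcopJ : (Ideal.absNorm J).Coprime d := Nat.Coprime.coprime_mul_left hcop
    rw [Nat.cast_mul, map_mul, ih hcopJ, mul_one]
    exact r10_prime H ψ d hd χ hH 𝔓 (Ideal.isPrime_of_prime h𝔓) h𝔓.ne_zero hcop𝔓

end Fermat.Agent.F4Rec
end MergeWrap_F4_Recip_ChiNormMH

section MergeWrap_F4_Recip_ResFrob -- from F4/Recip/ResFrob.lean

/-!
# F4/Recip, piece R8: `ResFrob` (port of S14 C8 of helper13)
-/

set_option autoImplicit false

open NumberField Polynomial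
open scoped nonZeroDivisors IntermediateField

namespace Fermat.Agent.F4Rec

open Fermat.Agent.S14 (InInertia)

section c8

variable {F M : Type} [Field F] [NumberField F] [Field M] [NumberField M] [Algebra F M]
  [IsGalois F M] {m : ℕ} [NeZero m]

/-- The Frobenius congruence for `g` on `Ω` gives the Frobenius congruence for `resM g`
on `M`. -/
theorem r8_resM_frob {g : Gam F M m} {P : Ideal (𝓞 (Om M m))} {q : ℕ} (hg : IsFrobOm g P q)
    (x : 𝓞 M) : (resM F M m g) • x - x ^ q ∈ P.under (𝓞 M) := by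
  obtain ⟨y, hy, hxy⟩ := hg (algebraMap (𝓞 M) (𝓞 (Om M m)) x)
  rw [Ideal.under_def, Ideal.mem_comap]
  have h1 : algebraMap (𝓞 M) (𝓞 (Om M m)) ((resM F M m g) • x - x ^ q) = y := by
    apply RingOfIntegers.ext
    rw [← hxy]
    show algebraMap M (Om M m) ((resM F M m g) (x : M) - (x : M) ^ q) = _
    rw [map_sub, map_pow, resM_commutes]
    rfl
  rw [h1]
  exact hy

end c8

/-- **(C8)** `ResFrob`. -/
theorem resFrob : ResFrob := by
  intro F M _ _ _ _ _ _ m _ g P q τ hU hP hP0 hg hτ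
  have hp : (P.under (𝓞 M)).IsPrime := inferInstance
  have hp0 : P.under (𝓞 M) ≠ ⊥ := Ideal.under_ne_bot (𝓞 M) hP0
  have hin : InInertia ((resM F M m g) * τ⁻¹) (P.under (𝓞 M)) := by
    intro x
    have h1 := r8_resM_frob hg (τ⁻¹ • x)
    obtain ⟨y, hy, hxy⟩ := hτ (τ⁻¹ • x)
    refine ⟨(resM F M m g) • (τ⁻¹ • x) - (τ⁻¹ • x) ^ q - y, Ideal.sub_mem _ h1 hy, ?_⟩
    have h2 : τ ((τ⁻¹ • x : 𝓞 M) : M) = (x : M) := by
      show τ (τ⁻¹ (x : M)) = x
      rw [← AlgEquiv.mul_apply, mul_inv_cancel, AlgEquiv.one_apply]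
    rw [h2] at hxy
    show (resM F M m g * τ⁻¹) (x : M) - (x : M) =
      (resM F M m g) (τ⁻¹ (x : M)) - (τ⁻¹ (x : M)) ^ q - (y : M)
    rw [← hxy, AlgEquiv.mul_apply]
    show _ = (resM F M m g) (τ⁻¹ (x : M)) - (τ⁻¹ (x : M)) ^ q - ((x : M) - (τ⁻¹ (x : M)) ^ q)
    ring
  have h := hU _ hin
  exact mul_inv_eq_one.mp h

end Fermat.Agent.F4Rec
end MergeWrap_F4_Recip_ResFrob

section MergeWrap_F4_Recip_SplitPrimeEH -- from F4/Recip/SplitPrimeEH.lean

/-!
# F4/Recip, piece R11: `SplitPrimeEH` (port of S14 C11 of helper13)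
-/

set_option autoImplicit false
set_option linter.unusedSectionVars false

open NumberField Polynomial
open scoped nonZeroDivisors IntermediateField

namespace Fermat.Agent.F4Rec

open Fermat.Agent.S14 (InInertia)

section r11

variable {F M : Type} [Field F] [NumberField F] [Field M] [NumberField M] [Algebra F M]
  [IsGalois F M] {m : ℕ} [NeZero m]

/-- Existence of a Frobenius element in `Gal(Ω/F)` at a given prime `P` of `Ω`. -/
theorem r11_exists_frob_at (P : Ideal (𝓞 (Om M m))) (hP : P.IsPrime) (hP0 : P ≠ ⊥) :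
    ∃ g : Gam F M m, IsFrobOm g P (Ideal.absNorm (P.under (𝓞 F))) := by
  have : Finite (𝓞 (Om M m) ⧸ P) := Ideal.finiteQuotientOfFreeOfNeBot P hP0
  obtain ⟨σ, hσ⟩ := IsArithFrobAt.exists_of_isInvariant (𝓞 F) (Gam F M m) P
  refine ⟨σ, fun x => ?_⟩
  have h := hσ x
  have hcard : Nat.card (𝓞 F ⧸ P.under (𝓞 F)) = Ideal.absNorm (P.under (𝓞 F)) := by
    rw [Ideal.absNorm_apply, Submodule.cardQuot_apply]
  rw [hcard] at h
  exact ⟨_, h, rfl⟩

/-- An element of `H` fixes `E_H` pointwise. -/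
theorem r11_fix_EH (H : Subgroup (Gam F M m)) {g : Gam F M m} (hgH : g ∈ H)
    (x : Om M m) (hx : x ∈ EH F M m H) : g x = x :=
  (IntermediateField.mem_fixedField_iff H x).mp hx g hgH

end r11

/-- **(R11)** `SplitPrimeEH`. -/
theorem splitPrimeEH : SplitPrimeEH := by
  intro F M _ _ _ _ _ _ m _ H Q τ hQ hQ0 hU hcop hτ hH
  have hQmax : Q.IsMaximal := hQ.isMaximal hQ0
  -- a prime of `Ω` above `Q`
  obtain ⟨P, hPmax, hPover⟩ :=
    Ideal.exists_maximal_ideal_liesOver_of_isIntegral (S := 𝓞 (Om M m)) Q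
  have hP : P.IsPrime := hPmax.isPrime
  have hPQ : P.under (𝓞 M) = Q := hPover.over.symm
  have hP0 : P ≠ ⊥ := Ideal.ne_bot_of_liesOver_of_ne_bot hQ0 P
  have hPK : P.under (𝓞 F) = Q.under (𝓞 F) := by
    rw [← hPQ, Ideal.under_under]
  -- the Frobenius at `P`
  obtain ⟨g, hg⟩ := r11_exists_frob_at (F := F) P hP hP0
  rw [hPK] at hg
  have hres : resM F M m g = τ := by
    refine resFrob F M m g P _ τ ?_ hP hP0 hg ?_
    · rw [hPQ]; exact hU
    · rw [hPQ]; exact hτ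
  have hq0 : Q.under (𝓞 F) ≠ ⊥ := Ideal.under_ne_bot (𝓞 F) hQ0
  have hqP : (Q.under (𝓞 F)).IsPrime := inferInstance
  have hmP : (m : 𝓞 (Om M m)) ∉ P := by
    intro hmP
    have h1 : ((Ideal.absNorm (Q.under (𝓞 F)) : ℕ) : 𝓞 (Om M m)) ∈ P := by
      have h2 : ((Ideal.absNorm (Q.under (𝓞 F)) : ℕ) : 𝓞 F) ∈ P.under (𝓞 F) := by
        rw [hPK]
        exact Ideal.absNorm_mem _
      rw [Ideal.under_def, Ideal.mem_comap, map_natCast] at h2
      exact h2
    have h3 : ((Nat.gcd (Ideal.absNorm (Q.under (𝓞 F))) m : ℤ) : 𝓞 (Om M m)) ∈ P := by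
      rw [Nat.gcd_eq_gcd_ab]
      push_cast
      exact P.add_mem (P.mul_mem_right _ h1) (P.mul_mem_right _ hmP)
    rw [hcop] at h3
    apply hP.ne_top
    rw [Ideal.eq_top_iff_one]
    simpa using h3
  have hcyc' : ((cyc F M m g : (ZMod m)ˣ) : ZMod m) =
      ((Ideal.absNorm (Q.under (𝓞 F)) : ℕ) : ZMod m) := by
    have := cycFrob F M m g P (Ideal.absNorm (Q.under (𝓞 F))) m (dvd_refl m) hP hg hmP
    rwa [ZMod.unitsMap_self, MonoidHom.id_apply] at this
  have hgH : g ∈ H := hH g hres hcyc'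
  -- the prime of `E_H` below `P`
  set B : Ideal (𝓞 (EH F M m H)) := P.under (𝓞 (EH F M m H)) with hBdef
  have hB : B.IsPrime := inferInstance
  have hB0 : B ≠ ⊥ := Ideal.under_ne_bot _ hP0
  have hBK : B.under (𝓞 F) = Q.under (𝓞 F) := by
    rw [hBdef, Ideal.under_under, hPK]
  have hpow : ∀ x : 𝓞 (EH F M m H), x ^ Ideal.absNorm (B.under (𝓞 F)) - x ∈ B := by
    intro x
    rw [hBK, hBdef, Ideal.under_def, Ideal.mem_comap]
    obtain ⟨z, hz, hxz⟩ := hg (algebraMap (𝓞 (EH F M m H)) (𝓞 (Om M m)) x)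
    have hfix : g ((algebraMap (𝓞 (EH F M m H)) (𝓞 (Om M m)) x : 𝓞 (Om M m)) : Om M m) =
        ((algebraMap (𝓞 (EH F M m H)) (𝓞 (Om M m)) x : 𝓞 (Om M m)) : Om M m) :=
      r11_fix_EH H hgH _ (x : EH F M m H).2
    rw [hfix] at hxz
    have : algebraMap (𝓞 (EH F M m H)) (𝓞 (Om M m))
        (x ^ Ideal.absNorm (Q.under (𝓞 F)) - x) = -z := by
      apply RingOfIntegers.ext
      show _ = -(z : Om M m)
      rw [← hxz, map_sub, map_pow]
      simp
    rw [this]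
    exact P.neg_mem hz
  obtain ⟨h1, h2⟩ := Fermat.Agent.S14.Cross.c11_relNorm_eq_under (E := F) B hB hB0 hpow
  refine ⟨B, hB, hB0, ?_, ?_⟩
  · rw [h2, hBK]
  · rw [h1, hBK]

end Fermat.Agent.F4Rec
end MergeWrap_F4_Recip_SplitPrimeEH

section MergeWrap_F4_Recip_CompareHalf -- from F4/Recip/CompareHalf.lean

/-!
# F4/Recip: one auxiliary pair `(E, M')`, `E = Ω^(ker Θ)`, `M' = M · E`
-/

set_option autoImplicit false
set_option linter.unusedSectionVars false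

open NumberField Polynomial
open scoped nonZeroDivisors IntermediateField

noncomputable section

namespace Fermat.Agent.F4Rec

open Fermat.Agent.F4Ray (RayClassMap)

variable {F M : Type} [Field F] [NumberField F] [Field M] [NumberField M] [Algebra F M]
  [IsGalois F M] {m : ℕ} [NeZero m]

/-- `resM` maps `ker Θ` onto `Gal(M/F)`. -/
theorem resM_ker_theta_surj (ψ : (M ≃ₐ[F] M) →* ℂˣ) {d : ℕ} (hd : d ∣ m)
    (χ : DirichletCharacter ℂ d)
    (hsurj : ∀ (σ : M ≃ₐ[F] M) (a : (ZMod m)ˣ),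
      ∃ g : Gam F M m, resM F M m g = σ ∧ cyc F M m g = a)
    (him : ∀ σ : M ≃ₐ[F] M, ∃ a : (ZMod d)ˣ, χ (a : ZMod d) = ((ψ σ : ℂˣ) : ℂ))
    (σ : M ≃ₐ[F] M) : ∃ g ∈ (Theta F M m ψ hd χ).ker, resM F M m g = σ := by
  obtain ⟨a, ha⟩ := him σ
  obtain ⟨b, hb⟩ := ZMod.unitsMap_surjective hd a
  obtain ⟨g, hg1, hg2⟩ := hsurj σ b
  refine ⟨g, ?_, hg1⟩
  rw [mem_ker_theta_iff, hg2, hb, ha, hg1]

/-- One auxiliary pair: the reciprocity statement in `(E, M')` and the prime of degree one. -/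
theorem cmp_half (hERec : ERec)
    (p : ℕ) (r : ℕ) (hrm : r ∣ m) (ψ : (M ≃ₐ[F] M) →* ℂˣ) (χ : DirichletCharacter ℂ r)
    (hp : p.Prime) (hp2 : p ≠ 2) (hdeg : Module.finrank F M = p) (hr : r.Prime)
    (hsurj : ∀ (σ : M ≃ₐ[F] M) (a : (ZMod m)ˣ),
      ∃ g : Gam F M m, resM F M m g = σ ∧ cyc F M m g = a)
    (hχpow : ∃ k : ℕ, χ ^ (p ^ k) = 1)
    (him : ∀ σ : M ≃ₐ[F] M, ∃ a : (ZMod r)ˣ, χ (a : ZMod r) = ((ψ σ : ℂˣ) : ℂ))
    (𝔪 : Ideal (𝓞 F)) (G : Type) [CommGroup G] [Fintype G] (cls : Ideal (𝓞 F) → G)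
    (hray : RayClassMap F 𝔪 G cls) (hkill : KillsNorms F M 𝔪 cls)
    (Q : Ideal (𝓞 M)) (τ : M ≃ₐ[F] M) (hQ : Q.IsPrime) (hQ0 : Q ≠ ⊥) (hU : UnramAt F Q)
    (hQm : Q.under (𝓞 F) ⊔ 𝔪 = ⊤) (hnm : (Ideal.absNorm (Q.under (𝓞 F))).Coprime m)
    (hF : IsFrobRel τ Q (Ideal.absNorm (Q.under (𝓞 F))))
    (hχn : χ ((Ideal.absNorm (Q.under (𝓞 F)) : ℕ) : ZMod r) = ((ψ τ : ℂˣ) : ℂ))
    (hχn1 : χ ((Ideal.absNorm (Q.under (𝓞 F)) : ℕ) : ZMod r) ≠ 1) :
    (∀ I : Ideal (𝓞 (EH F M m (Theta F M m ψ hrm χ).ker)), I ≠ ⊥ →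
      I ⊔ (𝔪.map (algebraMap (𝓞 F) (𝓞 (EH F M m (Theta F M m ψ hrm χ).ker))) *
        Ideal.span {(r : 𝓞 (EH F M m (Theta F M m ψ hrm χ).ker))}) = ⊤ →
      χ ((Ideal.absNorm I : ℕ) : ZMod r) = 1 → cls (Ideal.relNorm (𝓞 F) I) = 1) ∧
    ∃ B : Ideal (𝓞 (EH F M m (Theta F M m ψ hrm χ).ker)), B.IsPrime ∧ B ≠ ⊥ ∧
      Ideal.absNorm B = Ideal.absNorm (Q.under (𝓞 F)) ∧
      Ideal.relNorm (𝓞 F) B = Q.under (𝓞 F) := by
  have hsH := resM_ker_theta_surj ψ hrm χ hsurj him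
  -- the prime of degree one
  obtain ⟨B, hBp, hB0, hBn, hBr⟩ := splitPrimeEH F M m (Theta F M m ψ hrm χ).ker Q τ hQ hQ0 hU
    hnm hF (by
      intro g hg1 hg2
      rw [mem_ker_theta_iff, hg1, ← hχn, ZMod.unitsMap_val, hg2, ZMod.cast_natCast hrm])
  refine ⟨?_, B, hBp, hB0, hBn, hBr⟩
  refine hERec p r F (EH F M m (Theta F M m ψ hrm χ).ker) (MH F M m (Theta F M m ψ hrm χ).ker)
    𝔪 G cls χ hp hp2 hr ?_ hray hχpow ?_ ?_
  · rw [finrankEHMH F M m _ hsH, hdeg]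
  · intro A hA0 hAm
    constructor
    · have e : Ideal.relNorm (𝓞 F)
          (Ideal.relNorm (𝓞 (EH F M m (Theta F M m ψ hrm χ).ker)) A) =
          Ideal.relNorm (𝓞 F) (Ideal.relNorm (𝓞 M) A) := by
        rw [Ideal.relNorm_relNorm, Ideal.relNorm_relNorm]
      have hcop := coprimeNorm F (EH F M m (Theta F M m ψ hrm χ).ker) 𝔪 _
        (sup_eq_top_of_sup_mul_left hAm)
      rw [e] at hcop ⊢
      refine hkill _ ?_ hcop
      rw [Ne, Ideal.relNorm_eq_bot_iff]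
      exact hA0
    · refine chiNormMH F M m _ ψ r hrm χ le_rfl A ?_
      have := coprimeAbsNorm (EH F M m (Theta F M m ψ hrm χ).ker) r _
        (sup_eq_top_of_sup_mul_right hAm)
      rwa [Ideal.absNorm_relNorm] at this
  · refine ⟨B, hB0, sup_mul_eq_top (sup_map_eq_top_of_relNorm ?_)
      (sup_span_eq_top_of_coprime ?_), ?_⟩
    · rw [hBr]; exact hQm
    · rw [hBn]; exact Nat.Coprime.coprime_dvd_right hrm hnm
    · rw [hBn]; exact hχn1

end Fermat.Agent.F4Rec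
end
end MergeWrap_F4_Recip_CompareHalf

section MergeWrap_F4_Recip_ExistsFrob -- from F4/Recip/ExistsFrob.lean

/-!
# F4/Recip, piece R6: `ExistsFrob` (port of S14 C6 of helper13)
-/

set_option autoImplicit false

open NumberField Polynomial
open scoped nonZeroDivisors IntermediateField

namespace Fermat.Agent.F4Rec

/-- **(R6)** `ExistsFrob`. -/
theorem existsFrob : ExistsFrob := by
  intro F M _ _ _ _ _ _ m _ F' B hB hB0
  have hBmax : B.IsMaximal := hB.isMaximal hB0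
  obtain ⟨P, hPmax, hPover⟩ :=
    Ideal.exists_maximal_ideal_liesOver_of_isIntegral (S := 𝓞 (Om M m)) B
  have hP : P.IsPrime := hPmax.isPrime
  have hPB : P.under (𝓞 F') = B := hPover.over.symm
  have hP0 : P ≠ ⊥ := Ideal.ne_bot_of_liesOver_of_ne_bot hB0 P
  have : Finite (𝓞 (Om M m) ⧸ P) := Ideal.finiteQuotientOfFreeOfNeBot P hP0
  obtain ⟨σ, hσ⟩ := IsArithFrobAt.exists_of_isInvariant (𝓞 F') (Om M m ≃ₐ[F'] Om M m) P
  refine ⟨σ.restrictScalars F, P, ?_, hP, hPB, ?_⟩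
  · intro x
    exact σ.commutes x
  · intro x
    have h := hσ x
    rw [hPB] at h
    have hcard : Nat.card (𝓞 F' ⧸ B) = Ideal.absNorm B := by
      rw [Ideal.absNorm_apply, Submodule.cardQuot_apply]
    rw [hcard] at h
    exact ⟨_, h, rfl⟩

end Fermat.Agent.F4Rec
end MergeWrap_F4_Recip_ExistsFrob

section MergeWrap_F4_Recip_InertRes -- from F4/Recip/InertRes.lean

/-!
# F4/Recip, piece R9: `InertRes` (after S14 C9 of helper13)

A Frobenius element of `Ω/E_H` at a prime above a prime `B` of `E_H` which is inert in `M_H` is not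
trivial on `M`.
-/

set_option autoImplicit false
set_option linter.unusedSectionVars false

open NumberField Polynomial
open scoped nonZeroDivisors IntermediateField

namespace Fermat.Agent.F4Rec

open Fermat.Agent.S14 (InInertia)

section r9

variable {F M : Type} [Field F] [NumberField F] [Field M] [NumberField M] [Algebra F M]
  [IsGalois F M] {m : ℕ} [NeZero m]

/-- An element of `H` which is trivial on `M` fixes `M_H` pointwise. -/
theorem r9_fix_MH (H : Subgroup (Gam F M m)) {g : Gam F M m} (hgH : g ∈ H)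
    (hg1 : resM F M m g = 1) (x : Om M m) (hx : x ∈ MH F M m H) : g x = x := by
  have hfix : g ∈ (EH F M m H).fixingSubgroup := by
    have := (IntermediateField.le_iff_le H (EH F M m H)).mp le_rfl
    exact this hgH
  set g' : Om M m ≃ₐ[EH F M m H] Om M m :=
    IntermediateField.fixingSubgroupEquiv (EH F M m H) ⟨g, hfix⟩ with hg'
  have hg'g : AlgEquiv.restrictScalarsHom F g' = g := by
    ext y
    rfl
  have hmem : g' ∈ HL F M m H := by
    show (resM F M m) (AlgEquiv.restrictScalarsHom F g') = 1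
    rw [hg'g, hg1]
  have := (IntermediateField.mem_fixedField_iff (HL F M m H) x).mp hx g' hmem
  exact this

end r9

/-- **(R9)** `InertRes`. -/
theorem inertRes : InertRes := by
  intro F M _ _ _ _ _ _ m _ H B g P hB hB0 hgH hP hPB hg hin hg1
  -- the prime of `M_H` below `P`
  set B' : Ideal (𝓞 (MH F M m H)) := P.under (𝓞 (MH F M m H)) with hB'def
  have hB' : B'.IsPrime := inferInstance
  have hB'B : B'.under (𝓞 (EH F M m H)) = B := by
    rw [hB'def, Ideal.under_under, hPB]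
  have hover : B'.LiesOver B := ⟨hB'B.symm⟩
  have hB'0 : B' ≠ ⊥ := Ideal.ne_bot_of_liesOver_of_ne_bot hB0 B'
  have hpow : ∀ x : 𝓞 (MH F M m H),
      x ^ Ideal.absNorm (B'.under (𝓞 (EH F M m H))) - x ∈ B' := by
    intro x
    rw [hB'B, hB'def, Ideal.under_def, Ideal.mem_comap]
    obtain ⟨z, hz, hxz⟩ := hg (algebraMap (𝓞 (MH F M m H)) (𝓞 (Om M m)) x)
    have hfix : g ((algebraMap (𝓞 (MH F M m H)) (𝓞 (Om M m)) x : 𝓞 (Om M m)) : Om M m) =
        ((algebraMap (𝓞 (MH F M m H)) (𝓞 (Om M m)) x : 𝓞 (Om M m)) : Om M m) :=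
      r9_fix_MH H hgH hg1 _ (x : MH F M m H).2
    rw [hfix] at hxz
    have : algebraMap (𝓞 (MH F M m H)) (𝓞 (Om M m))
        (x ^ Ideal.absNorm B - x) = -z := by
      apply RingOfIntegers.ext
      show _ = -(z : Om M m)
      rw [← hxz, map_sub, map_pow]
      simp
    rw [this]
    exact P.neg_mem hz
  obtain ⟨-, h2⟩ := Fermat.Agent.S14.Cross.c11_relNorm_eq_under (E := EH F M m H) B' hB' hB'0 hpow
  rw [hB'B] at h2
  -- `N B' = N B ^ f` with `f > 1`
  have hBmax : B.IsMaximal := hB.isMaximal hB0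
  have hB'max : B'.IsMaximal := hB'.isMaximal hB'0
  have h3 := Ideal.absNorm_eq_pow_inertiaDeg'_of_liesOver B' B hB hB0
  have h4 : B.inertiaDeg' B' = B'.inertiaDeg (𝓞 (EH F M m H)) :=
    Ideal.inertiaDeg'_eq_inertiaDeg B B'
  have h5 : B.inertiaDegIn (𝓞 (MH F M m H)) = B'.inertiaDeg (𝓞 (EH F M m H)) :=
    Ideal.inertiaDegIn_eq_inertiaDeg B B' Gal(MH F M m H/EH F M m H)
  rw [h4, ← h5, h2] at h3
  have hN1 : 1 < Ideal.absNorm B := by
    have h0 : Ideal.absNorm B ≠ 0 := fun h => hB0 (Ideal.absNorm_eq_zero_iff.mp h)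
    have h1 : Ideal.absNorm B ≠ 1 := fun h => hB.ne_top (Ideal.absNorm_eq_one_iff.mp h)
    omega
  have h6 := Nat.pow_lt_pow_right hN1 hin
  rw [pow_one, ← h3] at h6
  exact lt_irrefl _ h6

end Fermat.Agent.F4Rec
end MergeWrap_F4_Recip_InertRes

section MergeWrap_F4_Recip_CompareThird -- from F4/Recip/CompareThird.lean

/-!
# F4/Recip: the common overfield `E₃` and its inert prime
-/

set_option autoImplicit false
set_option linter.unusedSectionVars false

open NumberField Polynomial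
open scoped nonZeroDivisors IntermediateField

noncomputable section

namespace Fermat.Agent.F4Rec

variable {F M : Type} [Field F] [NumberField F] [Field M] [NumberField M] [Algebra F M]
  [IsGalois F M] {m : ℕ} [NeZero m]

/-- In `E_H` (with `resM H = Gal(M/F)`, `[M : F] = p` prime) there is a prime ideal of prime norm
outside a given finite set of primes, prime to `m`, with a Frobenius element `g ∈ H` which is
nontrivial on `M`. -/
theorem cmp_third (p : ℕ) (H : Subgroup (Gam F M m)) (hp : p.Prime)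
    (hdeg : Module.finrank F M = p)
    (hsH : ∀ σ : M ≃ₐ[F] M, ∃ g ∈ H, resM F M m g = σ) (B : Finset ℕ) :
    ∃ (P₃ : Ideal (𝓞 (EH F M m H))) (g : Gam F M m), P₃ ≠ ⊥ ∧ (Ideal.absNorm P₃).Prime ∧
      Ideal.absNorm P₃ ∉ B ∧ (Ideal.absNorm P₃).Coprime m ∧
      g ∈ H ∧ resM F M m g ≠ 1 ∧
      ((cyc F M m g : (ZMod m)ˣ) : ZMod m) = ((Ideal.absNorm P₃ : ℕ) : ZMod m) := by
  obtain ⟨q, 𝔮, hq, hqB, hN, hf⟩ := Fermat.Agent.S14SI.inertPrimeExists p (EH F M m H)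
    (MH F M m H) hp (by rw [finrankEHMH F M m H hsH, hdeg]) (B ∪ m.primeFactors)
  have hqB1 : q ∉ B := fun h => hqB (Finset.mem_union_left _ h)
  have hqm : q.Coprime m := by
    rw [Nat.Prime.coprime_iff_not_dvd hq]
    intro h
    exact hqB (Finset.mem_union_right _ (Nat.mem_primeFactors.mpr ⟨hq, h, NeZero.ne m⟩))
  have h𝔮p : 𝔮.IsPrime := Ideal.isPrime_of_irreducible_absNorm (by rw [hN]; exact hq)
  have h𝔮0 : 𝔮 ≠ ⊥ := by
    rintro rfl
    rw [Ideal.absNorm_bot] at hN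
    exact hq.ne_zero hN.symm
  obtain ⟨g, P, hgF, hPp, hPu, hFrob⟩ := existsFrob F M m (EH F M m H) 𝔮 h𝔮p h𝔮0
  have hgH : g ∈ H := by
    rwa [IntermediateField.fixingSubgroup_fixedField] at hgF
  refine ⟨𝔮, g, h𝔮0, hN ▸ hq, hN ▸ hqB1, hN ▸ hqm, hgH, ?_, ?_⟩
  · exact inertRes F M m H 𝔮 g P h𝔮p h𝔮0 hgH hPp hPu hFrob (by rw [hf]; exact hp.one_lt)
  · have hmP : (m : 𝓞 (Om M m)) ∉ P := by
      intro hm
      have h2 : (m : 𝓞 (EH F M m H)) ∈ 𝔮 := by
        rw [← hPu, Ideal.under_def, Ideal.mem_comap, map_natCast]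
        exact hm
      exact Fermat.Agent.S14.Cross.natCast_not_mem_of_coprime h𝔮p.ne_top (hN ▸ hqm) h2
    have := cycFrob F M m g P _ m (dvd_refl m) hPp hFrob hmP
    rwa [ZMod.unitsMap_self] at this

end Fermat.Agent.F4Rec
end
end MergeWrap_F4_Recip_CompareThird

section MergeWrap_F4_Recip_GamSurj -- from F4/Recip/GamSurj.lean

/-!
# F4 / GLOB reciprocity, piece R3 (G3): `(resM, cyc) : Gal(Ω/F) → Gal(M/F) × (ℤ/m)ˣ` is onto

`Ω = M(ζ_m)`, `m` prime to the discriminant of `M`.  Then `ℚ(ζ_m)` and `M` are linearly disjoint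
over `ℚ`, so `[Ω : M] ≥ φ(m)` and the (injective) cyclotomic character of `Gal(Ω/M)` is onto;
an arbitrary lift of `σ ∈ Gal(M/F)` to `Ω` is then corrected by an element of `Gal(Ω/M)`.
-/

set_option autoImplicit false
set_option linter.unusedSectionVars false

open NumberField Polynomial
open scoped nonZeroDivisors IntermediateField

noncomputable section

namespace Fermat.Agent.F4Rec

variable (M : Type) [Field M] [NumberField M]
variable (m : ℕ) [NeZero m]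

/-- `[Ω : ℚ] ≥ φ(m) [M : ℚ]` when `m` is prime to the discriminant of `M`. -/
theorem r3_finrank_ge (hcop : IsCoprime (m : ℤ) (NumberField.discr M)) :
    m.totient * Module.finrank ℚ M ≤ Module.finrank ℚ (Om M m) := by
  have hζ := zetaOm_spec M m
  let K₁ : IntermediateField ℚ (Om M m) := ℚ⟮zetaOm M m⟯
  let K₂ : IntermediateField ℚ (Om M m) := (IsScalarTower.toAlgHom ℚ M (Om M m)).fieldRange
  have : IsCyclotomicExtension {m} ℚ K₁ := hζ.intermediateField_adjoin_isCyclotomicExtension ℚ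
  have : IsGalois ℚ K₁ := IsCyclotomicExtension.isGalois {m} ℚ K₁
  let e : M ≃ₐ[ℚ] K₂ := AlgEquiv.ofInjectiveField (IsScalarTower.toAlgHom ℚ M (Om M m))
  have hd2 : NumberField.discr K₂ = NumberField.discr M :=
    (NumberField.discr_eq_discr_of_algEquiv _ e).symm
  have hcpr : IsCoprime (NumberField.discr K₁) (NumberField.discr K₂) := by
    rw [hd2, Int.isCoprime_iff_nat_coprime, IsCyclotomicExtension.Rat.natAbs_discr m K₁]
    have h1 : Nat.Coprime m (NumberField.discr M).natAbs := by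
      have := Int.isCoprime_iff_nat_coprime.1 hcop
      simpa using this
    refine Nat.Coprime.coprime_div_left ?_
      (Nat.prod_primeFactors_pow_totient_ediv_dvd (NeZero.pos _))
    exact Nat.Coprime.pow_left _ h1
  have hdisj := NumberField.linearDisjoint_of_isGalois_isCoprime_discr (Om M m) K₁ K₂ hcpr
  have h1 := hdisj.finrank_sup
  have h2 : Module.finrank ℚ K₁ = m.totient := IsCyclotomicExtension.Rat.finrank m K₁
  have h3 : Module.finrank ℚ K₂ = Module.finrank ℚ M :=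
    (LinearEquiv.finrank_eq e.toLinearEquiv).symm
  have h4 : Module.finrank ℚ ↥(K₁ ⊔ K₂) ≤ Module.finrank ℚ (Om M m) :=
    Submodule.finrank_le (K₁ ⊔ K₂).toSubalgebra.toSubmodule
  rw [h1, h2, h3] at h4
  exact h4

/-- `|Gal(Ω/M)| ≥ φ(m)`. -/
theorem r3_card_ge (hcop : IsCoprime (m : ℤ) (NumberField.discr M)) :
    m.totient ≤ Nat.card (Om M m ≃ₐ[M] Om M m) := by
  rw [IsGalois.card_aut_eq_finrank M (Om M m)]
  have h := r3_finrank_ge M m hcop
  have h5 : Module.finrank ℚ (Om M m)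
      = Module.finrank ℚ M * Module.finrank M (Om M m) :=
    (Module.finrank_mul_finrank ℚ M (Om M m)).symm
  rw [h5, mul_comm] at h
  exact Nat.le_of_mul_le_mul_left h Module.finrank_pos

/-- The cyclotomic character of `Gal(Ω/M)` is onto. -/
theorem r3_autToPow_surjective (hcop : IsCoprime (m : ℤ) (NumberField.discr M)) :
    Function.Surjective ((zetaOm_spec M m).autToPow M) := by
  have hinj := (zetaOm_spec M m).autToPow_injective M
  have hcard : Nat.card (ZMod m)ˣ ≤ Nat.card (Om M m ≃ₐ[M] Om M m) := by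
    rw [Nat.card_eq_fintype_card, ZMod.card_units_eq_totient]
    exact r3_card_ge M m hcop
  exact (Function.Injective.bijective_of_nat_card_le hinj hcard).2

/-- **(R3)** `(resM, cyc) : Gal(Ω/F) → Gal(M/F) × (ℤ/m)ˣ` is onto. -/
theorem gamSurj : GamSurj := by
  intro F M _ _ _ _ _ _ m _ hcop σ a
  obtain ⟨g₀, hg₀⟩ := AlgEquiv.restrictNormalHom_surjective (F := F) (K₁ := M) (Om M m) σ
  obtain ⟨h, hh⟩ := r3_autToPow_surjective M m hcop (a * (cyc F M m g₀)⁻¹)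
  let h' : Gam F M m := h.restrictScalars F
  have hres : resM F M m h' = 1 := by
    ext x
    apply (algebraMap M (Om M m)).injective
    rw [resM_commutes]
    exact h.commutes x
  have hcyc : cyc F M m h' = a * (cyc F M m g₀)⁻¹ := by
    rw [← hh]
    have h1 := cyc_spec F M m h'
    have h2 := IsPrimitiveRoot.autToPow_spec M (zetaOm_spec M m) h
    have h3 : h' (zetaOm M m) = h (zetaOm M m) := rfl
    rw [h3, ← h2] at h1
    have h4 := (zetaOm_spec M m).pow_inj (ZMod.val_lt _) (ZMod.val_lt _) h1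
    exact Units.ext (ZMod.val_injective m h4.symm)
  refine ⟨h' * g₀, ?_, ?_⟩
  · rw [map_mul, hres, one_mul]
    exact hg₀
  · rw [map_mul, hcyc, inv_mul_cancel_right]

end Fermat.Agent.F4Rec
end
end MergeWrap_F4_Recip_GamSurj

section MergeWrap_F4_Recip_AuxPrime -- from F4/Recip/AuxPrime.lean

set_option autoImplicit false
set_option linter.style.haveILetI false

namespace Fermat.Agent.F4Rec

open Finset

/-- `(x - 1) * ∑_{i<p} x^i = x^p - 1` in `ℤ`. -/
theorem ra_mul_geom (x : ℤ) (p : ℕ) : (x - 1) * (∑ i ∈ range p, x ^ i) = x ^ p - 1 :=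
  mul_geom_sum x p

/-- A prime `r` dividing `∑_{i<p} x^i` either equals `p` or has `orderOf x = p` modulo `r`. -/
theorem ra_orderOf_eq {p x r : ℕ} (hp : p.Prime) (hr : r.Prime) (hrp : r ≠ p)
    (hrS : r ∣ ∑ i ∈ range p, x ^ i) : orderOf (x : ZMod r) = p := by
  haveI : Fact r.Prime := ⟨hr⟩
  have hS0 : (((∑ i ∈ range p, x ^ i : ℕ)) : ZMod r) = 0 := (ZMod.natCast_eq_zero_iff _ _).mpr hrS
  push_cast at hS0
  have hpow : ((x : ZMod r)) ^ p = 1 := by
    have := mul_geom_sum (x : ZMod r) p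
    rw [hS0, mul_zero] at this
    exact (sub_eq_zero.mp this.symm)
  have hord : orderOf (x : ZMod r) ∣ p := orderOf_dvd_of_pow_eq_one hpow
  rcases (Nat.dvd_prime hp).mp hord with h1 | h1
  · exfalso
    have hx1 : (x : ZMod r) = 1 := orderOf_eq_one_iff.mp h1
    rw [hx1] at hS0
    simp at hS0
    have : r ∣ p := (ZMod.natCast_eq_zero_iff _ _).mp hS0
    exact hrp ((Nat.prime_dvd_prime_iff_eq hr hp).mp this)
  · exact h1

/-- `p < ∑_{i<p} x^i` for `x ≥ 2`, `p ≥ 2`. -/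
theorem ra_lt_geom {p x : ℕ} (hp : 2 ≤ p) (hx : 2 ≤ x) : p < ∑ i ∈ range p, x ^ i := by
  have h1 : ∀ i ∈ range p, 1 ≤ x ^ i := fun i _ => Nat.one_le_pow _ _ (by omega)
  have h2 : ∑ i ∈ range p, (1 : ℕ) = p := by simp
  have hlt : ∑ i ∈ range p, (1 : ℕ) < ∑ i ∈ range p, x ^ i := by
    apply Finset.sum_lt_sum h1
    refine ⟨1, Finset.mem_range.mpr (by omega), ?_⟩
    simp only [pow_one]
    omega
  omega

/-- If `p ∣ ∑_{i<p} x^i` then `x ≡ 1 mod p`. -/
theorem ra_mod_eq_one {p x : ℕ} (hp : p.Prime) (h : p ∣ ∑ i ∈ range p, x ^ i) :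
    (x : ZMod p) = 1 := by
  haveI : Fact p.Prime := ⟨hp⟩
  have hS0 : (((∑ i ∈ range p, x ^ i : ℕ)) : ZMod p) = 0 := (ZMod.natCast_eq_zero_iff _ _).mpr h
  push_cast at hS0
  have := mul_geom_sum (x : ZMod p) p
  rw [hS0, mul_zero, ZMod.pow_card] at this
  exact (sub_eq_zero.mp this.symm)

/-- `p ^ 2 ∤ ∑_{i<p} x^i` for `p` odd. -/
theorem ra_not_sq_dvd_odd {p x : ℕ} (hp : p.Prime) (hp2 : p ≠ 2) (hx : 2 ≤ x) :
    ¬ p ^ 2 ∣ ∑ i ∈ range p, x ^ i := by
  intro h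
  haveI : Fact p.Prime := ⟨hp⟩
  have hpS : p ∣ ∑ i ∈ range p, x ^ i := dvd_trans (dvd_pow_self p two_ne_zero) h
  have hx1 := ra_mod_eq_one hp hpS
  have hpodd : Odd p := hp.odd_of_ne_two hp2
  have hdvd : p ∣ x - 1 := by
    have h1 : ((x - 1 : ℕ) : ZMod p) = 0 := by
      rw [Nat.cast_sub (by omega), hx1]
      simp
    exact (ZMod.natCast_eq_zero_iff _ _).mp h1
  have hndvd : ¬ p ∣ x := by
    intro h0
    have h1 : (x : ZMod p) = 0 := (ZMod.natCast_eq_zero_iff _ _).mpr h0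
    rw [hx1] at h1
    exact one_ne_zero h1
  have hLTE : padicValNat p (x ^ p - 1 ^ p) = padicValNat p (x - 1) + padicValNat p p :=
    padicValNat.pow_sub_pow hpodd (by omega) hdvd hndvd hp.ne_zero
  rw [one_pow, padicValNat_self] at hLTE
  have hmul : (x - 1) * (∑ i ∈ range p, x ^ i) = x ^ p - 1 := by
    have h1 : 1 ≤ x ^ p := Nat.one_le_pow p x (by omega)
    zify [show 1 ≤ x by omega, h1]
    exact mul_geom_sum (x : ℤ) p
  have hS0 : (∑ i ∈ range p, x ^ i) ≠ 0 := by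
    have := ra_lt_geom hp.two_le hx
    omega
  have hx1' : x - 1 ≠ 0 := by omega
  rw [← hmul, padicValNat.mul hx1' hS0] at hLTE
  have h2 : 2 ≤ padicValNat p (∑ i ∈ range p, x ^ i) := (padicValNat_dvd_iff_le hS0).mp h
  omega

/-- `4 ∤ 1 + y ^ 2`. -/
theorem ra_not_four_dvd (y : ℕ) : ¬ 4 ∣ 1 + y ^ 2 := by
  intro h
  have h1 : (1 + y ^ 2) % 4 = 0 := Nat.mod_eq_zero_of_dvd h
  have h2 : y % 4 = 0 ∨ y % 4 = 1 ∨ y % 4 = 2 ∨ y % 4 = 3 := by omega
  have h3 : (1 + y ^ 2) % 4 = (1 + (y % 4) ^ 2) % 4 := by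
    rw [Nat.add_mod, Nat.pow_mod, ← Nat.add_mod]
  rw [h3] at h1
  rcases h2 with h | h | h | h <;> rw [h] at h1 <;> norm_num at h1

/-- For `x = y ^ p ≥ 2` the sum `∑_{i<p} x^i` has a prime factor different from `p`. -/
theorem ra_exists_prime {p y : ℕ} (hp : p.Prime) (hy : 2 ≤ y) :
    ∃ r : ℕ, r.Prime ∧ r ≠ p ∧ r ∣ ∑ i ∈ range p, (y ^ p) ^ i := by
  set x := y ^ p with hx
  have hx2 : 2 ≤ x := le_trans hy (Nat.le_self_pow hp.ne_zero y)
  set S := ∑ i ∈ range p, x ^ i with hS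
  have hlt : p < S := ra_lt_geom hp.two_le hx2
  have hsq : ¬ p ^ 2 ∣ S := by
    by_cases hp2 : p = 2
    · subst hp2
      have hS2 : S = 1 + (y ^ 1) ^ 2 := by
        rw [hS, hx]
        simp [Finset.sum_range_succ]
      rw [hS2]
      exact ra_not_four_dvd _
    · exact ra_not_sq_dvd_odd hp hp2 hx2
  by_cases hpS : p ∣ S
  · obtain ⟨m, hm⟩ := hpS
    have hm1 : m ≠ 1 := by
      rintro rfl
      omega
    have hpm : ¬ p ∣ m := by
      rintro ⟨k, rfl⟩
      exact hsq ⟨k, by rw [hm]; ring⟩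
    obtain ⟨r, hr, hrm⟩ := Nat.exists_prime_and_dvd hm1
    refine ⟨r, hr, ?_, hm ▸ Dvd.dvd.mul_left hrm p⟩
    rintro rfl
    exact hpm hrm
  · have hS1 : S ≠ 1 := by
      have := hp.two_le
      omega
    obtain ⟨r, hr, hrS⟩ := Nat.exists_prime_and_dvd hS1
    refine ⟨r, hr, ?_, hrS⟩
    rintro rfl
    exact hpS hrS


/-- If `n ^ (p ^ k)` has order `p` then `n` has order `p ^ (k + 1)`. -/
theorem ra_orderOf_of_pow {r p k : ℕ} [Fact r.Prime] (hp : p.Prime) (a : ZMod r)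
    (h : orderOf (a ^ (p ^ k)) = p) : orderOf a = p ^ (k + 1) := by
  have h1 : a ^ (p ^ (k + 1)) = 1 := by
    have h0 : (a ^ (p ^ k)) ^ p = 1 := by
      have := pow_orderOf_eq_one (a ^ (p ^ k))
      rwa [h] at this
    rw [pow_succ, pow_mul]
    exact h0
  have h2 : orderOf a ∣ p ^ (k + 1) := orderOf_dvd_of_pow_eq_one h1
  obtain ⟨i, hi, hoi⟩ := (Nat.dvd_prime_pow hp).mp h2
  rcases Nat.lt_or_ge i (k + 1) with hlt | hge
  · exfalso
    have h3 : a ^ (p ^ k) = 1 := by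
      have h4 : orderOf a ∣ p ^ k := by
        rw [hoi]
        exact pow_dvd_pow p (by omega)
      exact orderOf_dvd_iff_pow_eq_one.mp h4
    rw [h3, orderOf_one] at h
    exact hp.one_lt.ne h
  · rw [hoi, le_antisymm hi hge]

/-- For every `j` a prime `r` with `orderOf (n : ZMod r) = p ^ (j + 2)`. -/
theorem ra_exists_prime_orderOf {p n : ℕ} (hp : p.Prime) (hn : 2 ≤ n) (j : ℕ) :
    ∃ r : ℕ, r.Prime ∧ orderOf (n : ZMod r) = p ^ (j + 2) := by
  have hy : 2 ≤ n ^ (p ^ j) := le_trans hn (Nat.le_self_pow (pow_pos hp.pos j).ne' n)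
  obtain ⟨r, hr, hrp, hrS⟩ := ra_exists_prime hp hy
  haveI : Fact r.Prime := ⟨hr⟩
  refine ⟨r, hr, ?_⟩
  have h1 := ra_orderOf_eq hp hr hrp hrS
  have h2 : ((((n ^ (p ^ j)) ^ p : ℕ)) : ZMod r) = (n : ZMod r) ^ (p ^ (j + 1)) := by
    push_cast
    rw [← pow_mul, ← pow_succ]
  rw [h2] at h1
  exact ra_orderOf_of_pow hp _ h1

/-- **(X1) AuxPrime.** -/
theorem auxPrime : AuxPrime := by
  intro p n B hp hn
  choose f hf using fun j => ra_exists_prime_orderOf hp hn j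
  have hinj : Function.Injective f := by
    intro i j hij
    have h1 := (hf i).2
    have h2 := (hf j).2
    rw [hij, h2] at h1
    have := Nat.pow_right_injective hp.two_le h1
    omega
  by_contra hcon
  push Not at hcon
  -- every `f j` lies in `B`
  have hmem : ∀ j, f j ∈ B := by
    intro j
    by_contra hj
    haveI : Fact (f j).Prime := ⟨(hf j).1⟩
    refine hcon (f j) (hf j).1 hj ?_ ?_
    · intro h0
      have h3 : ((n : ZMod (f j))) ^ (p ^ (j + 2)) = 1 := by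
        rw [← (hf j).2]
        exact pow_orderOf_eq_one _
      rw [h0, zero_pow (pow_pos hp.pos _).ne'] at h3
      exact zero_ne_one h3
    · rw [(hf j).2]
      exact dvd_pow_self p (by omega)
  have hcard : (Finset.range (B.card + 1)).card ≤ B.card :=
    Finset.card_le_card_of_injOn f (fun j _ => hmem j) (fun i _ j _ h => hinj h)
  rw [Finset.card_range] at hcard
  omega

end Fermat.Agent.F4Rec
end MergeWrap_F4_Recip_AuxPrime

section MergeWrap_F4_Recip_Compare -- from F4/Recip/Compare.lean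

/-!
# F4/Recip: assembly of `CompareRay` (Artin's crossing argument, with a modulus)
-/

set_option autoImplicit false
set_option linter.unusedSectionVars false

open NumberField Polynomial
open scoped nonZeroDivisors IntermediateField

noncomputable section

namespace Fermat.Agent.F4Rec

open Fermat.Agent.F4Ray (RayClassMap SecondIneqRay)
open Fermat.Agent.S14.Cross (exists_char_of_prime_card im_le_of_prim exists_unit_crt)

/-- The norm of a nonzero prime ideal is at least `2`. -/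
theorem two_le_absNorm_of_prime {F : Type} [Field F] [NumberField F] {P : Ideal (𝓞 F)}
    (hP : P.IsPrime) (hP0 : P ≠ ⊥) : 2 ≤ Ideal.absNorm P := by
  have h0 : Ideal.absNorm P ≠ 0 := by
    rw [Ne, Ideal.absNorm_eq_zero_iff]; exact hP0
  have h1 : Ideal.absNorm P ≠ 1 := by
    rw [Ne, Ideal.absNorm_eq_one_iff]; exact hP.ne_top
  omega

/-- A prime outside the prime factors of `N ≠ 0` does not divide `N`. -/
theorem not_dvd_of_not_mem_primeFactors {r N : ℕ} (hr : r.Prime) (hN : N ≠ 0)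
    (h : r ∉ N.primeFactors) : ¬ r ∣ N :=
  fun hd => h (Nat.mem_primeFactors.mpr ⟨hr, hd, hN⟩)

/-- `CompareRay` from the reciprocity statement `ERec` for the auxiliary extensions. -/
theorem compareRay_of (hERec : ERec) : CompareRay := by
  intro p F M _ _ _ _ _ _ 𝔪 G _ _ cls u Q Q' τ hp hp2 hdeg hray hkill hu hQ hQ' hQ0 hQ'0 hQm
    hQ'm hU hU' hτ1 hF hF'
  have : Fact p.Prime := ⟨hp⟩
  have hcard : Nat.card (M ≃ₐ[F] M) = p := by
    rw [IsGalois.card_aut_eq_finrank, hdeg]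
  have : Finite (M ≃ₐ[F] M) := Nat.finite_of_card_ne_zero (hcard ▸ hp.ne_zero)
  have hP0 : Q.under (𝓞 F) ≠ ⊥ := Ideal.under_ne_bot (𝓞 F) hQ0
  have hP'0 : Q'.under (𝓞 F) ≠ ⊥ := Ideal.under_ne_bot (𝓞 F) hQ'0
  have hPp : (Q.under (𝓞 F)).IsPrime := inferInstance
  have hP'p : (Q'.under (𝓞 F)).IsPrime := inferInstance
  set n : ℕ := Ideal.absNorm (Q.under (𝓞 F)) with hn
  set n' : ℕ := Ideal.absNorm (Q'.under (𝓞 F)) with hn'
  have hn2 : 2 ≤ n := two_le_absNorm_of_prime hPp hP0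
  have hn'2 : 2 ≤ n' := two_le_absNorm_of_prime hP'p hP'0
  have hd0 : (NumberField.discr M).natAbs ≠ 0 := Int.natAbs_ne_zero.mpr (NumberField.discr_ne_zero M)
  have hN0 : n * n' * (NumberField.discr M).natAbs ≠ 0 :=
    mul_ne_zero (mul_ne_zero (by omega) (by omega)) hd0
  -- auxiliary primes
  obtain ⟨r, hr, hrB, hnr0, hord⟩ := auxPrime p n (n * n' * (NumberField.discr M).natAbs).primeFactors
    hp hn2
  obtain ⟨r', hr', hr'B, hn'r'0, hord'⟩ := auxPrime p n'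
    (insert r (n * n' * (NumberField.discr M).natAbs).primeFactors) hp hn'2
  have hrN := not_dvd_of_not_mem_primeFactors hr hN0 hrB
  have hr'N := not_dvd_of_not_mem_primeFactors hr' hN0
    (fun h => hr'B (Finset.mem_insert_of_mem h))
  have hrr' : r ≠ r' := fun h => hr'B (h ▸ Finset.mem_insert_self _ _)
  have hrn : ¬ r ∣ n := fun h => hrN ((h.mul_right n').mul_right _)
  have hrn' : ¬ r ∣ n' := fun h => hrN ((h.mul_left n).mul_right _)
  have hrd : ¬ r ∣ (NumberField.discr M).natAbs := fun h => hrN (h.mul_left _)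
  have hr'n : ¬ r' ∣ n := fun h => hr'N ((h.mul_right n').mul_right _)
  have hr'n' : ¬ r' ∣ n' := fun h => hr'N ((h.mul_left n).mul_right _)
  have hr'd : ¬ r' ∣ (NumberField.discr M).natAbs := fun h => hr'N (h.mul_left _)
  have hnr : n.Coprime r := ((Nat.Prime.coprime_iff_not_dvd hr).mpr hrn).symm
  have hnr' : n.Coprime r' := ((Nat.Prime.coprime_iff_not_dvd hr').mpr hr'n).symm
  have hn'r : n'.Coprime r := ((Nat.Prime.coprime_iff_not_dvd hr).mpr hrn').symm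
  have hn'r' : n'.Coprime r' := ((Nat.Prime.coprime_iff_not_dvd hr').mpr hr'n').symm
  have hcop : r.Coprime r' := (Nat.coprime_primes hr hr').mpr hrr'
  have : NeZero r := ⟨hr.ne_zero⟩
  have : NeZero r' := ⟨hr'.ne_zero⟩
  have : NeZero (r * r') := ⟨mul_ne_zero hr.ne_zero hr'.ne_zero⟩
  have hrm : r ∣ r * r' := dvd_mul_right r r'
  have hr'm : r' ∣ r * r' := dvd_mul_left r' r
  have hnm : n.Coprime (r * r') := Nat.Coprime.mul_right hnr hnr'
  have hn'm : n'.Coprime (r * r') := Nat.Coprime.mul_right hn'r hn'r'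
  have hmd : IsCoprime ((r * r' : ℕ) : ℤ) (NumberField.discr M) := by
    rw [Int.isCoprime_iff_gcd_eq_one, Int.gcd, Int.natAbs_natCast]
    exact Nat.Coprime.mul_left ((Nat.Prime.coprime_iff_not_dvd hr).mpr hrd)
      ((Nat.Prime.coprime_iff_not_dvd hr').mpr hr'd)
  -- characters
  have hω₀ : IsPrimitiveRoot (Complex.exp (2 * Real.pi * Complex.I / p)) p :=
    Complex.isPrimitiveRoot_exp p hp.ne_zero
  set ω₀ : ℂ := Complex.exp (2 * Real.pi * Complex.I / p) with hω₀def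
  have hω₀u : IsPrimitiveRoot (ω₀ ^ u) p :=
    hω₀.pow_of_coprime u ((Nat.coprime_comm.mp ((Nat.Prime.coprime_iff_not_dvd hp).mpr hu)))
  obtain ⟨ψ, hψ⟩ := exists_char_of_prime_card hp hcard hτ1
    (Units.mk0 ω₀ (hω₀.ne_zero hp.ne_zero)) (by
      apply Units.ext
      rw [Units.val_pow_eq_pow_val, Units.val_mk0, hω₀.pow_eq_one, Units.val_one])
  have hψ' : ((ψ τ : ℂˣ) : ℂ) = ω₀ := by rw [hψ, Units.val_mk0]
  obtain ⟨χ₁, hχ₁, hχ₁pow⟩ := Fermat.Agent.S14.auxCharCoprime p r n ω₀ hp hr hrn hord hω₀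
  obtain ⟨χ₂, hχ₂, hχ₂pow⟩ :=
    Fermat.Agent.S14.auxCharCoprime p r' n' (ω₀ ^ u) hp hr' hr'n' hord' hω₀u
  have him₁ := im_le_of_prim hp hcard ψ χ₁ hnr hω₀ hχ₁
  have him₂ := im_le_of_prim hp hcard ψ χ₂ hn'r' hω₀u hχ₂
  -- surjectivity
  have hsurj := gamSurj F M (r * r') hmd
  -- the two halves
  obtain ⟨hE₁, B₁, hB₁p, hB₁0, hB₁n, hB₁r⟩ := cmp_half hERec p r hrm ψ χ₁ hp hp2 hdeg hr hsurj
    hχ₁pow him₁ 𝔪 G cls hray hkill Q τ hQ hQ0 hU hQm hnm hF
    (by rw [hχ₁, hψ']) (by rw [hχ₁]; exact hω₀.ne_one hp.one_lt)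
  obtain ⟨hE₂, B₂, hB₂p, hB₂0, hB₂n, hB₂r⟩ := cmp_half hERec p r' hr'm ψ χ₂ hp hp2 hdeg hr' hsurj
    hχ₂pow him₂ 𝔪 G cls hray hkill Q' (τ ^ u) hQ' hQ'0 hU' hQ'm hn'm hF'
    (by rw [hχ₂, map_pow, Units.val_pow_eq_pow_val, hψ'])
    (by rw [hχ₂]; exact hω₀u.ne_one hp.one_lt)
  -- the third field
  have h𝔪0 : Ideal.absNorm 𝔪 ≠ 0 := by
    rw [Ne, Ideal.absNorm_eq_zero_iff]; exact hray.m_ne_bot
  obtain ⟨P₃, g₃, hP₃0, hP₃p, hP₃B, hP₃m, hg₃H, hres₃, hcyc₃⟩ := cmp_third p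
    ((Theta F M (r * r') ψ hrm χ₁).ker ⊓ (Theta F M (r * r') ψ hr'm χ₂).ker) hp hdeg
    (by
      intro σ
      obtain ⟨a₁, ha₁⟩ := him₁ σ
      obtain ⟨a₂, ha₂⟩ := him₂ σ
      obtain ⟨a, haa₁, haa₂⟩ := exists_unit_crt hcop a₁ a₂
      obtain ⟨g, hg1, hg2⟩ := hsurj σ a
      refine ⟨g, Subgroup.mem_inf.mpr ⟨(mem_ker_theta_iff ψ hrm χ₁ g).mpr ?_,
        (mem_ker_theta_iff ψ hr'm χ₂ g).mpr ?_⟩, hg1⟩
      · rw [hg2, haa₁, ha₁, hg1]
      · rw [hg2, haa₂, ha₂, hg1])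
    (Ideal.absNorm 𝔪).primeFactors
  have hP₃𝔪 : (Ideal.absNorm P₃).Coprime (Ideal.absNorm 𝔪) :=
    (Nat.Prime.coprime_iff_not_dvd hP₃p).mpr (not_dvd_of_not_mem_primeFactors hP₃p h𝔪0 hP₃B)
  obtain ⟨k, hk⟩ : ∃ k : ℕ, τ ^ k = resM F M (r * r') g₃ :=
    (Submonoid.mem_powers_iff _ _).mp (mem_powers_of_prime_card hcard hτ1)
  have hkp : ¬ p ∣ k := by
    rintro ⟨t, rfl⟩
    apply hres₃
    rw [← hk, pow_mul, ← hcard, pow_card_eq_one', one_pow]
  have hχP₁ : χ₁ ((Ideal.absNorm P₃ : ℕ) : ZMod r) = ω₀ ^ k := by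
    have h1 := (mem_ker_theta_iff ψ hrm χ₁ g₃).mp (Subgroup.mem_inf.mp hg₃H).1
    rw [ZMod.unitsMap_val, hcyc₃, ZMod.cast_natCast hrm, ← hk, map_pow,
      Units.val_pow_eq_pow_val, hψ'] at h1
    exact h1
  have hχP₂ : χ₂ ((Ideal.absNorm P₃ : ℕ) : ZMod r') = ω₀ ^ k := by
    have h1 := (mem_ker_theta_iff ψ hr'm χ₂ g₃).mp (Subgroup.mem_inf.mp hg₃H).2
    rw [ZMod.unitsMap_val, hcyc₃, ZMod.cast_natCast hr'm, ← hk, map_pow,
      Units.val_pow_eq_pow_val, hψ'] at h1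
    exact h1
  -- the group `G` has exponent `p`
  have hexp : ∀ g : G, g ^ p = 1 := by
    intro g
    obtain ⟨I, hI0, hIm, rfl⟩ := hray.surj g
    rw [← cls_pow hray.mul hIm]
    have h3 : Ideal.relNorm (𝓞 F) (I.map (algebraMap (𝓞 F) (𝓞 M))) = I ^ p := by
      have hfr : Module.finrank (𝓞 F) (𝓞 M) = Module.finrank F M :=
        (IsFractionRing.finrank_eq (𝓞 F) F (𝓞 M) M).symm
      rw [Ideal.relNorm_algebraMap, hfr, hdeg]
    have h4 : I.map (algebraMap (𝓞 F) (𝓞 M)) ≠ ⊥ := by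
      intro h
      rw [h, Ideal.relNorm_bot] at h3
      exact pow_ne_zero _ hI0 h3.symm
    have h1 : I ^ p ⊔ 𝔪 = ⊤ := by
      rw [← Ideal.isCoprime_iff_sup_eq] at *
      exact hIm.pow_left
    have h5 := hkill _ h4 (by rw [h3]; exact h1)
    rwa [h3] at h5
  -- towers
  have h13 : EH F M (r * r') (Theta F M (r * r') ψ hrm χ₁).ker ≤
      EH F M (r * r') ((Theta F M (r * r') ψ hrm χ₁).ker ⊓ (Theta F M (r * r') ψ hr'm χ₂).ker) :=
    IntermediateField.fixedField_le inf_le_left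
  have h23 : EH F M (r * r') (Theta F M (r * r') ψ hr'm χ₂).ker ≤
      EH F M (r * r') ((Theta F M (r * r') ψ hrm χ₁).ker ⊓ (Theta F M (r * r') ψ hr'm χ₂).ker) :=
    IntermediateField.fixedField_le inf_le_right
  let _ : Algebra (EH F M (r * r') (Theta F M (r * r') ψ hrm χ₁).ker)
      (EH F M (r * r') ((Theta F M (r * r') ψ hrm χ₁).ker ⊓ (Theta F M (r * r') ψ hr'm χ₂).ker)) :=
    (IntermediateField.inclusion h13).toRingHom.toAlgebra
  let _ : Algebra (EH F M (r * r') (Theta F M (r * r') ψ hr'm χ₂).ker)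
      (EH F M (r * r') ((Theta F M (r * r') ψ hrm χ₁).ker ⊓ (Theta F M (r * r') ψ hr'm χ₂).ker)) :=
    (IntermediateField.inclusion h23).toRingHom.toAlgebra
  have : IsScalarTower F (EH F M (r * r') (Theta F M (r * r') ψ hrm χ₁).ker)
      (EH F M (r * r') ((Theta F M (r * r') ψ hrm χ₁).ker ⊓ (Theta F M (r * r') ψ hr'm χ₂).ker)) :=
    IsScalarTower.of_algebraMap_eq (fun _ => rfl)
  have : IsScalarTower F (EH F M (r * r') (Theta F M (r * r') ψ hr'm χ₂).ker)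
      (EH F M (r * r') ((Theta F M (r * r') ψ hrm χ₁).ker ⊓ (Theta F M (r * r') ψ hr'm χ₂).ker)) :=
    IsScalarTower.of_algebraMap_eq (fun _ => rfl)
  have hfin := crossAbstractRay F
    (EH F M (r * r') ((Theta F M (r * r') ψ hrm χ₁).ker ⊓ (Theta F M (r * r') ψ hr'm χ₂).ker))
    (EH F M (r * r') (Theta F M (r * r') ψ hrm χ₁).ker)
    (EH F M (r * r') (Theta F M (r * r') ψ hr'm χ₂).ker)
    hp hkp hu 𝔪 cls hray.mul hexp χ₁ χ₂ ω₀ hω₀.pow_eq_one hχ₁ hχ₂ hE₁ hE₂ B₁ B₂ P₃ hP₃0 hB₁0 hB₂0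
    hB₁n hB₂n (by rw [hB₁r]; exact hQm) (by rw [hB₂r]; exact hQ'm) hnr hn'r'
    (Nat.Coprime.coprime_dvd_right hrm hP₃m) (Nat.Coprime.coprime_dvd_right hr'm hP₃m)
    hP₃𝔪 hχP₁ hχP₂
  rw [hB₁r, hB₂r] at hfin
  exact hfin

end Fermat.Agent.F4Rec
end
end MergeWrap_F4_Recip_Compare

section MergeWrap_F4_Recip_ArtinRayOfERec -- from F4/Recip/ArtinRayOfERec.lean

/-!
# F4/Recip: `ArtinRay` from `ERec`

`FirstIneqRay` is unconditional (`F4G.firstIneqRay`, helper86), `SplitNorm` too (helper32), and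
`CompareRay` follows from `ERec` (`compareRay_of`).
-/

set_option autoImplicit false

namespace Fermat.Agent.F4Rec

/-- `CompareRayImp`, given `ERecImp`. -/
theorem compareRayImp_of (h : ERecImp) : CompareRayImp :=
  fun hSI => compareRay_of (h hSI coprimeNorm coprimeAbsNorm)

/-- `ArtinRayImp`. -/
theorem artinRayImp : ArtinRayImp := fun hFI hC => artinRay_of hFI hC splitNorm

/-- **Artin reciprocity (ray form)** from the reciprocity statement `ERec` for the auxiliary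
"cyclotomic" extensions. -/
theorem artinRay_of_eRec (h : ERec) : ArtinRay :=
  artinRay_of Fermat.Agent.F4G.firstIneqRay (compareRay_of h) splitNorm

/-- **Artin reciprocity (ray form)** from `ERecImp`. -/
theorem artinRay_of_eRecImp (h : ERecImp) : ArtinRay :=
  artinRay_of_eRec (h Fermat.Agent.F4Ray.secondIneqRay coprimeNorm coprimeAbsNorm)

end Fermat.Agent.F4Rec
end MergeWrap_F4_Recip_ArtinRayOfERec

section MergeWrap_F4_Recip_Main -- from F4/Recip/Main.lean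

/-!
# F4 / GLOB reciprocity: Artin reciprocity in ray form, unconditional

`artinRay : ArtinRay` (distinct cyclic layers have distinct norm groups), from
`eRecImp` (piece RE), the first and second inequalities with modulus, and the crossing argument
(`artinRay_of_eRecImp`, helper14).
-/

set_option autoImplicit false

namespace Fermat.Agent.F4Rec

/-- `ERec`, unconditional. -/
theorem eRec : ERec :=
  eRecImp Fermat.Agent.F4Ray.secondIneqRay coprimeNorm coprimeAbsNorm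

/-- **Artin reciprocity (ray form).** -/
theorem artinRay : ArtinRay := artinRay_of_eRecImp eRecImp

end Fermat.Agent.F4Rec
end MergeWrap_F4_Recip_Main
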