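import Fermat.Agent.MU.F4.Recip.ArtinMap
import Fermat.Agent.MU.F4.Recip.Distinct
import Fermat.Agent.MU.F4.Recip.Main
import Fermat.Agent.MU.F4.Kum.RayApprox
import Fermat.Agent.F4.Recip.RayNorm
import Fermat.Agent.MU.S17.W.Final

section MergeWrap_F4_Recip_ArtinMapMain -- from F4/Recip/ArtinMapMain.lean

/-!
# F4/Recip: the Artin map, unconditionally

`artinMapExists : ArtinMapExists` (from `artinRay`), and the combination with `distinct_prime`.
-/

set_option autoImplicit false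

open NumberField IsDedekindDomain

namespace Fermat.Agent.F4Rec

/-- **The Artin map** of a Galois extension of odd prime degree exists (unconditional). -/
theorem artinMapExists : ArtinMapExists := artinMapExists_of artinRay

end Fermat.Agent.F4Rec
end MergeWrap_F4_Recip_ArtinMapMain

section MergeWrap_F4_Recip_NormApprox -- from F4/Recip/NormApprox.lean

/-!
# F4 / Recip / NormApprox : simultaneous approximation of local norms (seat ART, helper14)

`M/F` any extension of number fields (not necessarily Galois), `T` a finite set of primes of `F`.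

* `normApprox` : **(NA)** if `f ∈ Fˣ` is, at every `v ∈ T`, a norm to precision `k`
  (`f ∈ F4G.localNormsAt F M T k`), then there is ONE `y ∈ Mˣ` with
  `f / N(y) ∈ U_v^{(k+1)}` for all `v ∈ T`.

Proof: weak approximation in `M` at the primes above `T` (`F4G.exists_approx`), the integral
form of `U_w^{(K+1)}` (`F4Kum.rk2_exists_num_den`) and the continuity of the norm on integers
(`rn_intNorm_sub_one_mem`).
-/

set_option autoImplicit false

open NumberField IsDedekindDomain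

namespace Fermat.Agent.F4Rec

open Fermat.Agent.S14SI Fermat.Agent.F4G

section

variable {F : Type} [Field F] [NumberField F]

/-- `a ≡ 1 mod v ^ (k + 1)` implies `a ∈ U_v^{(k+1)}`. -/
theorem na_mem_oneMod (v : HeightOneSpectrum (𝓞 F)) (k : ℕ) {a : 𝓞 F} (ha : a ≠ 0)
    (h : a - 1 ∈ v.asIdeal ^ (k + 1)) :
    Units.mk0 (a : F) (by exact_mod_cast ha) ∈ oneModSubgroup F v k := by
  rw [mem_oneModSubgroup]
  have h2 : v.intValuation (a - 1) ≤ WithZero.exp (-((k + 1 : ℕ) : ℤ)) :=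
    (v.intValuation_le_pow_iff_mem _ _).mpr h
  have h3 : v.valuation F ((a : F) - 1) = v.intValuation (a - 1) := by
    rw [← v.valuation_of_algebraMap (K := F)]
    congr 1
  rw [Units.val_mk0, h3]
  refine lt_of_le_of_lt h2 ?_
  exact WithZero.exp_lt_exp.mpr (by push_cast; omega)

variable (M : Type) [Field M] [NumberField M] [Algebra F M]

/-- The primes of `M` above the prime `v` of `F`, as a finset. -/
noncomputable def naAbove (v : HeightOneSpectrum (𝓞 F)) : Finset (HeightOneSpectrum (𝓞 M)) :=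
  Set.Finite.toFinset (s := {w | w.asIdeal.under (𝓞 F) = v.asIdeal}) (by
    have h : (v.asIdeal.primesOver (𝓞 M)).Finite :=
      IsDedekindDomain.primesOver_finite v.asIdeal (𝓞 M)
    refine Set.Finite.of_finite_image (f := HeightOneSpectrum.asIdeal) (h.subset ?_)
      (fun _ _ _ _ h => HeightOneSpectrum.ext h)
    rintro _ ⟨w, hw, rfl⟩
    exact ⟨w.isPrime, ⟨(show w.asIdeal.under (𝓞 F) = v.asIdeal from hw).symm⟩⟩)

variable {M}

theorem mem_naAbove {v : HeightOneSpectrum (𝓞 F)} {w : HeightOneSpectrum (𝓞 M)} :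
    w ∈ naAbove M v ↔ w.asIdeal.under (𝓞 F) = v.asIdeal := by
  unfold naAbove
  rw [Set.Finite.mem_toFinset]
  rfl

theorem naAbove_nonempty (v : HeightOneSpectrum (𝓞 F)) : (naAbove M v).Nonempty := by
  have : v.asIdeal.IsMaximal := v.isMaximal
  obtain ⟨Q, hQmax, hQ⟩ :=
    Ideal.exists_maximal_ideal_liesOver_of_isIntegral (S := 𝓞 M) v.asIdeal
  have hQ0 : Q ≠ ⊥ := Ideal.ne_bot_of_liesOver_of_ne_bot v.ne_bot Q
  exact ⟨⟨Q, hQmax.isPrime, hQ0⟩, mem_naAbove.2 hQ.over.symm⟩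

/-- A prime of `M` containing `v 𝓞_M` lies above `v`. -/
theorem na_mem_of_map_le (v : HeightOneSpectrum (𝓞 F)) (w : HeightOneSpectrum (𝓞 M))
    (h : v.asIdeal.map (algebraMap (𝓞 F) (𝓞 M)) ≤ w.asIdeal) : w ∈ naAbove M v := by
  rw [mem_naAbove]
  have h1 : v.asIdeal ≤ w.asIdeal.under (𝓞 F) := Ideal.map_le_iff_le_comap.mp h
  have h2 : (w.asIdeal.under (𝓞 F)).IsPrime := Ideal.comap_isPrime _ _
  exact (v.isMaximal.eq_of_le h2.ne_top h1).symm

/-- A power of the product of the primes above `v` lies in `v 𝓞_M`. -/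
theorem na_exists_pow_le (v : HeightOneSpectrum (𝓞 F)) :
    ∃ N : ℕ, (∏ w ∈ naAbove M v, w.asIdeal) ^ N ≤ v.asIdeal.map (algebraMap (𝓞 F) (𝓞 M)) := by
  have hI0 : v.asIdeal.map (algebraMap (𝓞 F) (𝓞 M)) ≠ ⊥ := by
    rw [Ne, Ideal.map_eq_bot_iff_of_injective
      (FaithfulSMul.algebraMap_injective (𝓞 F) (𝓞 M))]
    exact v.ne_bot
  obtain ⟨N, hN⟩ := (v.asIdeal.map (algebraMap (𝓞 F) (𝓞 M))).exists_radical_pow_le_of_fg
    (IsNoetherian.noetherian _)
  have hrad : ∏ w ∈ naAbove M v, w.asIdeal ≤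
      (v.asIdeal.map (algebraMap (𝓞 F) (𝓞 M))).radical := by
    rw [Ideal.radical_eq_sInf]
    refine le_sInf ?_
    rintro J ⟨hIJ, hJ⟩
    have hJ0 : J ≠ ⊥ := by
      rintro rfl
      exact hI0 (le_bot_iff.mp hIJ)
    have hw := na_mem_of_map_le v (⟨J, hJ, hJ0⟩ : HeightOneSpectrum (𝓞 M)) hIJ
    exact le_trans Ideal.prod_le_inf
      (Finset.inf_le (f := fun w : HeightOneSpectrum (𝓞 M) => w.asIdeal) hw)
  exact ⟨N, le_trans (Ideal.pow_right_mono hrad N) hN⟩

/-- The norm of an element of `Mˣ` which is `≡ 1` to high precision at all primes above `v` is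
`≡ 1` to precision `k` at `v`. -/
theorem na_norm_mem_oneMod (v : HeightOneSpectrum (𝓞 F)) (k : ℕ) :
    ∃ K : ℕ, ∀ K' : ℕ, K ≤ K' → ∀ x : Mˣ, (∀ w ∈ naAbove M v, x ∈ oneModSubgroup M w K') →
      normUnits F M x ∈ oneModSubgroup F v k := by
  obtain ⟨N, hN⟩ := na_exists_pow_le (M := M) v
  refine ⟨N * (k + 1), fun K hK x hx => ?_⟩
  obtain ⟨n, d, hn0, hd0, hn, hd, hnd⟩ :=
    Fermat.Agent.F4Kum.rk2_exists_num_den (naAbove M v) (naAbove_nonempty v) K x hx
  have hle : ∏ w ∈ naAbove M v, w.asIdeal ^ (K + 1) ≤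
      (v.asIdeal ^ (k + 1)).map (algebraMap (𝓞 F) (𝓞 M)) := by
    rw [Finset.prod_pow, Ideal.map_pow]
    calc (∏ w ∈ naAbove M v, w.asIdeal) ^ (K + 1)
        ≤ (∏ w ∈ naAbove M v, w.asIdeal) ^ (N * (k + 1)) := Ideal.pow_le_pow_right (by omega)
      _ = ((∏ w ∈ naAbove M v, w.asIdeal) ^ N) ^ (k + 1) := pow_mul _ _ _
      _ ≤ _ := Ideal.pow_right_mono hN (k + 1)
  have hn1 : n - 1 ∈ (v.asIdeal ^ (k + 1)).map (algebraMap (𝓞 F) (𝓞 M)) :=
    hle (Fermat.Agent.F4Kum.rk2_mem_prod _ _ hn)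
  have hd1 : d - 1 ∈ (v.asIdeal ^ (k + 1)).map (algebraMap (𝓞 F) (𝓞 M)) :=
    hle (Fermat.Agent.F4Kum.rk2_mem_prod _ _ hd)
  have hNn := rn_intNorm_sub_one_mem (v.asIdeal ^ (k + 1)) n hn1
  have hNd := rn_intNorm_sub_one_mem (v.asIdeal ^ (k + 1)) d hd1
  have hNn0 : Algebra.intNorm (𝓞 F) (𝓞 M) n ≠ 0 := Algebra.intNorm_ne_zero.mpr hn0
  have hNd0 : Algebra.intNorm (𝓞 F) (𝓞 M) d ≠ 0 := Algebra.intNorm_ne_zero.mpr hd0
  have h1 := na_mem_oneMod v k hNn0 hNn
  have h2 := na_mem_oneMod v k hNd0 hNd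
  have e : normUnits F M x =
      Units.mk0 ((Algebra.intNorm (𝓞 F) (𝓞 M) n : 𝓞 F) : F) (by exact_mod_cast hNn0) /
        Units.mk0 ((Algebra.intNorm (𝓞 F) (𝓞 M) d : 𝓞 F) : F) (by exact_mod_cast hNd0) := by
    apply Units.ext
    rw [Units.val_div_eq_div_val, Units.val_mk0, Units.val_mk0]
    show Algebra.norm F (x : M) = _
    have hdM : ((d : 𝓞 M) : M) ≠ 0 := by exact_mod_cast hd0
    have hdF : ((Algebra.intNorm (𝓞 F) (𝓞 M) d : 𝓞 F) : F) ≠ 0 := by exact_mod_cast hNd0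
    have hxd : (x : M) * (d : M) = (n : M) := by
      rw [hnd, div_mul_cancel₀ _ hdM]
    have e1 : ((Algebra.intNorm (𝓞 F) (𝓞 M) n : 𝓞 F) : F) = Algebra.norm F ((n : 𝓞 M) : M) :=
      Algebra.algebraMap_intNorm (A := 𝓞 F) (K := F) (L := M) (B := 𝓞 M) n
    have e2 : ((Algebra.intNorm (𝓞 F) (𝓞 M) d : 𝓞 F) : F) = Algebra.norm F ((d : 𝓞 M) : M) :=
      Algebra.algebraMap_intNorm (A := 𝓞 F) (K := F) (L := M) (B := 𝓞 M) d
    rw [eq_div_iff hdF, e1, e2, ← map_mul, hxd]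
  rw [e]
  exact (oneModSubgroup F v k).div_mem h1 h2

/-- **(NA) simultaneous approximation of local norms**: an element of `Fˣ` which is a norm to
precision `k` at every `v ∈ T` is, up to ONE global norm, `≡ 1` to precision `k` at all
`v ∈ T`. -/
theorem normApprox (T : Finset (HeightOneSpectrum (𝓞 F))) (k : ℕ) (f : Fˣ)
    (hf : f ∈ localNormsAt F M T k) :
    ∃ y : Mˣ, ∀ v ∈ T, f / normUnits F M y ∈ oneModSubgroup F v k := by
  classical
  rw [mem_localNormsAt] at hf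
  have hz : ∀ v : HeightOneSpectrum (𝓞 F), ∃ z : Mˣ,
      v ∈ T → f / normUnits F M z ∈ oneModSubgroup F v k := by
    intro v
    by_cases hv : v ∈ T
    · obtain ⟨z, hz⟩ := mem_localNormGroup.mp (hf v hv)
      exact ⟨z, fun _ => hz⟩
    · exact ⟨1, fun h => absurd h hv⟩
  choose z hz using hz
  have hK := fun v : HeightOneSpectrum (𝓞 F) => na_norm_mem_oneMod (M := M) v k
  choose K hK using hK
  let below : HeightOneSpectrum (𝓞 M) → HeightOneSpectrum (𝓞 F) := fun w =>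
    ⟨w.asIdeal.under (𝓞 F), inferInstance, Ideal.under_ne_bot (𝓞 F) w.ne_bot⟩
  obtain ⟨y, hy⟩ := exists_approx (T.biUnion (naAbove M)) (fun w => z (below w)) (∑ v ∈ T, K v)
  refine ⟨y, fun v hv => ?_⟩
  have hx : ∀ w ∈ naAbove M v, y / z v ∈ oneModSubgroup M w (∑ v ∈ T, K v) := by
    intro w hw
    have h1 := hy w (Finset.mem_biUnion.mpr ⟨v, hv, hw⟩)
    have e : below w = v := HeightOneSpectrum.ext (mem_naAbove.1 hw)
    rw [e] at h1
    exact h1
  have h1 := hK v (∑ v ∈ T, K v)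
    (Finset.single_le_sum (f := K) (fun _ _ => Nat.zero_le _) hv) (y / z v) hx
  have h2 := hz v hv
  have e : f / normUnits F M y = (f / normUnits F M (z v)) * (normUnits F M (y / z v))⁻¹ := by
    rw [map_div, inv_div, div_mul_div_cancel]
  rw [e]
  exact (oneModSubgroup F v k).mul_mem h2 ((oneModSubgroup F v k).inv_mem h1)

end

end Fermat.Agent.F4Rec
end MergeWrap_F4_Recip_NormApprox

section MergeWrap_F4_Recip_ArtinSym -- from F4/Recip/ArtinSym.lean

/-!
# F4 / Recip / ArtinSym : the reciprocity law on local norms, pointwise form (seat ART, helper14)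

`M/F` Galois of odd prime degree `p`, unramified outside `T ≠ ∅`, `A` the Artin map of
`ArtinMap.lean`.  For `f ∈ Fˣ` put `ordV v f = ord_v f` (`= - log (v.valuation f)`).

* `as_formula` : a multiplicative function `B` on the nonzero ideals of a Dedekind domain is
  `B I = ∏ᶠ v, B v ^ ord_v I`;
* `as_core` : (abstract form, `H` any commutative group of exponent `p`) if `f ∈ Fˣ` is a local
  norm at all `v ∈ T` to precision `k₀`, `A P ≠ 1` (`P ∉ T`) and for all other `v ∉ T`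
  either `A v = 1` or `p ∣ ord_v f`, then `p ∣ ord_P f`;
* `artin_core` : the same for the Artin map (**reciprocity**, the form used by the derivation of
  `dict_first` / `dict_distinct` / `dict_local`);
* `artin_inert` : if `A v ≠ 1` then there is only one prime of `M` above `v`.
-/

set_option autoImplicit false

open NumberField IsDedekindDomain FractionalIdeal
open scoped nonZeroDivisors Pointwise

namespace Fermat.Agent.F4Rec

open Fermat.Agent.S14SI Fermat.Agent.F4G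

section General

variable {R : Type*} [CommRing R] [IsDedekindDomain R] (K : Type*) [Field K] [Algebra R K]
  [IsFractionRing R K]

/-- Finiteness of the support of `v ↦ b v ^ ord_v I`. -/
theorem as_finite_mulSupport {H : Type*} [CommGroup H] (b : HeightOneSpectrum R → H)
    (I : FractionalIdeal R⁰ K) :
    Function.HasFiniteMulSupport fun v : HeightOneSpectrum R => b v ^ count K v I := by
  show (Function.mulSupport fun v : HeightOneSpectrum R => b v ^ count K v I).Finite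
  have h := FractionalIdeal.finite_factors (K := K) I
  rw [Filter.eventually_cofinite] at h
  refine h.subset fun v hv h0 => ?_
  apply hv
  show b v ^ count K v I = 1
  rw [h0, zpow_zero]

/-- A multiplicative function on the nonzero ideals is determined by its values on the primes. -/
theorem as_formula {H : Type*} [CommGroup H] (B : Ideal R → H)
    (hmul : ∀ I J : Ideal R, I ≠ ⊥ → J ≠ ⊥ → B (I * J) = B I * B J) (htop : B ⊤ = 1)
    (I : Ideal R) (hI : I ≠ ⊥) :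
    B I = ∏ᶠ v : HeightOneSpectrum R, B v.asIdeal ^ count K v (I : FractionalIdeal R⁰ K) := by
  induction I using UniqueFactorizationMonoid.induction_on_prime with
  | h₁ => exact absurd rfl hI
  | h₂ J hJu =>
    have hJ : J = ⊤ := by
      rw [← Ideal.one_eq_top]
      exact isUnit_iff_eq_one.mp hJu
    subst hJ
    rw [htop]
    symm
    apply finprod_eq_one_of_forall_eq_one
    intro v
    rw [coeIdeal_top, count_one, zpow_zero]
  | h₃ J P hJ0 hP ih =>
    have hP0 : P ≠ ⊥ := hP.ne_zero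
    have hPp : P.IsPrime := Ideal.isPrime_of_prime hP
    have e : ∀ v : HeightOneSpectrum R,
        B v.asIdeal ^ count K v ((P * J : Ideal R) : FractionalIdeal R⁰ K) =
          B v.asIdeal ^ count K v ((P : Ideal R) : FractionalIdeal R⁰ K) *
            B v.asIdeal ^ count K v ((J : Ideal R) : FractionalIdeal R⁰ K) := by
      intro v
      rw [coeIdeal_mul, count_mul K v (coeIdeal_ne_zero.mpr hP0) (coeIdeal_ne_zero.mpr hJ0),
        zpow_add]
    rw [hmul P J hP0 hJ0, ih hJ0, finprod_congr e,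
      finprod_mul_distrib (as_finite_mulSupport K _ _) (as_finite_mulSupport K _ _)]
    congr 1
    have h1 : ∀ v : HeightOneSpectrum R, v ≠ (⟨P, hPp, hP0⟩ : HeightOneSpectrum R) →
        B v.asIdeal ^ count K v ((P : Ideal R) : FractionalIdeal R⁰ K) = 1 := by
      intro v hv
      have := count_maximal_coprime K v (w := (⟨P, hPp, hP0⟩ : HeightOneSpectrum R)) hv.symm
      rw [this, zpow_zero]
    rw [finprod_eq_single _ (⟨P, hPp, hP0⟩ : HeightOneSpectrum R) h1]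
    have := count_self K (⟨P, hPp, hP0⟩ : HeightOneSpectrum R)
    rw [this, zpow_one]

end General

section NF

variable {F : Type} [Field F] [NumberField F]

/-- The order of `x ∈ Fˣ` at `v`. -/
noncomputable def ordV (v : HeightOneSpectrum (𝓞 F)) (x : Fˣ) : ℤ :=
  -(WithZero.log (v.valuation F (x : F)))

theorem ordV_eq_count (v : HeightOneSpectrum (𝓞 F)) (x : Fˣ) :
    ordV v x = count F v (spanSingleton (𝓞 F)⁰ (x : F)) := by
  unfold ordV
  rw [valuation_eq_exp_neg_count v x.ne_zero, WithZero.log_exp, neg_neg]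

theorem ordV_mul (v : HeightOneSpectrum (𝓞 F)) (x y : Fˣ) :
    ordV v (x * y) = ordV v x + ordV v y := by
  rw [ordV_eq_count, ordV_eq_count, ordV_eq_count, Units.val_mul,
    ← spanSingleton_mul_spanSingleton,
    count_mul F v (spanSingleton_ne_zero_iff.mpr x.ne_zero)
      (spanSingleton_ne_zero_iff.mpr y.ne_zero)]

theorem ordV_eq_zero_of_valuation_eq_one (v : HeightOneSpectrum (𝓞 F)) (x : Fˣ)
    (h : v.valuation F (x : F) = 1) : ordV v x = 0 := by
  unfold ordV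
  rw [h, WithZero.log_one, neg_zero]

theorem as_finite_ordV {H : Type*} [CommGroup H] (b : HeightOneSpectrum (𝓞 F) → H) (x : Fˣ) :
    Function.HasFiniteMulSupport fun v : HeightOneSpectrum (𝓞 F) => b v ^ ordV v x := by
  have e : (fun v : HeightOneSpectrum (𝓞 F) => b v ^ ordV v x) =
      fun v => b v ^ count F v (spanSingleton (𝓞 F)⁰ (x : F)) := by
    funext v
    rw [ordV_eq_count]
  rw [e]
  exact as_finite_mulSupport F b _

variable {M : Type} [Field M] [NumberField M] [Algebra F M]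

/-- **Reciprocity on local norms, abstract pointwise form.** -/
theorem as_core {H : Type*} [CommGroup H] (p : ℕ) (hp : p.Prime)
    (T : Finset (HeightOneSpectrum (𝓞 F))) (hT : T.Nonempty) (k₀ : ℕ) (hk₀ : 1 ≤ k₀)
    (A : Ideal (𝓞 F) → H)
    (hmul : ∀ I J : Ideal (𝓞 F), I ≠ ⊥ → J ≠ ⊥ → A (I * J) = A I * A J) (htop : A ⊤ = 1)
    (hpow : ∀ h : H, h ^ p = 1)
    (hray : ∀ a : 𝓞 F, a ≠ 0 → a - 1 ∈ modT T k₀ → A (Ideal.span {a}) = 1)
    (hnorm : ∀ Q : Ideal (𝓞 M), Q.IsPrime → Q ≠ ⊥ → (∀ v ∈ T, Q.under (𝓞 F) ≠ v.asIdeal) →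
      A (Ideal.relNorm (𝓞 F) Q) = 1)
    (f : Fˣ) (hf : f ∈ localNormsAt F M T k₀) (P : HeightOneSpectrum (𝓞 F)) (hP : P ∉ T)
    (hAP : A P.asIdeal ≠ 1)
    (hall : ∀ v : HeightOneSpectrum (𝓞 F), v ∉ T → v ≠ P →
      A v.asIdeal = 1 ∨ (p : ℤ) ∣ ordV v f) :
    (p : ℤ) ∣ ordV P f := by
  classical
  have hpF : Fact p.Prime := ⟨hp⟩
  -- the Artin symbol, trivialised on `T`
  set g : HeightOneSpectrum (𝓞 F) → H := fun v => if v ∈ T then 1 else A v.asIdeal with hg
  obtain ⟨A₀, hmul₀, hprime₀, htop₀⟩ := ac_exists_mul_extension (R := 𝓞 F)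
    (fun I : Ideal (𝓞 F) => if h : I.IsPrime ∧ I ≠ ⊥ then g ⟨I, h.1, h.2⟩ else 1)
  have hA₀v : ∀ v : HeightOneSpectrum (𝓞 F), A₀ v.asIdeal = g v := by
    intro v
    rw [hprime₀ _ v.isPrime v.ne_bot, dif_pos ⟨v.isPrime, v.ne_bot⟩]
  set Ψ : Fˣ → H := fun x => ∏ᶠ v : HeightOneSpectrum (𝓞 F), g v ^ ordV v x with hΨ
  have hspan : ∀ a : 𝓞 F, a ≠ 0 → (Ideal.span {a} : Ideal (𝓞 F)) ≠ ⊥ := by
    intro a ha
    rwa [Ne, Ideal.span_singleton_eq_bot]
  have hcoe : ∀ a : 𝓞 F, a ≠ 0 → ((a : 𝓞 F) : F) ≠ 0 := by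
    intro a ha
    exact_mod_cast ha
  -- `Ψ` on the integers
  have hΨint : ∀ (a : 𝓞 F) (ha : a ≠ 0), Ψ (Units.mk0 (a : F) (hcoe a ha)) =
      A₀ (Ideal.span {a}) := by
    intro a ha
    rw [as_formula F A₀ hmul₀ htop₀ _ (hspan a ha)]
    refine finprod_congr fun v => ?_
    rw [hA₀v, ordV_eq_count, Units.val_mk0, coeIdeal_span_singleton]
  have hΨmul : ∀ x y : Fˣ, Ψ (x * y) = Ψ x * Ψ y := by
    intro x y
    have e : ∀ v : HeightOneSpectrum (𝓞 F),
        g v ^ ordV v (x * y) = g v ^ ordV v x * g v ^ ordV v y := by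
      intro v
      rw [ordV_mul, zpow_add]
    show ∏ᶠ v : HeightOneSpectrum (𝓞 F), g v ^ ordV v (x * y) = _
    rw [finprod_congr e, finprod_mul_distrib (as_finite_ordV g x) (as_finite_ordV g y)]
  -- the ray condition
  have hV1 : ∀ (a : 𝓞 F) (ha : a ≠ 0), a - 1 ∈ modT T k₀ →
      Ψ (Units.mk0 (a : F) (hcoe a ha)) = 1 := by
    intro a ha h1
    rw [← hray a ha h1, as_formula F A hmul htop _ (hspan a ha)]
    refine finprod_congr fun v => ?_
    by_cases hv : v ∈ T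
    · have hmem : a - 1 ∈ v.asIdeal ^ (0 + 1) := by
        rw [zero_add, pow_one]
        exact rg_modT_le hk₀ hv h1
      have h2 := valuation_eq_one_of_mem_oneModSubgroup (na_mem_oneMod v 0 ha hmem)
      have h3 := ordV_eq_zero_of_valuation_eq_one v _ h2
      have h4 : count F v ((Ideal.span {a} : Ideal (𝓞 F)) : FractionalIdeal (𝓞 F)⁰ F) = 0 := by
        rw [← h3, ordV_eq_count, Units.val_mk0, coeIdeal_span_singleton]
      rw [h3, h4, zpow_zero, zpow_zero]
    · rw [ordV_eq_count, Units.val_mk0, coeIdeal_span_singleton]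
      simp only [hg, if_neg hv]
  -- the norms
  have hA₀pow : ∀ (I : Ideal (𝓞 F)), I ≠ ⊥ → ∀ n : ℕ, A₀ (I ^ n) = A₀ I ^ n := by
    intro I hI n
    induction n with
    | zero => rw [pow_zero, pow_zero, Ideal.one_eq_top, htop₀]
    | succ n ih => rw [pow_succ, hmul₀ _ _ (pow_ne_zero n hI) hI, ih, pow_succ]
  have hApow : ∀ (I : Ideal (𝓞 F)), I ≠ ⊥ → ∀ n : ℕ, A (I ^ n) = A I ^ n := by
    intro I hI n
    induction n with
    | zero => rw [pow_zero, pow_zero, Ideal.one_eq_top, htop]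
    | succ n ih => rw [pow_succ, hmul _ _ (pow_ne_zero n hI) hI, ih, pow_succ]
  have hA₀prime : ∀ Q : Ideal (𝓞 M), Q.IsPrime → Q ≠ ⊥ → A₀ (Ideal.relNorm (𝓞 F) Q) = 1 := by
    intro Q hQ hQ0
    have hP' : (Q.under (𝓞 F)).IsPrime := Ideal.comap_isPrime _ _
    have hP0 : Q.under (𝓞 F) ≠ ⊥ := Ideal.under_ne_bot (𝓞 F) hQ0
    obtain ⟨s, hs⟩ := Ideal.exists_relNorm_eq_pow_of_isPrime Q (Q.under (𝓞 F))
    have h1 := hA₀v ⟨Q.under (𝓞 F), hP', hP0⟩
    rw [hs, hA₀pow _ hP0, h1]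
    by_cases hv : (⟨Q.under (𝓞 F), hP', hP0⟩ : HeightOneSpectrum (𝓞 F)) ∈ T
    · simp only [hg, if_pos hv, one_pow]
    · simp only [hg, if_neg hv]
      rw [← hApow _ hP0, ← hs]
      refine hnorm Q hQ hQ0 fun v hvT hvQ => hv ?_
      have : (⟨Q.under (𝓞 F), hP', hP0⟩ : HeightOneSpectrum (𝓞 F)) = v :=
        HeightOneSpectrum.ext hvQ
      rw [this]
      exact hvT
  have hA₀norm : ∀ 𝔄 : Ideal (𝓞 M), 𝔄 ≠ ⊥ → A₀ (Ideal.relNorm (𝓞 F) 𝔄) = 1 := by
    intro 𝔄 h𝔄
    induction 𝔄 using UniqueFactorizationMonoid.induction_on_prime with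
    | h₁ => exact absurd rfl h𝔄
    | h₂ J hJu =>
      have hJ : J = ⊤ := by
        rw [← Ideal.one_eq_top]
        exact isUnit_iff_eq_one.mp hJu
      rw [hJ, Ideal.relNorm_top, htop₀]
    | h₃ J Q hJ0 hQ ih =>
      have hQ0 : Q ≠ ⊥ := hQ.ne_zero
      have hQp : Q.IsPrime := Ideal.isPrime_of_prime hQ
      have h1 : Ideal.relNorm (𝓞 F) Q ≠ ⊥ := by
        rw [Ne, Ideal.relNorm_eq_bot_iff]
        exact hQ0
      have h2 : Ideal.relNorm (𝓞 F) J ≠ ⊥ := by
        rw [Ne, Ideal.relNorm_eq_bot_iff]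
        exact hJ0
      rw [map_mul, hmul₀ _ _ h1 h2, hA₀prime Q hQp hQ0, ih hJ0, one_mul]
  have hV2int : ∀ (b : 𝓞 M) (hb : b ≠ 0),
      Ψ (Units.mk0 ((Algebra.intNorm (𝓞 F) (𝓞 M) b : 𝓞 F) : F)
        (hcoe _ (Algebra.intNorm_ne_zero.mpr hb))) = 1 := by
    intro b hb
    rw [hΨint _ (Algebra.intNorm_ne_zero.mpr hb), ← Ideal.relNorm_singleton]
    exact hA₀norm _ (by rwa [Ne, Ideal.span_singleton_eq_bot])
  have hV2 : ∀ y : Mˣ, Ψ (normUnits F M y) = 1 := by
    intro y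
    obtain ⟨b₁, b₂, hb₂, hbb⟩ := IsFractionRing.div_surjective (A := 𝓞 M) (y : M)
    have hb₂0 : b₂ ≠ 0 := nonZeroDivisors.ne_zero hb₂
    have hb₂M : algebraMap (𝓞 M) M b₂ ≠ 0 := by simpa using hb₂0
    have hb₁0 : b₁ ≠ 0 := by
      rintro rfl
      rw [map_zero, zero_div] at hbb
      exact y.ne_zero hbb.symm
    have hmulM : (y : M) * algebraMap (𝓞 M) M b₂ = algebraMap (𝓞 M) M b₁ := by
      rw [← hbb]
      field_simp
    have e : normUnits F M y * Units.mk0 ((Algebra.intNorm (𝓞 F) (𝓞 M) b₂ : 𝓞 F) : F)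
        (hcoe _ (Algebra.intNorm_ne_zero.mpr hb₂0)) =
        Units.mk0 ((Algebra.intNorm (𝓞 F) (𝓞 M) b₁ : 𝓞 F) : F)
          (hcoe _ (Algebra.intNorm_ne_zero.mpr hb₁0)) := by
      apply Units.ext
      rw [Units.val_mul, Units.val_mk0, Units.val_mk0]
      show Algebra.norm F (y : M) * _ = _
      have e1 : ((Algebra.intNorm (𝓞 F) (𝓞 M) b₁ : 𝓞 F) : F) =
          Algebra.norm F (algebraMap (𝓞 M) M b₁) :=
        Algebra.algebraMap_intNorm (A := 𝓞 F) (K := F) (L := M) (B := 𝓞 M) b₁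
      have e2 : ((Algebra.intNorm (𝓞 F) (𝓞 M) b₂ : 𝓞 F) : F) =
          Algebra.norm F (algebraMap (𝓞 M) M b₂) :=
        Algebra.algebraMap_intNorm (A := 𝓞 F) (K := F) (L := M) (B := 𝓞 M) b₂
      rw [e1, e2, ← map_mul, hmulM]
    have h := congrArg Ψ e
    rw [hΨmul, hV2int b₂ hb₂0, hV2int b₁ hb₁0, mul_one] at h
    exact h
  -- `f = N(y) n / d`
  obtain ⟨y, hy⟩ := normApprox T k₀ f hf
  obtain ⟨n, d, hn0, hd0, hn, hd, hnd⟩ :=
    Fermat.Agent.F4Kum.rk2_exists_num_den T hT k₀ (f / normUnits F M y) hy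
  have hn' : n - 1 ∈ modT T k₀ :=
    modT_anti T (Nat.le_succ k₀) (Fermat.Agent.F4Kum.rk2_mem_prod T (k₀ + 1) hn)
  have hd' : d - 1 ∈ modT T k₀ :=
    modT_anti T (Nat.le_succ k₀) (Fermat.Agent.F4Kum.rk2_mem_prod T (k₀ + 1) hd)
  have hΨf : Ψ f = 1 := by
    have e : f * Units.mk0 (d : F) (hcoe d hd0) =
        normUnits F M y * Units.mk0 (n : F) (hcoe n hn0) := by
      apply Units.ext
      rw [Units.val_mul, Units.val_mul, Units.val_mk0, Units.val_mk0]
      have h1 : ((f / normUnits F M y : Fˣ) : F) = (f : F) / ((normUnits F M y : Fˣ) : F) :=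
        Units.val_div_eq_div_val _ _
      rw [h1] at hnd
      have h2 : ((normUnits F M y : Fˣ) : F) ≠ 0 := (normUnits F M y).ne_zero
      have h3 : ((d : 𝓞 F) : F) ≠ 0 := hcoe d hd0
      field_simp at hnd
      rw [hnd]
    have h := congrArg Ψ e
    rw [hΨmul, hΨmul, hV1 d hd0 hd', hV1 n hn0 hn', hV2 y, mul_one, mul_one] at h
    exact h
  -- only `P` contributes
  have hsingle : Ψ f = g P ^ ordV P f := by
    refine finprod_eq_single _ P fun v hv => ?_
    by_cases hvT : v ∈ T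
    · simp only [hg, if_pos hvT, one_zpow]
    · simp only [hg, if_neg hvT]
      rcases hall v hvT hv with h | ⟨c, hc⟩
      · rw [h, one_zpow]
      · rw [hc, zpow_mul, zpow_natCast, hpow, one_zpow]
  rw [hΨf] at hsingle
  have hgP : g P = A P.asIdeal := by simp only [hg, if_neg hP]
  rw [hgP] at hsingle
  have hord : orderOf (A P.asIdeal) = p := orderOf_eq_prime (hpow _) hAP
  rw [← hord]
  exact orderOf_dvd_iff_zpow_eq_one.mpr hsingle.symm

end NF

section Galois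

variable {F M : Type} [Field F] [NumberField F] [Field M] [NumberField M] [Algebra F M]
  [IsGalois F M]

/-- `Gal(M/F)` has exponent `p`. -/
theorem as_pow_eq_one {p : ℕ} (hdeg : Module.finrank F M = p) (τ : M ≃ₐ[F] M) : τ ^ p = 1 := by
  have hcard : Nat.card (M ≃ₐ[F] M) = p := by
    rw [IsGalois.card_aut_eq_finrank, hdeg]
  rw [← hcard]
  exact pow_card_eq_one'

/-- **Reciprocity on local norms, pointwise form**: `M/F` Galois of odd prime degree `p`,
unramified outside `T ≠ ∅`.  There are an Artin map `A` (Frobenius elements) and a precision `k₀`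
such that for every `f ∈ Fˣ` which is a local norm to precision `k₀` at all `v ∈ T`:
if `A P ≠ 1` (`P ∉ T`) and for all other `v ∉ T` either `A v = 1` or `p ∣ ord_v f`, then
`p ∣ ord_P f`. -/
theorem artin_core (p : ℕ) (T : Finset (HeightOneSpectrum (𝓞 F))) (hp : p.Prime) (hp2 : p ≠ 2)
    (hdeg : Module.finrank F M = p) (hT : T.Nonempty) (hunr : UnramOutside F M T) :
    ∃ (A : Ideal (𝓞 F) → (M ≃ₐ[F] M)) (k₀ : ℕ),
      (∀ Q : Ideal (𝓞 M), Q.IsPrime → Q ≠ ⊥ →
        IsFrobRel (A (Q.under (𝓞 F))) Q (Ideal.absNorm (Q.under (𝓞 F)))) ∧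
      ∀ f : Fˣ, f ∈ localNormsAt F M T k₀ → ∀ P : HeightOneSpectrum (𝓞 F), P ∉ T →
        A P.asIdeal ≠ 1 →
        (∀ v : HeightOneSpectrum (𝓞 F), v ∉ T → v ≠ P →
          A v.asIdeal = 1 ∨ (p : ℤ) ∣ ordV v f) →
        (p : ℤ) ∣ ordV P f := by
  obtain ⟨A, k₀, hk₀, hmul, htop, hfrob, hray, -⟩ :=
    artinMapExists p F M T hp hp2 hdeg hT hunr
  refine ⟨A, k₀, hfrob, fun f hf P hP hAP hall => ?_⟩
  let _ : CommGroup (M ≃ₐ[F] M) :=
    { (inferInstance : Group (M ≃ₐ[F] M)) with mul_comm := ac_comm_of_finrank hp hdeg }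
  exact as_core (M := M) p hp T hT k₀ hk₀ A hmul htop (as_pow_eq_one hdeg)
    (fun a ha h => hray k₀ le_rfl a ha h)
    (fun Q hQ hQ0 hQT => ac_map_relNorm_prime hmul htop hfrob Q hQ hQ0 (hunr Q hQ hQ0 hQT))
    f hf P hP hAP hall

/-- A nontrivial Frobenius element at `Q` fixes `Q`. -/
theorem as_frob_smul_eq {τ : M ≃ₐ[F] M} {n : ℕ} (hn : n ≠ 0) {Q : Ideal (𝓞 M)} (hQ : Q.IsPrime)
    (hQ0 : Q ≠ ⊥) (hfrob : IsFrobRel τ Q n) : τ • Q = Q := by
  rw [isFrobRel_iff_mem] at hfrob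
  have hmax : Q.IsMaximal := hQ.isMaximal hQ0
  have hle : Q ≤ τ⁻¹ • Q := by
    intro x hx
    rw [Ideal.mem_inv_pointwise_smul_iff]
    have h1 := hfrob x
    have h2 : x ^ n ∈ Q := Ideal.pow_mem_of_mem Q hx n (Nat.pos_of_ne_zero hn)
    have e : τ • x = (τ • x - x ^ n) + x ^ n := by ring
    rw [e]
    exact Q.add_mem h1 h2
  have hne : τ⁻¹ • Q ≠ ⊤ := by
    intro h
    have h1 : (1 : 𝓞 M) ∈ τ⁻¹ • Q := by rw [h]; exact Submodule.mem_top
    rw [Ideal.mem_inv_pointwise_smul_iff, smul_one] at h1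
    exact hQ.ne_top ((Ideal.eq_top_iff_one Q).mpr h1)
  have heq : Q = τ⁻¹ • Q := hmax.eq_of_le hne hle
  calc τ • Q = τ • (τ⁻¹ • Q) := by rw [← heq]
    _ = Q := smul_inv_smul τ Q

/-- **Inert primes**: if a prime `Q` of `M` has a nontrivial Frobenius element, it is the only
prime of `M` above `Q ∩ F` (`[M : F]` prime). -/
theorem artin_inert {p : ℕ} (hp : p.Prime) (hdeg : Module.finrank F M = p) {τ : M ≃ₐ[F] M}
    (hτ : τ ≠ 1) {n : ℕ} (hn : n ≠ 0) {Q Q' : Ideal (𝓞 M)} (hQ : Q.IsPrime) (hQ0 : Q ≠ ⊥)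
    (hQ' : Q'.IsPrime) (hfrob : IsFrobRel τ Q n) (h : Q'.under (𝓞 F) = Q.under (𝓞 F)) :
    Q' = Q := by
  have hpF : Fact p.Prime := ⟨hp⟩
  have hcard : Nat.card (M ≃ₐ[F] M) = p := by
    rw [IsGalois.card_aut_eq_finrank, hdeg]
  have hfix : τ ∈ MulAction.stabilizer (M ≃ₐ[F] M) Q := as_frob_smul_eq hn hQ hQ0 hfrob
  have hall : ∀ σ : M ≃ₐ[F] M, σ • Q = Q := by
    intro σ
    have h1 : σ ∈ Subgroup.zpowers τ := mem_zpowers_of_prime_card hcard hτ
    have h2 : Subgroup.zpowers τ ≤ MulAction.stabilizer (M ≃ₐ[F] M) Q :=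
      (Subgroup.zpowers_le).mpr hfix
    exact h2 h1
  have : Q.LiesOver (Q.under (𝓞 F)) := ⟨rfl⟩
  have : Q'.LiesOver (Q.under (𝓞 F)) := ⟨h.symm⟩
  obtain ⟨σ, hσ⟩ := Ideal.exists_smul_eq_of_isGaloisGroup (Q.under (𝓞 F)) Q Q' (M ≃ₐ[F] M)
  rw [← hσ, hall σ]

end Galois

end Fermat.Agent.F4Rec
end MergeWrap_F4_Recip_ArtinSym
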